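import Mathlib
import Fermat.Prelude.Def_AlgebraicCurve_DivisorClassGroup
import Fermat.Prelude.Def_AlgebraicCurve_IsCurveOver
import Fermat.Prelude.Def_AlgebraicCurve_Repartitions
import Fermat.Prelude.Def_AlgebraicCurve_BaseChangeGalois

/-!
# LEF (helper99, sub-coordinator): constant field extensions of function fields — DEFINITIONS

One abstract module serving P3 `[DESC]` (descent `ℂ → ℚ̄` of torsion divisor classes of the
modular function field) and P5 `LEF` (Lefschetz transfer for S27).

`ConstExt K F K' F'` : `F'/K'` is the constant field extension of `F/K`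
(`F' = K'(F)`, `F` and `K'` linearly disjoint over `K`).  Everything is phrased with ring
homomorphisms `κ : K →+* K'`, `ι : F →+* F'` (no `Algebra K K'` / `Algebra F F'` instances), so
that the concrete fields of the Prelude (`laurentBaseChange L F₀`) are instances without
instance clashes.

This file contains DEFINITIONS ONLY (no theorem needs a proof to make them well defined: junk
values are used where existence is a theorem of the module):

* `ConstExt.IsExt P Q`   : the place `Q` of `F'/K'` lies over the place `P` of `F/K`;
* `ConstExt.IsNew Q`     : the place `Q` of `F'/K'` is trivial on `F`;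
* `ConstExt.extDiv P`    : the divisor `1 • Q` for the (unique) `Q` over `P` (junk `0`);
* `ConstExt.con`         : the conorm `Divisor K F →+ Divisor K' F'`;
* `ConstExt.ConOK`       : `con` preserves degrees and principal divisors;
* `ConstExt.conPic0`     : the induced map `Pic0 K F →+ Pic0 K' F'` (junk `0`);
* `ConstExt.gal`         : the group `Aut(K'/K)` as a subgroup of `RingAut K'`;
* `ConstExt.IsLift σ τ`  : `τ ∈ RingAut F'` extends `σ` and fixes `F`;
* `ConstExt.act σ`       : the semilinear automorphism of `F'/K'` attached to `σ` (junk `1`).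
-/

set_option autoImplicit false

noncomputable section

open AlgebraicCurve

namespace Fermat.Agent.LEF

/-- `F'/K'` is a constant field extension of `F/K`: `F' = K'(F)` and `K`-linearly independent
elements of `F` stay linearly independent over `K'`. -/
structure ConstExt (K F K' F' : Type*) [Field K] [Field F] [Algebra K F] [Field K'] [Field F']
    [Algebra K' F'] where
  /-- the inclusion of the constant fields -/
  κ : K →+* K'
  /-- the inclusion of the function fields -/
  ι : F →+* F'
  comm : ∀ a : K, ι (algebraMap K F a) = algebraMap K' F' (κ a)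
  gen : Subfield.closure (Set.range (algebraMap K' F') ∪ Set.range ι) = ⊤
  linDisj : ∀ (n : ℕ) (f : Fin n → F), LinearIndependent K f →
    LinearIndependent K' (fun i => ι (f i))

namespace ConstExt

variable {K F K' F' : Type*} [Field K] [Field F] [Algebra K F] [Field K'] [Field F']
  [Algebra K' F'] (C : ConstExt K F K' F')

/-- The place `Q` of `F'/K'` lies over the place `P` of `F/K`. -/
def IsExt (P : Place K F) (Q : Place K' F') : Prop :=
  ∀ f : F, C.ι f ∈ Q.toValuationSubring ↔ f ∈ P.toValuationSubring

/-- The place `Q` of `F'/K'` is *new*: it is trivial on `F`. -/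
def IsNew (Q : Place K' F') : Prop :=
  ∀ f : F, C.ι f ∈ Q.toValuationSubring

open Classical in
/-- The divisor `1 • Q`, `Q` the place over `P` (junk value `0` if there is none). -/
def extDiv (P : Place K F) : Divisor K' F' :=
  if h : ∃ Q : Place K' F', C.IsExt P Q then Finsupp.single h.choose 1 else 0

/-- The conorm of divisors. -/
def con : Divisor K F →+ Divisor K' F' :=
  Finsupp.liftAddHom fun P => (zmultiplesHom (Divisor K' F')) (C.extDiv P)

/-- `con` preserves degrees and principal divisors. -/
def ConOK : Prop :=
  (∀ D : Divisor K F, Divisor.degree (C.con D) = Divisor.degree D) ∧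
    ∀ D : Divisor K F, D ∈ Divisor.principal (K := K) (F := F) →
      C.con D ∈ Divisor.principal (K := K') (F := F')

/-- `con` on divisors of degree `0`. -/
def conDegZero (h : C.ConOK) :
    Divisor.degZero (K := K) (F := F) →+ Divisor.degZero (K := K') (F := F') :=
  (C.con.comp (Divisor.degZero (K := K) (F := F)).subtype).codRestrict _ (fun D => by
    rw [Divisor.mem_degZero]
    exact (h.1 D.1).trans D.2)

open Classical in
/-- The conorm on divisor classes of degree `0` (junk value `0` unless `ConOK`). -/
def conPic0 : Pic0 K F →+ Pic0 K' F' :=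
  if h : C.ConOK then
    QuotientAddGroup.map _ _ (C.conDegZero h) (by
      rintro ⟨D, hD0⟩ hD
      simp only [AddSubgroup.mem_comap, AddSubgroup.mem_addSubgroupOf] at hD ⊢
      exact h.2 D hD)
  else 0

/-- `Aut(K'/K)`. -/
def gal : Subgroup (RingAut K') where
  carrier := {σ | ∀ a : K, σ (C.κ a) = C.κ a}
  one_mem' _ := rfl
  mul_mem' := fun {σ τ} hσ hτ a => by
    show σ (τ (C.κ a)) = C.κ a
    rw [hτ a, hσ a]
  inv_mem' := fun {σ} hσ a => by
    show σ.symm (C.κ a) = C.κ a
    apply σ.injective
    rw [RingEquiv.apply_symm_apply, hσ a]

/-- `τ` extends `σ` to `F'` and fixes `F`. -/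
def IsLift (σ : RingAut K') (τ : RingAut F') : Prop :=
  (∀ c : K', τ (algebraMap K' F' c) = algebraMap K' F' (σ c)) ∧ ∀ f : F, τ (C.ι f) = C.ι f

open Classical in
/-- The semilinear automorphism of `F'/K'` which is `σ` on `K'` and the identity on `F`
(junk value `1` if there is none). -/
def act (σ : RingAut K') : SemilinearAut K' F' :=
  if h : ∃ τ : RingAut F', C.IsLift σ τ then ⟨(h.choose, σ), fun a => h.choose_spec.1 a⟩ else 1

end ConstExt

end Fermat.Agent.LEF
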