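import Mathlib
import Fermat.Agent.LEF.helper99_Defs

/-!
# LEF-FIX (helper12, task 466): Galois descent of subspaces for constant field extensions

Setting: `C : ConstExt K F K' F'`, `Γ = C.gal = Aut(K'/K)` acting on `F'` through `C.act`.

Inputs from other LEF packages enter as explicit hypotheses:
* `hact : ∀ σ ∈ C.gal, C.IsLift σ (SemilinearAut.toRingAut (C.act σ))`   (from ACT-3 `act_spec`);
* `hgal : ∀ c : K', (∀ σ ∈ C.gal, σ c = c) → c ∈ Set.range C.κ`            (= GAL-1).

Results (conditional on `hact`, `hgal`; no algebraic closedness, no `linDisj` needed):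
* `mem_span_fixed_of_stable`        : coordinate descent lemma in `K'ⁿ` (unconditional);
* `span_inter_eq_of_stable_of_le_of` : FIX-1;
* `mem_range_ι_of_fixed_of`          : FIX-2;
* `span_inter_eq_of_stable_of`       : FIX-3.
-/

set_option autoImplicit false

open AlgebraicCurve

namespace Fermat.Agent.LEF.helper12

section Core

variable {K' : Type*} [Field K'] {n : ℕ}

/-- **Descent lemma (coordinate form).** A subspace of `K'ⁿ` which is stable under the
coordinatewise action of a set `Γ` of automorphisms of `K'` is spanned by its `Γ`-fixed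
vectors. -/
theorem mem_span_fixed_of_stable (Γ : Set (RingAut K')) (V : Submodule K' (Fin n → K'))
    (hV : ∀ σ ∈ Γ, ∀ v ∈ V, (fun i => σ (v i)) ∈ V) (v : Fin n → K') (hv : v ∈ V) :
    v ∈ Submodule.span K' {w | w ∈ V ∧ ∀ σ ∈ Γ, ∀ i, σ (w i) = w i} := by
  classical
  induction h : (Finset.univ.filter fun i => v i ≠ 0).card using Nat.strong_induction_on
    generalizing v with
  | _ k ih =>
    by_cases hv0 : v = 0
    · rw [hv0]
      exact Submodule.zero_mem _
    -- the candidates
    let T : Set (Fin n → K') := {w | w ∈ V ∧ w ≠ 0 ∧ ∀ i, v i = 0 → w i = 0}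
    let S : Set ℕ := (fun w => (Finset.univ.filter fun i => w i ≠ 0).card) '' T
    have hS : S.Nonempty := ⟨_, v, ⟨hv, hv0, fun _ hi => hi⟩, rfl⟩
    obtain ⟨w, ⟨hwV, hw0, hwv⟩, hwmin⟩ := Nat.sInf_mem hS
    have hmin : ∀ u ∈ T, (Finset.univ.filter fun i => w i ≠ 0).card ≤
        (Finset.univ.filter fun i => u i ≠ 0).card := by
      intro u hu
      have h1 : sInf S ≤ (Finset.univ.filter fun i => u i ≠ 0).card := Nat.sInf_le ⟨u, hu, rfl⟩
      have h2 : (Finset.univ.filter fun i => w i ≠ 0).card = sInf S := hwmin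
      omega
    obtain ⟨i0, hi0⟩ : ∃ i0, w i0 ≠ 0 := by
      by_contra hcon
      exact hw0 (funext fun i => by_contra fun hi => hcon ⟨i, hi⟩)
    set w' : Fin n → K' := (w i0)⁻¹ • w with hw'
    have hw'V : w' ∈ V := V.smul_mem _ hwV
    have hw'i0 : w' i0 = 1 := by
      simp [hw', hi0]
    have hw'supp : ∀ i, w i = 0 → w' i = 0 := by
      intro i hi
      simp [hw', hi]
    -- `w'` is fixed
    have hfix : ∀ σ ∈ Γ, ∀ i, σ (w' i) = w' i := by
      intro σ hσ
      by_contra hcon
      set u : Fin n → K' := (fun i => σ (w' i)) - w' with hu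
      have hu0 : u ≠ 0 := by
        intro h0
        apply hcon
        intro i
        have := congrFun h0 i
        simpa [hu, sub_eq_zero] using this
      have huV : u ∈ V := V.sub_mem (hV σ hσ w' hw'V) hw'V
      have husupp : ∀ i, w i = 0 → u i = 0 := by
        intro i hi
        simp [hu, hw'supp i hi]
      have huT : u ∈ T := ⟨huV, hu0, fun i hi => husupp i (hwv i hi)⟩
      have hlt : (Finset.univ.filter fun i => u i ≠ 0).card <
          (Finset.univ.filter fun i => w i ≠ 0).card := by
        apply Finset.card_lt_card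
        rw [Finset.ssubset_iff_of_subset]
        · refine ⟨i0, by simp [hi0], ?_⟩
          simp [hu, hw'i0]
        · intro i hi
          simp only [Finset.mem_filter, Finset.mem_univ, true_and] at hi ⊢
          exact fun h => hi (husupp i h)
      have := hmin u huT
      omega
    -- subtract
    have hi0v : v i0 ≠ 0 := fun h => hi0 (hwv i0 h)
    set v' : Fin n → K' := v - v i0 • w' with hv'
    have hv'V : v' ∈ V := V.sub_mem hv (V.smul_mem _ hw'V)
    have hlt : (Finset.univ.filter fun i => v' i ≠ 0).card < k := by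
      rw [← h]
      apply Finset.card_lt_card
      rw [Finset.ssubset_iff_of_subset]
      · refine ⟨i0, by simp [hi0v], ?_⟩
        simp [hv', hw'i0]
      · intro i hi
        simp only [Finset.mem_filter, Finset.mem_univ, true_and] at hi ⊢
        intro hvi
        apply hi
        simp [hv', hvi, hw'supp i (hwv i hvi)]
    have h1 := ih _ hlt v' hv'V rfl
    have h2 : w' ∈ Submodule.span K' {w | w ∈ V ∧ ∀ σ ∈ Γ, ∀ i, σ (w i) = w i} :=
      Submodule.subset_span ⟨hw'V, hfix⟩
    have h3 : v = v' + v i0 • w' := by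
      rw [hv']
      abel
    rw [h3]
    exact Submodule.add_mem _ h1 (Submodule.smul_mem _ _ h2)

end Core

variable {K F K' F' : Type*} [Field K] [Field F] [Algebra K F] [Field K'] [Field F']
  [Algebra K' F'] (C : ConstExt K F K' F')

/-- `ι` is `κ`-semilinear. -/
theorem ι_smul (a : K) (f : F) : C.ι (a • f) = C.κ a • C.ι f := by
  rw [Algebra.smul_def, map_mul, C.comm, Algebra.smul_def]

/-- `ι` of a `K`-linear combination. -/
theorem ι_sum_smul {n : ℕ} (a : Fin n → K) (f : Fin n → F) :
    C.ι (∑ i, a i • f i) = ∑ i, C.κ (a i) • C.ι (f i) := by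
  rw [map_sum]
  exact Finset.sum_congr rfl fun i _ => ι_smul C (a i) (f i)

/-- A lift acts on `K'`-linear combinations of elements of `ι F` through the coefficients. -/
theorem isLift_sum_smul {σ : RingAut K'} {τ : RingAut F'} (h : C.IsLift σ τ) {n : ℕ}
    (c : Fin n → K') (f : Fin n → F) :
    τ (∑ i, c i • C.ι (f i)) = ∑ i, σ (c i) • C.ι (f i) := by
  rw [map_sum]
  refine Finset.sum_congr rfl fun i _ => ?_
  rw [Algebra.smul_def, map_mul, h.1, h.2, Algebra.smul_def]

/-- **FIX-1**, conditional on ACT-3 and GAL-1. -/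
theorem span_inter_eq_of_stable_of_le_of
    (hact : ∀ σ ∈ C.gal, C.IsLift σ (SemilinearAut.toRingAut (C.act σ)))
    (hgal : ∀ c : K', (∀ σ ∈ C.gal, σ c = c) → c ∈ Set.range C.κ)
    (M : Submodule K' F') (hM : M ≤ Submodule.span K' (Set.range C.ι))
    (hst : ∀ σ ∈ C.gal, ∀ x ∈ M, C.act σ • x ∈ M) :
    M = Submodule.span K' (C.ι '' {f : F | C.ι f ∈ M}) := by
  apply le_antisymm
  · intro x hx
    obtain ⟨n, c, g, rfl⟩ := Submodule.mem_span_set'.1 (hM hx)
    choose f hf using fun i => (g i).2
    have hg : ∀ i, ((g i : F')) = C.ι (f i) := fun i => (hf i).symm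
    simp only [hg] at hx ⊢
    -- the linear map `L d = Σ d_i • ι f_i`
    let L : (Fin n → K') →ₗ[K'] F' := Fintype.linearCombination K' (fun i => C.ι (f i))
    have hL : ∀ d, L d = ∑ i, d i • C.ι (f i) := fun d =>
      Fintype.linearCombination_apply K' _ d
    have hV : ∀ σ ∈ (C.gal : Set (RingAut K')), ∀ v ∈ M.comap L,
        (fun i => σ (v i)) ∈ M.comap L := by
      intro σ hσ v hv
      rw [Submodule.mem_comap, hL] at hv ⊢
      have h1 := hst σ hσ _ hv
      rw [SemilinearAut.smul_def, isLift_sum_smul C (hact σ hσ)] at h1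
      exact h1
    have hc : c ∈ M.comap L := by
      rw [Submodule.mem_comap, hL]
      exact hx
    have key := mem_span_fixed_of_stable (C.gal : Set (RingAut K')) (M.comap L) hV c hc
    have h2 : L c ∈ Submodule.map L
        (Submodule.span K' {w | w ∈ M.comap L ∧ ∀ σ ∈ (C.gal : Set (RingAut K')),
          ∀ i, σ (w i) = w i}) := Submodule.mem_map_of_mem key
    rw [Submodule.map_span, hL] at h2
    refine Submodule.span_mono ?_ h2
    rintro _ ⟨w, ⟨hwV, hwfix⟩, rfl⟩
    have hw : ∀ i, ∃ a : K, C.κ a = w i := fun i => hgal (w i) fun σ hσ => hwfix σ hσ i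
    choose a ha using hw
    have h3 : L w = C.ι (∑ i, a i • f i) := by
      rw [hL, ι_sum_smul]
      exact Finset.sum_congr rfl fun i _ => by rw [ha]
    refine ⟨∑ i, a i • f i, ?_, h3.symm⟩
    show C.ι (∑ i, a i • f i) ∈ M
    rw [← h3]
    exact hwV
  · rw [Submodule.span_le]
    rintro _ ⟨f, hf, rfl⟩
    exact hf

end Fermat.Agent.LEF.helper12
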