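import Mathlib
import Fermat.Agent.LEF.helper12_Fix

/-!
# LEF-FIX part 2 (helper12, task 466): FIX-2 and FIX-3, conditional on ACT-3 and GAL-1

* `isLift_unique`              : a lift of `σ` to `F'` is unique (= ACT-2, proved here from `gen`);
* `exists_mul_mem_span`        : `F'` is the field of fractions of `R = K'`-span of `ι F`;
* `mem_range_ι_of_fixed_of`    : FIX-2;
* `span_inter_eq_of_stable_of` : FIX-3.
-/

set_option autoImplicit false

open AlgebraicCurve

namespace Fermat.Agent.LEF.helper12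

variable {K F K' F' : Type*} [Field K] [Field F] [Algebra K F] [Field K'] [Field F']
  [Algebra K' F'] (C : ConstExt K F K' F')

/-- **ACT-2**: a lift is unique. -/
theorem isLift_unique {σ : RingAut K'} {τ τ' : RingAut F'} (h : C.IsLift σ τ)
    (h' : C.IsLift σ τ') : τ = τ' := by
  have hle : Subfield.closure (Set.range (algebraMap K' F') ∪ Set.range C.ι) ≤
      RingHom.eqLocusField (τ : F' →+* F') (τ' : F' →+* F') := by
    rw [Subfield.closure_le]
    rintro x (⟨c, rfl⟩ | ⟨f, rfl⟩)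
    · show τ _ = τ' _
      rw [h.1, h'.1]
    · show τ _ = τ' _
      rw [h.2, h'.2]
  rw [C.gen] at hle
  ext x
  exact hle (Subfield.mem_top x)

/-- The identity is the lift of the identity. -/
theorem isLift_one : C.IsLift 1 1 := ⟨fun _ => rfl, fun _ => rfl⟩

/-- Lifts compose. -/
theorem isLift_mul {σ σ' : RingAut K'} {τ τ' : RingAut F'} (h : C.IsLift σ τ)
    (h' : C.IsLift σ' τ') : C.IsLift (σ * σ') (τ * τ') :=
  ⟨fun c => by
    show τ (τ' _) = _
    rw [h'.1, h.1]
    rfl, fun f => by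
    show τ (τ' _) = _
    rw [h'.2, h.2]⟩

/-- The `K'`-span of `ι F` is closed under multiplication. -/
theorem mul_mem_span {a b : F'} (ha : a ∈ Submodule.span K' (Set.range C.ι))
    (hb : b ∈ Submodule.span K' (Set.range C.ι)) :
    a * b ∈ Submodule.span K' (Set.range C.ι) := by
  have h1 : a * b ∈ Submodule.span K' (Set.range C.ι) * Submodule.span K' (Set.range C.ι) :=
    Submodule.mul_mem_mul ha hb
  rw [Submodule.span_mul_span] at h1
  refine Submodule.span_mono ?_ h1
  rintro _ ⟨_, ⟨f, rfl⟩, _, ⟨g, rfl⟩, rfl⟩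
  exact ⟨f * g, map_mul _ _ _⟩

theorem one_mem_span : (1 : F') ∈ Submodule.span K' (Set.range C.ι) :=
  Submodule.subset_span ⟨1, map_one _⟩

theorem ι_mem_span (f : F) : C.ι f ∈ Submodule.span K' (Set.range C.ι) :=
  Submodule.subset_span ⟨f, rfl⟩

/-- A lift preserves the `K'`-span of `ι F`. -/
theorem isLift_mem_span {σ : RingAut K'} {τ : RingAut F'} (h : C.IsLift σ τ) {y : F'}
    (hy : y ∈ Submodule.span K' (Set.range C.ι)) :
    τ y ∈ Submodule.span K' (Set.range C.ι) := by
  induction hy using Submodule.span_induction with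
  | mem y hy =>
    obtain ⟨f, rfl⟩ := hy
    rw [h.2]
    exact ι_mem_span C f
  | zero => rw [map_zero]; exact Submodule.zero_mem _
  | add y z _ _ hy hz => rw [map_add]; exact Submodule.add_mem _ hy hz
  | smul c y _ hy =>
    rw [Algebra.smul_def, map_mul, h.1, ← Algebra.smul_def]
    exact Submodule.smul_mem _ _ hy

/-- A lift is semilinear. -/
theorem isLift_smul {σ : RingAut K'} {τ : RingAut F'} (h : C.IsLift σ τ) (c : K') (y : F') :
    τ (c • y) = σ c • τ y := by
  rw [Algebra.smul_def, map_mul, h.1, ← Algebra.smul_def]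

/-- `F'` is the field of fractions of the `K'`-span of `ι F`. -/
theorem exists_mul_mem_span (x : F') :
    ∃ b ∈ Submodule.span K' (Set.range C.ι), b ≠ 0 ∧
      b * x ∈ Submodule.span K' (Set.range C.ι) := by
  have hsub : ∀ y ∈ Subring.closure (Set.range (algebraMap K' F') ∪ Set.range C.ι),
      y ∈ Submodule.span K' (Set.range C.ι) := by
    intro y hy
    induction hy using Subring.closure_induction with
    | mem y hy =>
      rcases hy with ⟨c, rfl⟩ | ⟨f, rfl⟩
      · rw [Algebra.algebraMap_eq_smul_one]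
        exact Submodule.smul_mem _ _ (one_mem_span C)
      · exact ι_mem_span C f
    | zero => exact Submodule.zero_mem _
    | one => exact one_mem_span C
    | add y z _ _ hy hz => exact Submodule.add_mem _ hy hz
    | neg y _ hy => exact Submodule.neg_mem _ hy
    | mul y z _ _ hy hz => exact mul_mem_span C hy hz
  have hx : x ∈ Subfield.closure (Set.range (algebraMap K' F') ∪ Set.range C.ι) := by
    rw [C.gen]
    exact Subfield.mem_top x
  obtain ⟨y, hy, z, hz, rfl⟩ := Subfield.mem_closure_iff.1 hx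
  by_cases hz0 : z = 0
  · refine ⟨1, one_mem_span C, one_ne_zero, ?_⟩
    rw [hz0, div_zero, mul_zero]
    exact Submodule.zero_mem _
  · refine ⟨z, hsub z hz, hz0, ?_⟩
    rw [mul_div_cancel₀ _ hz0]
    exact hsub y hy

/-- A nonzero subspace spanned by elements of `ι F` contains a nonzero element of `ι F`. -/
theorem exists_ι_mem_of_ne_bot {J : Submodule K' F'}
    (hJ : J = Submodule.span K' (C.ι '' {f : F | C.ι f ∈ J})) (hne : J ≠ ⊥) :
    ∃ f : F, C.ι f ∈ J ∧ C.ι f ≠ 0 := by
  by_contra hcon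
  apply hne
  rw [hJ, Submodule.span_eq_bot]
  rintro _ ⟨f, hf, rfl⟩
  by_contra h0
  exact hcon ⟨f, hf, h0⟩

section Conditional

variable (hact : ∀ σ ∈ C.gal, C.IsLift σ (SemilinearAut.toRingAut (C.act σ)))
  (hgal : ∀ c : K', (∀ σ ∈ C.gal, σ c = c) → c ∈ Set.range C.κ)

include hact in
/-- `act σ⁻¹` inverts `act σ`. -/
theorem act_smul_act_inv_smul (σ : RingAut K') (hσ : σ ∈ C.gal) (x : F') :
    C.act σ • (C.act σ⁻¹ • x) = x := by
  have h1 := isLift_mul C (hact σ hσ) (hact σ⁻¹ (C.gal.inv_mem hσ))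
  rw [mul_inv_cancel] at h1
  have h2 := isLift_unique C h1 (isLift_one C)
  have h3 := congrArg (fun τ : RingAut F' => τ x) h2
  exact h3

include hact hgal in
/-- **FIX-2**, conditional on ACT-3 and GAL-1: `F'^{Aut(K'/K)} = F`. -/
theorem mem_range_ι_of_fixed_of (x : F') (hx : ∀ σ ∈ C.gal, C.act σ • x = x) :
    x ∈ Set.range C.ι := by
  -- the ideal of denominators
  let J : Submodule K' F' := Submodule.span K' (Set.range C.ι) ⊓
    (Submodule.span K' (Set.range C.ι)).comap (LinearMap.mulRight K' x)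
  have hJmem : ∀ b, b ∈ J ↔ b ∈ Submodule.span K' (Set.range C.ι) ∧
      b * x ∈ Submodule.span K' (Set.range C.ι) := fun b => Iff.rfl
  have hJle : J ≤ Submodule.span K' (Set.range C.ι) := inf_le_left
  have hJst : ∀ σ ∈ C.gal, ∀ b ∈ J, C.act σ • b ∈ J := by
    intro σ hσ b hb
    rw [hJmem] at hb ⊢
    refine ⟨isLift_mem_span C (hact σ hσ) hb.1, ?_⟩
    have h1 := isLift_mem_span C (hact σ hσ) hb.2
    rw [map_mul] at h1
    have h2 : SemilinearAut.toRingAut (C.act σ) x = x := hx σ hσ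
    rw [h2] at h1
    exact h1
  have hJ := span_inter_eq_of_stable_of_le_of C hact hgal J hJle hJst
  have hJne : J ≠ ⊥ := by
    obtain ⟨b, hb, hb0, hbx⟩ := exists_mul_mem_span C x
    intro h
    have hbJ : b ∈ J := (hJmem b).2 ⟨hb, hbx⟩
    rw [h, Submodule.mem_bot] at hbJ
    exact hb0 hbJ
  obtain ⟨f, hfJ, hf0⟩ := exists_ι_mem_of_ne_bot C hJ hJne
  have hyR : C.ι f * x ∈ Submodule.span K' (Set.range C.ι) := ((hJmem _).1 hfJ).2
  have hyfix : ∀ σ ∈ C.gal, SemilinearAut.toRingAut (C.act σ) (C.ι f * x) = C.ι f * x := by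
    intro σ hσ
    rw [map_mul, (hact σ hσ).2]
    have h2 : SemilinearAut.toRingAut (C.act σ) x = x := hx σ hσ
    rw [h2]
  by_cases hy0 : C.ι f * x = 0
  · refine ⟨0, ?_⟩
    rw [map_zero]
    exact ((mul_eq_zero.1 hy0).resolve_left hf0).symm
  -- the line spanned by `y = ι f * x`
  let M : Submodule K' F' := Submodule.span K' {C.ι f * x}
  have hMle : M ≤ Submodule.span K' (Set.range C.ι) := by
    rw [Submodule.span_le, Set.singleton_subset_iff]
    exact hyR
  have hMst : ∀ σ ∈ C.gal, ∀ m ∈ M, C.act σ • m ∈ M := by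
    intro σ hσ m hm
    obtain ⟨c, rfl⟩ := Submodule.mem_span_singleton.1 hm
    rw [SemilinearAut.smul_def, isLift_smul C (hact σ hσ), hyfix σ hσ]
    exact Submodule.smul_mem _ _ (Submodule.mem_span_singleton_self _)
  have hMeq := span_inter_eq_of_stable_of_le_of C hact hgal M hMle hMst
  have hMne : M ≠ ⊥ := by
    intro h
    have : C.ι f * x ∈ M := Submodule.mem_span_singleton_self _
    rw [h, Submodule.mem_bot] at this
    exact hy0 this
  obtain ⟨g, hgM, hg0⟩ := exists_ι_mem_of_ne_bot C hMeq hMne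
  obtain ⟨c, hc⟩ := Submodule.mem_span_singleton.1 hgM
  have hc0 : c ≠ 0 := by
    rintro rfl
    rw [zero_smul] at hc
    exact hg0 hc.symm
  have hcfix : ∀ σ ∈ C.gal, σ c = c := by
    intro σ hσ
    have h1 : SemilinearAut.toRingAut (C.act σ) (c • (C.ι f * x)) = c • (C.ι f * x) := by
      rw [hc, (hact σ hσ).2]
    rw [isLift_smul C (hact σ hσ), hyfix σ hσ] at h1
    have h2 : (σ c - c) • (C.ι f * x) = 0 := by
      rw [sub_smul, h1, sub_self]
    rcases smul_eq_zero.1 h2 with h3 | h3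
    · exact sub_eq_zero.1 h3
    · exact absurd h3 hy0
  obtain ⟨a, ha⟩ := hgal c hcfix
  have ha0 : a ≠ 0 := by
    rintro rfl
    rw [map_zero] at ha
    exact hc0 ha.symm
  -- `x = ι (g / (a • f))`
  refine ⟨g / (a • f), ?_⟩
  have hf0' : f ≠ 0 := by
    rintro rfl
    exact hf0 (map_zero _)
  rw [map_div₀, ι_smul, ha, ← hc, Algebra.smul_def, Algebra.smul_def]
  have hcc : algebraMap K' F' c ≠ 0 := by
    rw [Ne, map_eq_zero_iff _ (algebraMap K' F').injective]
    exact hc0
  field_simp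

/-- common denominators for finitely generated subspaces -/
theorem exists_mul_mem_span_of_finset (s : Finset F') :
    ∃ b ∈ Submodule.span K' (Set.range C.ι), b ≠ 0 ∧
      ∀ m ∈ Submodule.span K' (s : Set F'), b * m ∈ Submodule.span K' (Set.range C.ι) := by
  classical
  induction s using Finset.induction_on with
  | empty =>
    refine ⟨1, one_mem_span C, one_ne_zero, fun m hm => ?_⟩
    rw [Finset.coe_empty, Submodule.span_empty, Submodule.mem_bot] at hm
    rw [hm, mul_zero]
    exact Submodule.zero_mem _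
  | insert a s _ ih =>
    obtain ⟨b', hb', hb'0, hb's⟩ := ih
    obtain ⟨ba, hba, hba0, hbaa⟩ := exists_mul_mem_span C a
    refine ⟨ba * b', mul_mem_span C hba hb', mul_ne_zero hba0 hb'0, fun m hm => ?_⟩
    rw [Finset.coe_insert, Submodule.mem_span_insert] at hm
    obtain ⟨c, m', hm', rfl⟩ := hm
    have h1 : ba * b' * (c • a + m') = c • (b' * (ba * a)) + ba * (b' * m') := by
      rw [Algebra.smul_def, Algebra.smul_def]
      ring
    rw [h1]
    exact Submodule.add_mem _ (Submodule.smul_mem _ _ (mul_mem_span C hb' hbaa))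
      (mul_mem_span C hba (hb's m' hm'))

include hact hgal in
/-- **FIX-3**, conditional on ACT-3 and GAL-1: a finite-dimensional stable subspace of `F'` is
spanned by its elements in `ι F`. -/
theorem span_inter_eq_of_stable_of (M : Submodule K' F') (hfd : Module.Finite K' M)
    (hst : ∀ σ ∈ C.gal, ∀ x ∈ M, C.act σ • x ∈ M) :
    M = Submodule.span K' (C.ι '' {f : F | C.ι f ∈ M}) := by
  classical
  apply le_antisymm
  swap
  · rw [Submodule.span_le]
    rintro _ ⟨f, hf, rfl⟩
    exact hf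
  -- common denominators
  let J : Submodule K' F' :=
    { carrier := {b | b ∈ Submodule.span K' (Set.range C.ι) ∧
        ∀ m ∈ M, b * m ∈ Submodule.span K' (Set.range C.ι)}
      add_mem' := fun {a b} ha hb => ⟨Submodule.add_mem _ ha.1 hb.1, fun m hm => by
        rw [add_mul]
        exact Submodule.add_mem _ (ha.2 m hm) (hb.2 m hm)⟩
      zero_mem' := ⟨Submodule.zero_mem _, fun m _ => by
        rw [zero_mul]
        exact Submodule.zero_mem _⟩
      smul_mem' := fun c b hb => ⟨Submodule.smul_mem _ _ hb.1, fun m hm => by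
        rw [smul_mul_assoc]
        exact Submodule.smul_mem _ _ (hb.2 m hm)⟩ }
  have hJmem : ∀ b, b ∈ J ↔ b ∈ Submodule.span K' (Set.range C.ι) ∧
      ∀ m ∈ M, b * m ∈ Submodule.span K' (Set.range C.ι) := fun b => Iff.rfl
  have hJle : J ≤ Submodule.span K' (Set.range C.ι) := fun b hb => hb.1
  have hJst : ∀ σ ∈ C.gal, ∀ b ∈ J, C.act σ • b ∈ J := by
    intro σ hσ b hb
    rw [hJmem] at hb ⊢
    refine ⟨isLift_mem_span C (hact σ hσ) hb.1, fun m hm => ?_⟩
    have hm' : C.act σ⁻¹ • m ∈ M := hst σ⁻¹ (C.gal.inv_mem hσ) m hm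
    have h1 := isLift_mem_span C (hact σ hσ) (hb.2 _ hm')
    rw [map_mul] at h1
    have h2 : SemilinearAut.toRingAut (C.act σ) (C.act σ⁻¹ • m) = m :=
      act_smul_act_inv_smul C hact σ hσ m
    rw [h2] at h1
    exact h1
  have hJ := span_inter_eq_of_stable_of_le_of C hact hgal J hJle hJst
  have hJne : J ≠ ⊥ := by
    obtain ⟨s, hs⟩ := (Module.Finite.iff_fg.1 hfd)
    obtain ⟨b, hb, hb0, hbs⟩ := exists_mul_mem_span_of_finset C s
    intro h
    have hbJ : b ∈ J := (hJmem b).2 ⟨hb, fun m hm => hbs m (hs ▸ hm)⟩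
    rw [h, Submodule.mem_bot] at hbJ
    exact hb0 hbJ
  obtain ⟨f, hfJ, hf0⟩ := exists_ι_mem_of_ne_bot C hJ hJne
  have hf0' : f ≠ 0 := by
    rintro rfl
    exact hf0 (map_zero _)
  -- `M' = ι f * M`
  let M' : Submodule K' F' := M.map (LinearMap.mulLeft K' (C.ι f))
  have hM'le : M' ≤ Submodule.span K' (Set.range C.ι) := by
    rintro _ ⟨m, hm, rfl⟩
    exact ((hJmem _).1 hfJ).2 m hm
  have hM'st : ∀ σ ∈ C.gal, ∀ y ∈ M', C.act σ • y ∈ M' := by
    rintro σ hσ _ ⟨m, hm, rfl⟩
    refine ⟨C.act σ • m, hst σ hσ m hm, ?_⟩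
    show C.ι f * SemilinearAut.toRingAut (C.act σ) m =
      SemilinearAut.toRingAut (C.act σ) (C.ι f * m)
    rw [map_mul, (hact σ hσ).2]
  have hM' := span_inter_eq_of_stable_of_le_of C hact hgal M' hM'le hM'st
  intro m hm
  have h1 : C.ι f * m ∈ M' := ⟨m, hm, rfl⟩
  rw [hM'] at h1
  have h2 : LinearMap.mulLeft K' (C.ι f)⁻¹ (C.ι f * m) ∈
      Submodule.map (LinearMap.mulLeft K' (C.ι f)⁻¹)
        (Submodule.span K' (C.ι '' {g : F | C.ι g ∈ M'})) := Submodule.mem_map_of_mem h1
  rw [Submodule.map_span] at h2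
  have h3 : LinearMap.mulLeft K' (C.ι f)⁻¹ (C.ι f * m) = m := by
    show (C.ι f)⁻¹ * (C.ι f * m) = m
    rw [← mul_assoc, inv_mul_cancel₀ hf0, one_mul]
  rw [h3] at h2
  refine Submodule.span_mono ?_ h2
  rintro _ ⟨_, ⟨g, hg, rfl⟩, rfl⟩
  obtain ⟨m'', hm'', hgm⟩ := hg
  have hgm' : C.ι f * m'' = C.ι g := hgm
  have h4 : (C.ι f)⁻¹ * C.ι g = m'' := by
    rw [← hgm', ← mul_assoc, inv_mul_cancel₀ hf0, one_mul]
  refine ⟨g / f, ?_, ?_⟩
  · show C.ι (g / f) ∈ M
    rw [map_div₀, div_eq_inv_mul, h4]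
    exact hm''
  · show C.ι (g / f) = (C.ι f)⁻¹ * C.ι g
    rw [map_div₀, div_eq_inv_mul]

end Conditional

end Fermat.Agent.LEF.helper12
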