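import Mathlib
import Fermat.Agent.LEF.helper99_Defs

/-!
# LEF-ACT-A (helper27, task 463): the semilinear action of `Aut(K'/K)` on `F'`

For a constant field extension `C : ConstExt K F K' F'`:

* `exists_isLift` (ACT-1): every `σ ∈ Aut(K'/K)` extends to a ring automorphism of `F'` fixing
  `F` (`K' ⊗[K] F → F'` is injective by linear disjointness, `F'` is its fraction field, and
  `σ ⊗ id` extends to the fraction field);
* `isLift_unique` (ACT-2);
* `act_spec` (ACT-3), `act_mul` (ACT-4) for the junk-valued `ConstExt.act`.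

Statements VERBATIM from `helper99_LEFInterface` (namespace replaced).
-/

set_option autoImplicit false
set_option linter.style.haveILetI false

noncomputable section

open AlgebraicCurve TensorProduct

namespace Fermat.Agent.LEF.helper27

open Fermat.Agent.LEF

variable {K F K' F' : Type*} [Field K] [Field F] [Algebra K F] [Field K'] [Field F']
  [Algebra K' F'] (C : ConstExt K F K' F')

/-- linear disjointness for families with arbitrary index type -/
theorem linearIndependent_ι {ι₀ : Type*} (f : ι₀ → F) (hf : LinearIndependent K f) :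
    LinearIndependent K' (fun i => C.ι (f i)) := by
  classical
  rw [linearIndependent_iff_finset_linearIndependent]
  intro s
  let e : Fin s.card ≃ s := s.equivFin.symm
  rw [← linearIndependent_equiv e]
  have h1 := linearIndependent_iff_finset_linearIndependent.1 hf s
  exact C.linDisj s.card (fun i => f (e i)) ((linearIndependent_equiv e).2 h1)

/-- **ACT-2**. -/
theorem isLift_unique {σ : RingAut K'} {τ τ' : RingAut F'} (h : C.IsLift σ τ)
    (h' : C.IsLift σ τ') : τ = τ' := by
  apply RingEquiv.ext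
  intro x
  have hx : x ∈ Subfield.closure (Set.range (algebraMap K' F') ∪ Set.range C.ι) := by
    rw [C.gen]; exact Subfield.mem_top x
  have hle : Subfield.closure (Set.range (algebraMap K' F') ∪ Set.range C.ι) ≤
      RingHom.eqLocusField (τ : F' →+* F') (τ' : F' →+* F') := by
    rw [Subfield.closure_le]
    rintro y (⟨c, rfl⟩ | ⟨f, rfl⟩)
    · show τ _ = τ' _
      rw [h.1, h'.1]
    · show τ _ = τ' _
      rw [h.2, h'.2]
  exact hle hx

/-- **ACT-1**: every `σ ∈ Aut(K'/K)` extends to `F'` fixing `F` (from `gen` + `linDisj`: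
`1 ⊗ σ` on the `K'`-span `R` of `ι F`, which is a domain with fraction field `F'`). -/
theorem exists_isLift (σ : RingAut K') (hσ : σ ∈ C.gal) : ∃ τ : RingAut F', C.IsLift σ τ := by
  classical
  letI algKK' : Algebra K K' := C.κ.toAlgebra
  letI algKF' : Algebra K F' := ((algebraMap K' F').comp C.κ).toAlgebra
  haveI : IsScalarTower K K' F' := IsScalarTower.of_algebraMap_eq (fun _ => rfl)
  let ιA : F →ₐ[K] F' := { C.ι with commutes' := fun a => C.comm a }
  let μ : K' ⊗[K] F →ₐ[K'] F' :=
    Algebra.TensorProduct.lift (Algebra.ofId K' F') ιA (fun _ _ => Commute.all _ _)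
  have hμ : ∀ (c : K') (f : F), μ (c ⊗ₜ[K] f) = algebraMap K' F' c * C.ι f := fun c f =>
    Algebra.TensorProduct.lift_tmul _ _ _ c f
  -- injectivity of `μ`
  have hinj : Function.Injective μ := by
    let e := Module.Basis.ofVectorSpace K F
    let b := Algebra.TensorProduct.basis K' e
    have hli : LinearIndependent K' (μ.toLinearMap ∘ b) := by
      have h1 : (μ.toLinearMap ∘ b) = fun i => C.ι (e i) := by
        funext i
        simp only [Function.comp_apply, AlgHom.toLinearMap_apply, b,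
          Algebra.TensorProduct.basis_apply, hμ, map_one, one_mul]
      rw [h1]
      exact linearIndependent_ι C _ e.linearIndependent
    exact LinearMap.injective_of_linearIndependent (f := μ.toLinearMap) b.span_eq hli
  -- `F'` is the fraction field of `K' ⊗[K] F`
  have hsurj : ∀ z : F', ∃ x y : K' ⊗[K] F, μ y ≠ 0 ∧ z = μ x / μ y := by
    intro z
    have hz : z ∈ Subfield.closure (Set.range (algebraMap K' F') ∪ Set.range C.ι) := by
      rw [C.gen]; exact Subfield.mem_top z
    induction hz using Subfield.closure_induction with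
    | mem x hx =>
      rcases hx with ⟨c, rfl⟩ | ⟨f, rfl⟩
      · exact ⟨c ⊗ₜ 1, 1, by simp, by rw [hμ, map_one, map_one, mul_one, div_one]⟩
      · exact ⟨1 ⊗ₜ f, 1, by simp, by rw [hμ, map_one, map_one, one_mul, div_one]⟩
    | one => exact ⟨1, 1, by simp, by simp⟩
    | add x y _ _ hx hy =>
      obtain ⟨a, b, hb, rfl⟩ := hx
      obtain ⟨c, d, hd, rfl⟩ := hy
      refine ⟨a * d + c * b, b * d, by rw [map_mul]; exact mul_ne_zero hb hd, ?_⟩
      rw [map_add, map_mul, map_mul, map_mul]
      field_simp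
    | neg x _ hx =>
      obtain ⟨a, b, hb, rfl⟩ := hx
      exact ⟨-a, b, hb, by rw [map_neg, neg_div]⟩
    | inv x _ hx =>
      obtain ⟨a, b, hb, rfl⟩ := hx
      by_cases ha : μ a = 0
      · exact ⟨0, 1, by simp, by rw [ha]; simp⟩
      · exact ⟨b, a, ha, by rw [inv_div]⟩
    | mul x y _ _ hx hy =>
      obtain ⟨a, b, hb, rfl⟩ := hx
      obtain ⟨c, d, hd, rfl⟩ := hy
      refine ⟨a * c, b * d, by rw [map_mul]; exact mul_ne_zero hb hd, ?_⟩
      rw [map_mul, map_mul, div_mul_div_comm]
  letI algA : Algebra (K' ⊗[K] F) F' := μ.toRingHom.toAlgebra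
  have halg : ∀ x : K' ⊗[K] F, algebraMap (K' ⊗[K] F) F' x = μ x := fun _ => rfl
  haveI : FaithfulSMul (K' ⊗[K] F) F' := (faithfulSMul_iff_algebraMap_injective _ _).2 hinj
  haveI : IsFractionRing (K' ⊗[K] F) F' := IsFractionRing.of_field _ _ (fun z => by
    obtain ⟨x, y, -, h⟩ := hsurj z
    exact ⟨x, y, h⟩)
  -- the automorphism `σ ⊗ id`
  let σA : K' ≃ₐ[K] K' := AlgEquiv.ofRingEquiv (f := σ) (fun a => hσ a)
  let θ : (K' ⊗[K] F) ≃ₐ[K] (K' ⊗[K] F) :=
    Algebra.TensorProduct.congr σA (AlgEquiv.refl : F ≃ₐ[K] F)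
  have hθ : ∀ (c : K') (f : F), θ (c ⊗ₜ[K] f) = σ c ⊗ₜ[K] f := fun c f => by
    simp [θ, σA]
  refine ⟨IsFractionRing.ringEquivOfRingEquiv (K := F') (L := F') θ.toRingEquiv, ?_, ?_⟩
  · intro c
    have h1 : algebraMap K' F' c = algebraMap (K' ⊗[K] F) F' (c ⊗ₜ 1) := by
      rw [halg, hμ, map_one, mul_one]
    rw [h1, IsFractionRing.ringEquivOfRingEquiv_algebraMap]
    show algebraMap (K' ⊗[K] F) F' (θ (c ⊗ₜ 1)) = _
    rw [hθ, halg, hμ, map_one, mul_one]
  · intro f
    have h1 : C.ι f = algebraMap (K' ⊗[K] F) F' (1 ⊗ₜ f) := by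
      rw [halg, hμ, map_one, one_mul]
    rw [h1, IsFractionRing.ringEquivOfRingEquiv_algebraMap]
    show algebraMap (K' ⊗[K] F) F' (θ (1 ⊗ₜ f)) = _
    rw [hθ, map_one]

/-- **ACT-3**. -/
theorem act_spec (σ : RingAut K') (hσ : σ ∈ C.gal) :
    C.IsLift σ (SemilinearAut.toRingAut (C.act σ)) ∧ SemilinearAut.baseAut (C.act σ) = σ := by
  have h := exists_isLift C σ hσ
  unfold ConstExt.act
  rw [dif_pos h]
  exact ⟨h.choose_spec, rfl⟩

/-- lifts compose -/
theorem isLift_mul {σ τ : RingAut K'} {σ' τ' : RingAut F'} (h : C.IsLift σ σ')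
    (h' : C.IsLift τ τ') : C.IsLift (σ * τ) (σ' * τ') := by
  refine ⟨fun c => ?_, fun f => ?_⟩
  · show σ' (τ' _) = algebraMap K' F' (σ (τ c))
    rw [h'.1, h.1]
  · show σ' (τ' _) = _
    rw [h'.2, h.2]

/-- **ACT-4**. -/
theorem act_mul (σ τ : RingAut K') (hσ : σ ∈ C.gal) (hτ : τ ∈ C.gal) :
    C.act (σ * τ) = C.act σ * C.act τ := by
  have h1 := act_spec C σ hσ
  have h2 := act_spec C τ hτ
  have h3 := act_spec C (σ * τ) (C.gal.mul_mem hσ hτ)
  apply Subtype.ext
  apply Prod.ext
  · exact isLift_unique C h3.1 (isLift_mul C h1.1 h2.1)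
  · show SemilinearAut.baseAut (C.act (σ * τ)) =
      SemilinearAut.baseAut (C.act σ) * SemilinearAut.baseAut (C.act τ)
    rw [h1.2, h2.2, h3.2]

end Fermat.Agent.LEF.helper27
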