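import Mathlib

/-!
# LEF-AUT (helper77): automorphisms of an algebraically closed field over a subfield

Generic field theory (Mathlib only) for the constant-field-extension / descent module:

* `exists_algEquiv_of_mvPolynomial_equiv` : every `K`-automorphism of the polynomial ring on a
  transcendence basis of `L / K` extends to a `K`-automorphism of the algebraically closed `L`.
* `exists_algEquiv_apply_eq_add` : for `t` transcendental over `K` and `a : K` there is
  `σ ∈ Aut(L/K)` with `σ t = t + a`.
* `mem_range_of_forall_algEquiv_fixed` : for `K` algebraically closed, an element of `L` fixed by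
  all of `Aut(L/K)` lies in `K`.
* `mem_range_of_finite_orbit` : for `K` algebraically closed and `H ≤ Aut(L/K)` of finite index,
  an element with finite `H`-orbit lies in `K`.
-/

set_option autoImplicit false

namespace Fermat.Agent.LEF.helper77

open MvPolynomial

section Shift

variable {ι : Type*} {K : Type*} [CommRing K]

open Classical in
/-- The `K`-algebra endomorphism `X i₀ ↦ X i₀ + a`, `X i ↦ X i` (`i ≠ i₀`). -/
noncomputable def shiftAlgHom (i₀ : ι) (a : K) : MvPolynomial ι K →ₐ[K] MvPolynomial ι K :=
  aeval (fun i => if i = i₀ then X i₀ + C a else X i)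

theorem shiftAlgHom_X_self (i₀ : ι) (a : K) :
    shiftAlgHom i₀ a (X i₀) = X i₀ + C a := by
  simp [shiftAlgHom]

theorem shiftAlgHom_X_of_ne (i₀ : ι) (a : K) {i : ι} (h : i ≠ i₀) :
    shiftAlgHom i₀ a (X i) = X i := by
  simp [shiftAlgHom, h]

theorem shiftAlgHom_comp_neg (i₀ : ι) (a : K) :
    (shiftAlgHom i₀ a).comp (shiftAlgHom i₀ (-a)) = AlgHom.id K (MvPolynomial ι K) := by
  apply MvPolynomial.algHom_ext
  intro i
  by_cases h : i = i₀
  · subst h
    simp [shiftAlgHom_X_self]
  · simp [shiftAlgHom_X_of_ne _ _ h]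

/-- The `K`-algebra automorphism `X i₀ ↦ X i₀ + a`, `X i ↦ X i` (`i ≠ i₀`). -/
noncomputable def shiftAlgEquiv (i₀ : ι) (a : K) : MvPolynomial ι K ≃ₐ[K] MvPolynomial ι K :=
  AlgEquiv.ofAlgHom (shiftAlgHom i₀ a) (shiftAlgHom i₀ (-a)) (shiftAlgHom_comp_neg i₀ a)
    (by simpa using shiftAlgHom_comp_neg i₀ (-a))

theorem shiftAlgEquiv_X_self (i₀ : ι) (a : K) :
    shiftAlgEquiv i₀ a (X i₀) = X i₀ + C a :=
  shiftAlgHom_X_self i₀ a

end Shift

variable {K L : Type*} [Field K] [Field L] [Algebra K L]

/-- Every `K`-automorphism of the polynomial ring on a transcendence basis of `L / K` extends to a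
`K`-automorphism of the algebraically closed field `L`. -/
theorem exists_algEquiv_of_mvPolynomial_equiv [IsAlgClosed L] {ι : Type*} {v : ι → L}
    (hv : IsTranscendenceBasis K v) (φ : MvPolynomial ι K ≃ₐ[K] MvPolynomial ι K) :
    ∃ σ : L ≃ₐ[K] L, ∀ p : MvPolynomial ι K, σ (aeval v p) = aeval v (φ p) := by
  classical
  letI := IsAlgClosed.isAlgClosure_of_transcendence_basis v hv
  let e : Algebra.adjoin K (Set.range v) ≃ₐ[K] Algebra.adjoin K (Set.range v) :=
    hv.1.aevalEquiv.symm.trans (φ.trans hv.1.aevalEquiv)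
  let σ₀ : L ≃+* L := IsAlgClosure.equivOfEquiv L L e.toRingEquiv
  have hσ₀ : ∀ s : Algebra.adjoin K (Set.range v),
      σ₀ (algebraMap _ L s) = algebraMap _ L (e s) := fun s =>
    IsAlgClosure.equivOfEquiv_algebraMap L L e.toRingEquiv s
  refine ⟨AlgEquiv.ofRingEquiv (f := σ₀) ?_, ?_⟩
  · intro c
    have h1 : algebraMap K L c
        = algebraMap (Algebra.adjoin K (Set.range v)) L (algebraMap K _ c) := rfl
    rw [h1, hσ₀, e.commutes]
  · intro p
    have h1 : aeval v p = algebraMap (Algebra.adjoin K (Set.range v)) L (hv.1.aevalEquiv p) :=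
      (hv.1.algebraMap_aevalEquiv p).symm
    have h2 : aeval v (φ p)
        = algebraMap (Algebra.adjoin K (Set.range v)) L (hv.1.aevalEquiv (φ p)) :=
      (hv.1.algebraMap_aevalEquiv (φ p)).symm
    change σ₀ (aeval v p) = _
    rw [h1, hσ₀, h2]
    simp [e]

/-- For `t ∈ L` transcendental over `K` (with `L` algebraically closed) and `a : K` there is a
`K`-automorphism of `L` sending `t` to `t + a`. -/
theorem exists_algEquiv_apply_eq_add [IsAlgClosed L] {t : L} (ht : Transcendental K t) (a : K) :
    ∃ σ : L ≃ₐ[K] L, σ t = t + algebraMap K L a := by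
  classical
  have hs : AlgebraicIndepOn K id ({t} : Set L) := by
    have : AlgebraicIndependent K (fun x : ({t} : Set L) => (x : L)) := by
      rw [algebraicIndependent_singleton_iff (⟨t, rfl⟩ : ({t} : Set L))]
      exact ht
    exact this
  obtain ⟨B, htB, hB⟩ := exists_isTranscendenceBasis_superset hs
  have htB' : t ∈ B := htB rfl
  obtain ⟨σ, hσ⟩ := exists_algEquiv_of_mvPolynomial_equiv hB
    (shiftAlgEquiv (⟨t, htB'⟩ : B) a)
  refine ⟨σ, ?_⟩
  have := hσ (X ⟨t, htB'⟩)
  simpa [shiftAlgEquiv_X_self, Algebra.algebraMap_eq_smul_one, MvPolynomial.aeval_C] using this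

/-- An element of `L` which is algebraic over the algebraically closed field `K` lies in `K`. -/
theorem mem_range_of_isAlgebraic [IsAlgClosed K] {x : L} (hx : IsAlgebraic K x) :
    x ∈ (algebraMap K L).range := by
  have hint : IsIntegral K x := hx.isIntegral
  have hdeg : (minpoly K x).degree = 1 :=
    IsAlgClosed.degree_eq_one_of_irreducible K (minpoly.irreducible hint)
  exact minpoly.mem_range_of_degree_eq_one K x hdeg

/-- An element of `L` not in the algebraically closed subfield `K` is transcendental. -/
theorem transcendental_of_not_mem_range [IsAlgClosed K] {x : L}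
    (hx : x ∉ (algebraMap K L).range) : Transcendental K x :=
  fun h => hx (mem_range_of_isAlgebraic h)

/-- **Fixed field**: for `K ⊆ L` algebraically closed fields, an element of `L` fixed by every
`K`-automorphism of `L` lies in `K`. -/
theorem mem_range_of_forall_algEquiv_fixed [IsAlgClosed K] [IsAlgClosed L] {x : L}
    (hx : ∀ σ : L ≃ₐ[K] L, σ x = x) : x ∈ (algebraMap K L).range := by
  by_contra hmem
  obtain ⟨σ, hσ⟩ := exists_algEquiv_apply_eq_add (transcendental_of_not_mem_range hmem) (1 : K)
  rw [hx σ] at hσ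
  simp at hσ

/-- The orbit of a transcendental element under `Aut(L/K)` is infinite (`K` infinite). -/
theorem infinite_range_algEquiv_apply [Infinite K] [IsAlgClosed L] {t : L}
    (ht : Transcendental K t) : (Set.range fun σ : L ≃ₐ[K] L => σ t).Infinite := by
  have hinj : Function.Injective (fun a : K => t + algebraMap K L a) := by
    intro a b hab
    exact (algebraMap K L).injective (add_left_cancel hab)
  refine Set.Infinite.mono ?_ (Set.infinite_range_of_injective hinj)
  rintro _ ⟨a, rfl⟩
  obtain ⟨σ, hσ⟩ := exists_algEquiv_apply_eq_add ht a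
  exact ⟨σ, hσ⟩

/-- If `H ≤ G` has finite index and the `H`-orbit of `x` is finite then the `G`-orbit of `x` is
finite (generic version for a group of automorphisms acting by evaluation). -/
theorem finite_range_of_finiteIndex {G X : Type*} [Group G] [MulAction G X]
    (H : Subgroup G) [H.FiniteIndex] (x : X)
    (hfin : (Set.range fun h : H => (h : G) • x).Finite) :
    (Set.range fun g : G => g • x).Finite := by
  classical
  haveI : Finite (G ⧸ H) := Subgroup.finite_quotient_of_finiteIndex
  have hsub : (Set.range fun g : G => g • x)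
      ⊆ ⋃ q : G ⧸ H, (fun y => (Quotient.out q : G) • y) '' (Set.range fun h : H => (h : G) • x) := by
    rintro _ ⟨g, rfl⟩
    obtain ⟨h, hh⟩ := QuotientGroup.mk_out_eq_mul H g
    refine Set.mem_iUnion.mpr ⟨(g : G ⧸ H), (h⁻¹ : H) • x, ⟨h⁻¹, rfl⟩, ?_⟩
    change (Quotient.out (g : G ⧸ H) : G) • ((h⁻¹ : H) : G) • x = g • x
    rw [hh, smul_smul]
    simp
  exact (Set.finite_iUnion fun q => hfin.image _).subset hsub

/-- **Finite orbits**: for `K ⊆ L` algebraically closed fields and a finite-index subgroup `H` of
`Aut(L/K)`, an element of `L` with finite `H`-orbit lies in `K`. -/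
theorem mem_range_of_finite_orbit [IsAlgClosed K] [IsAlgClosed L]
    (H : Subgroup (L ≃ₐ[K] L)) [H.FiniteIndex] {x : L}
    (hfin : (Set.range fun h : H => (h : L ≃ₐ[K] L) x).Finite) :
    x ∈ (algebraMap K L).range := by
  by_contra hmem
  have hinf := infinite_range_algEquiv_apply (transcendental_of_not_mem_range hmem)
  exact hinf (finite_range_of_finiteIndex (G := L ≃ₐ[K] L) (X := L) H x hfin)

/-- Orbit form of `mem_range_of_finite_orbit`. -/
theorem mem_range_of_finite_mulAction_orbit [IsAlgClosed K] [IsAlgClosed L]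
    (H : Subgroup (L ≃ₐ[K] L)) [H.FiniteIndex] {x : L}
    (hfin : (MulAction.orbit H x).Finite) :
    x ∈ (algebraMap K L).range :=
  mem_range_of_finite_orbit H hfin

end Fermat.Agent.LEF.helper77
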