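import Mathlib
import Fermat.Agent.LEF.helper12_Fix2
import Fermat.Agent.LEF.helper27_Act
import Fermat.Agent.LEF.helper77_AutInv

/-!
# LEF-FIX part 3 (helper12, task 466): FIX-1, FIX-2, FIX-3 VERBATIM (unconditional)

The conditional versions of `helper12_Fix`, `helper12_Fix2` with
* ACT-3 `helper27.act_spec` (on main), and
* GAL-1, proved here (`gal_fixed_mem_range`) from `helper77.mem_range_of_forall_algEquiv_fixed`.

Statements VERBATIM from `helper99_LEFInterface` (namespace replaced).
-/

set_option autoImplicit false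

open AlgebraicCurve

namespace Fermat.Agent.LEF.helper12

variable {K F K' F' : Type*} [Field K] [Field F] [Algebra K F] [Field K'] [Field F']
  [Algebra K' F'] (C : ConstExt K F K' F')

/-- **GAL-1**: `K'^{Aut(K'/K)} = K` for algebraically closed `K ⊆ K'`. -/
theorem gal_fixed_mem_range [IsAlgClosed K] [IsAlgClosed K'] (c : K')
    (hc : ∀ σ ∈ C.gal, σ c = c) : c ∈ Set.range C.κ := by
  let _ : Algebra K K' := C.κ.toAlgebra
  have h := Fermat.Agent.LEF.helper77.mem_range_of_forall_algEquiv_fixed (K := K) (L := K')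
    (x := c) (fun σ => hc (σ : K' ≃+* K') (fun a => σ.commutes a))
  exact h

/-- ACT-3 in the form used by the descent lemmas. -/
theorem isLift_act (σ : RingAut K') (hσ : σ ∈ C.gal) :
    C.IsLift σ (SemilinearAut.toRingAut (C.act σ)) :=
  (Fermat.Agent.LEF.helper27.act_spec C σ hσ).1

/-- **FIX-1** (linear descent lemma): a `K'`-subspace of the `K'`-span of `ι F` which is stable
under `Aut(K'/K)` is spanned by its elements in `ι F`. -/
theorem span_inter_eq_of_stable_of_le [IsAlgClosed K] [IsAlgClosed K'] (M : Submodule K' F')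
    (hM : M ≤ Submodule.span K' (Set.range C.ι))
    (hst : ∀ σ ∈ C.gal, ∀ x ∈ M, C.act σ • x ∈ M) :
    M = Submodule.span K' (C.ι '' {f : F | C.ι f ∈ M}) :=
  span_inter_eq_of_stable_of_le_of C (isLift_act C) (gal_fixed_mem_range C) M hM hst

/-- **FIX-2**: `F'^{Aut(K'/K)} = F`. -/
theorem mem_range_ι_of_fixed [IsAlgClosed K] [IsAlgClosed K'] (x : F')
    (hx : ∀ σ ∈ C.gal, C.act σ • x = x) : x ∈ Set.range C.ι :=
  mem_range_ι_of_fixed_of C (isLift_act C) (gal_fixed_mem_range C) x hx

/-- **FIX-3**: a finite-dimensional stable subspace of `F'` is spanned by its elements in `ι F`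
(common denominator in `ι F` by FIX-1 applied to the ideal of denominators, then FIX-1). -/
theorem span_inter_eq_of_stable [IsAlgClosed K] [IsAlgClosed K'] (M : Submodule K' F')
    (hfd : Module.Finite K' M) (hst : ∀ σ ∈ C.gal, ∀ x ∈ M, C.act σ • x ∈ M) :
    M = Submodule.span K' (C.ι '' {f : F | C.ι f ∈ M}) :=
  span_inter_eq_of_stable_of C (isLift_act C) (gal_fixed_mem_range C) M hfd hst

end Fermat.Agent.LEF.helper12
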