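/-
LEF / P5 (helper13, task 574): package [P5L-EMB].

* `exists_ringHom_complex` (EMB-1): a countable field of characteristic `0` embeds into `ℂ`;
* `countable_of_essFiniteType` (EMB-2): an essentially finitely generated algebra over a
  countable field which is a field is countable;
* `exists_small_model` (EMB-3): a countable pair `F / K` has a model in `Type`.

Statements verbatim from `helper99_P5LEFInterface.lean` (section EMB).  Mathlib only.
-/
import Mathlib

set_option autoImplicit false

namespace Fermat.Agent.LEF.helper13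

open Cardinal

universe u v

/-- **EMB-1**: a countable field of characteristic `0` embeds into `ℂ`
(`ℂ ≃ AlgebraicClosure (K(T))` for a set `T` of continuum many indeterminates, by
`IsAlgClosed.ringEquiv_of_equiv_of_charZero`). -/
theorem exists_ringHom_complex (K : Type u) [Field K] [CharZero K] [Countable K] :
    Nonempty (K →+* ℂ) := by
  have hK : #K ≤ ℵ₀ := Cardinal.mk_le_aleph0_iff.2 inferInstance
  have hR : #(MvPolynomial ℝ K) = 𝔠 := by
    rw [MvPolynomial.cardinalMk_eq_max_lift, Cardinal.mk_real, Cardinal.lift_continuum,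
      Cardinal.lift_uzero, max_eq_right (hK.trans aleph0_le_continuum),
      max_eq_left aleph0_le_continuum]
  have hE : #(FractionRing (MvPolynomial ℝ K)) = 𝔠 := by
    rw [FractionRing.cardinalMk, hR]
  have hL : #(AlgebraicClosure (FractionRing (MvPolynomial ℝ K))) = 𝔠 := by
    apply le_antisymm
    · refine (Algebra.IsAlgebraic.cardinalMk_le_max (FractionRing (MvPolynomial ℝ K))
        (AlgebraicClosure (FractionRing (MvPolynomial ℝ K)))).trans ?_
      rw [hE]
      exact max_le le_rfl aleph0_le_continuum
    · rw [← hE]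
      exact Cardinal.mk_le_of_injective (algebraMap (FractionRing (MvPolynomial ℝ K))
        (AlgebraicClosure (FractionRing (MvPolynomial ℝ K)))).injective
  have hLc : ℵ₀ < #(AlgebraicClosure (FractionRing (MvPolynomial ℝ K))) := by
    rw [hL]
    exact aleph0_lt_continuum
  have hequiv : Nonempty (AlgebraicClosure (FractionRing (MvPolynomial ℝ K)) ≃ ℂ) := by
    rw [← Cardinal.lift_mk_eq', hL, Cardinal.mk_complex, Cardinal.lift_continuum,
      Cardinal.lift_continuum]
  obtain ⟨e⟩ := IsAlgClosed.ringEquiv_of_equiv_of_charZero hLc hequiv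
  exact ⟨e.toRingHom.comp ((algebraMap (FractionRing (MvPolynomial ℝ K))
    (AlgebraicClosure (FractionRing (MvPolynomial ℝ K)))).comp
      ((algebraMap (MvPolynomial ℝ K) (FractionRing (MvPolynomial ℝ K))).comp
        (MvPolynomial.C : K →+* MvPolynomial ℝ K)))⟩

/-- **EMB-2**: a function field over a countable field is countable. -/
theorem countable_of_essFiniteType (K : Type u) (F : Type v) [Field K] [Field F] [Algebra K F]
    [Countable K] [Algebra.EssFiniteType K F] : Countable F := by
  have hK : #K ≤ ℵ₀ := Cardinal.mk_le_aleph0_iff.2 inferInstance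
  have hS₀ : Countable (Algebra.EssFiniteType.subalgebra K F) := by
    obtain ⟨n, f, hf⟩ := Algebra.FiniteType.iff_quotient_mvPolynomial''.1
      (inferInstance : Algebra.FiniteType K (Algebra.EssFiniteType.subalgebra K F))
    have hc : Countable (MvPolynomial (Fin n) K) := by
      rw [← Cardinal.mk_le_aleph0_iff]
      refine MvPolynomial.cardinalMk_le_max_lift.trans ?_
      refine max_le (max_le ?_ ?_) le_rfl
      · rw [Cardinal.lift_le_aleph0]
        exact hK
      · rw [Cardinal.lift_le_aleph0]
        exact (Cardinal.lt_aleph0_of_finite _).le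
    exact hf.countable
  rw [← Cardinal.mk_le_aleph0_iff] at hS₀ ⊢
  exact (IsLocalization.cardinalMk_le (Algebra.EssFiniteType.submonoid K F)).trans hS₀

/-- **EMB-3**: a countable pair `F / K` has a model in `Type`. -/
theorem exists_small_model (K : Type u) (F : Type v) [Field K] [Field F] [Algebra K F]
    [Countable K] [Countable F] :
    ∃ (K₁ F₁ : Type) (_ : Field K₁) (_ : Field F₁) (_ : Algebra K₁ F₁) (eK : K ≃+* K₁)
      (eF : F ≃+* F₁), ∀ a : K, eF (algebraMap K F a) = algebraMap K₁ F₁ (eK a) := by
  let eK : K ≃+* Shrink.{0} K := (Shrink.ringEquiv.{0, u} K).symm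
  let eF : F ≃+* Shrink.{0} F := (Shrink.ringEquiv.{0, v} F).symm
  let φ : Shrink.{0} K →+* Shrink.{0} F :=
    (eF.toRingHom.comp (algebraMap K F)).comp eK.symm.toRingHom
  refine ⟨Shrink.{0} K, Shrink.{0} F, inferInstance, inferInstance, φ.toAlgebra, eK, eF,
    fun a => ?_⟩
  change eF (algebraMap K F a) = φ (eK a)
  simp [φ]

end Fermat.Agent.LEF.helper13
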