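import Mathlib

/-!
# LEF-FIX (helper21): the abstract coefficientwise descent lemma

`descent_finsupp` : let `G` be a set of ring automorphisms of a field `k'` and `k ⊆ k'` a subset
containing all `G`-fixed elements.  A `k'`-subspace `N` of `I →₀ k'` which is stable under the
coefficientwise action of `G` is spanned by its elements with all coefficients in `k`.

Proof: minimal support.
-/

set_option autoImplicit false

namespace Fermat.Agent.LEF.helper21

variable {k' : Type*} [Field k'] {I : Type*}

/-- **Coefficientwise Galois descent** (minimal-support argument). -/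
theorem descent_finsupp (G : Set (k' ≃+* k')) (k : Set k')
    (hk : ∀ c : k', (∀ σ ∈ G, σ c = c) → c ∈ k)
    (N : Submodule k' (I →₀ k'))
    (hN : ∀ σ ∈ G, ∀ c ∈ N, Finsupp.mapRange σ (map_zero σ) c ∈ N) :
    ∀ c ∈ N, c ∈ Submodule.span k' {d : I →₀ k' | d ∈ N ∧ ∀ i, d i ∈ k} := by
  classical
  intro c
  induction' h : c.support.card using Nat.strong_induction_on with n ih generalizing c
  intro hc
  by_cases hc0 : c = 0
  · rw [hc0]; exact Submodule.zero_mem _
  -- a nonzero element of `N` with minimal support inside the support of `c`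
  let T : Set (I →₀ k') := {d | d ∈ N ∧ d ≠ 0 ∧ d.support ⊆ c.support}
  have hT : T.Nonempty := ⟨c, hc, hc0, Finset.Subset.refl _⟩
  obtain ⟨d, hdT, hdmin⟩ : ∃ d ∈ T, ∀ d' ∈ T, d.support.card ≤ d'.support.card := by
    obtain ⟨d, hd, hmin⟩ := WellFounded.has_min
      (InvImage.wf (fun d : I →₀ k' => d.support.card) Nat.lt_wfRel.wf) T hT
    exact ⟨d, hd, fun d' hd' => not_lt.mp (hmin d' hd')⟩
  obtain ⟨hdN, hd0, hdsub⟩ := hdT
  obtain ⟨i₀, hi₀⟩ : ∃ i₀, i₀ ∈ d.support := Finsupp.support_nonempty_iff.mpr hd0
  have hdi₀ : d i₀ ≠ 0 := Finsupp.mem_support_iff.mp hi₀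
  -- normalise
  set d' : I →₀ k' := (d i₀)⁻¹ • d with hd'
  have hd'N : d' ∈ N := N.smul_mem _ hdN
  have hd'i₀ : d' i₀ = 1 := by
    rw [hd', Finsupp.smul_apply, smul_eq_mul, inv_mul_cancel₀ hdi₀]
  have hd'supp : d'.support = d.support := by
    rw [hd']
    exact Finsupp.support_smul_eq (inv_ne_zero hdi₀)
  -- `d'` is fixed by `G`
  have hfix : ∀ σ ∈ G, ∀ i, σ (d' i) = d' i := by
    intro σ hσ
    set e : I →₀ k' := Finsupp.mapRange σ (map_zero σ) d' - d' with he
    have heN : e ∈ N := N.sub_mem (hN σ hσ d' hd'N) hd'N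
    have hesupp : e.support ⊆ d.support.erase i₀ := by
      intro i hi
      rw [Finsupp.mem_support_iff] at hi
      rw [Finset.mem_erase]
      refine ⟨?_, ?_⟩
      · rintro rfl
        apply hi
        rw [he, Finsupp.sub_apply, Finsupp.mapRange_apply, hd'i₀, map_one, sub_self]
      · rw [← hd'supp, Finsupp.mem_support_iff]
        intro h0
        apply hi
        rw [he, Finsupp.sub_apply, Finsupp.mapRange_apply, h0, map_zero, sub_self]
    have he0 : e = 0 := by
      by_contra hne
      have heT : e ∈ T :=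
        ⟨heN, hne, hesupp.trans ((Finset.erase_subset _ _).trans hdsub)⟩
      have h1 := hdmin e heT
      have h2 : e.support.card < d.support.card :=
        lt_of_le_of_lt (Finset.card_le_card hesupp) (Finset.card_erase_lt_of_mem hi₀)
      omega
    intro i
    have := DFunLike.congr_fun he0 i
    rw [he, Finsupp.sub_apply, Finsupp.mapRange_apply, Finsupp.zero_apply, sub_eq_zero] at this
    exact this
  have hd'gen : d' ∈ {d : I →₀ k' | d ∈ N ∧ ∀ i, d i ∈ k} :=
    ⟨hd'N, fun i => hk _ (fun σ hσ => hfix σ hσ i)⟩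
  -- subtract
  set c' : I →₀ k' := c - c i₀ • d' with hc'
  have hc'N : c' ∈ N := N.sub_mem hc (N.smul_mem _ hd'N)
  have hi₀c : i₀ ∈ c.support := hdsub hi₀
  have hc'supp : c'.support ⊆ c.support.erase i₀ := by
    intro i hi
    rw [Finsupp.mem_support_iff] at hi
    rw [Finset.mem_erase]
    refine ⟨?_, ?_⟩
    · rintro rfl
      apply hi
      rw [hc', Finsupp.sub_apply, Finsupp.smul_apply, hd'i₀, smul_eq_mul, mul_one, sub_self]
    · rw [Finsupp.mem_support_iff]
      intro h0
      apply hi
      have hd'i : d' i = 0 := by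
        have : i ∉ d'.support := by
          rw [hd'supp]
          intro hid
          exact (Finsupp.mem_support_iff.mp (hdsub hid)) h0
        exact Finsupp.notMem_support_iff.mp this
      rw [hc', Finsupp.sub_apply, Finsupp.smul_apply, h0, hd'i, smul_zero, sub_self]
  have hlt : c'.support.card < n := by
    rw [← h]
    exact lt_of_le_of_lt (Finset.card_le_card hc'supp) (Finset.card_erase_lt_of_mem hi₀c)
  have hc'span := ih _ hlt c' rfl hc'N
  have : c = c' + c i₀ • d' := by rw [hc']; abel
  rw [this]
  exact Submodule.add_mem _ hc'span (Submodule.smul_mem _ _ (Submodule.subset_span hd'gen))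

end Fermat.Agent.LEF.helper21
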