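import Mathlib
import Fermat.Agent.LEF.helper99_Defs
import Fermat.Agent.LEF.helper21_Descent

/-!
# LEF-FIX (helper21, task 466): Galois descent of subspaces for a constant field extension

Setting: `C : ConstExt K F K' F'` (helper99).  Inputs, as explicit hypotheses in the exact shapes
of the LEF interface:

* `hact` (= ACT-3 `act_spec`) : for `σ ∈ Aut(K'/K)`, `C.act σ` is a lift of `σ` fixing `ι F`;
* `hgal` (= GAL-1 `mem_range_of_fixed`) : `K'^{Aut(K'/K)} = κ K`.

Results (core versions):

* `span_inter_eq_of_stable_of_le_of` (FIX-1);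
* `mem_range_ι_of_fixed_of` (FIX-2);
* `span_inter_eq_of_stable_of` (FIX-3).
-/

set_option autoImplicit false

open AlgebraicCurve

namespace Fermat.Agent.LEF.helper21

open Fermat.Agent.LEF

variable {K F K' F' : Type*} [Field K] [Field F] [Algebra K F] [Field K'] [Field F']
  [Algebra K' F'] (C : ConstExt K F K' F')

/-- The hypothesis ACT-3 of the LEF interface. -/
def ActSpec : Prop :=
  ∀ σ : RingAut K', σ ∈ C.gal →
    C.IsLift σ (SemilinearAut.toRingAut (C.act σ)) ∧ SemilinearAut.baseAut (C.act σ) = σ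

/-- The hypothesis GAL-1 of the LEF interface. -/
def GalFixed : Prop :=
  ∀ c : K', (∀ σ ∈ C.gal, σ c = c) → c ∈ Set.range C.κ

/-! ## Basic facts on `ι` and the span `R` of `ι F` -/

theorem ι_smul (a : K) (f : F) : C.ι (a • f) = C.κ a • C.ι f := by
  rw [Algebra.smul_def, map_mul, C.comm, Algebra.smul_def]

theorem ι_injective : Function.Injective C.ι := C.ι.injective

/-- Linear disjointness for arbitrary families. -/
theorem linearIndependent_ι {I : Type*} (e : I → F) (he : LinearIndependent K e) :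
    LinearIndependent K' (fun i => C.ι (e i)) := by
  classical
  rw [linearIndependent_iff_finset_linearIndependent]
  intro s
  have h1 : LinearIndependent K (fun i : Fin s.card => e (s.equivFin.symm i)) :=
    he.comp (fun i : Fin s.card => ((s.equivFin.symm i : s) : I))
      (Subtype.val_injective.comp s.equivFin.symm.injective)
  have h2 := C.linDisj s.card _ h1
  have h3 := h2.comp s.equivFin s.equivFin.injective
  convert h3 using 1
  funext i
  simp

/-- The `K'`-span of `ι F`. -/
def spanι : Submodule K' F' := Submodule.span K' (Set.range C.ι)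

theorem ι_mem_spanι (f : F) : C.ι f ∈ spanι C := Submodule.subset_span ⟨f, rfl⟩

theorem algebraMap_mem_spanι (c : K') : algebraMap K' F' c ∈ spanι C := by
  have h := (spanι C).smul_mem c (ι_mem_spanι C 1)
  rwa [map_one, Algebra.smul_def, mul_one] at h

theorem one_mem_spanι : (1 : F') ∈ spanι C := by
  have := ι_mem_spanι C 1
  rwa [map_one] at this

theorem mul_mem_spanι {x y : F'} (hx : x ∈ spanι C) (hy : y ∈ spanι C) : x * y ∈ spanι C := by
  have h := Submodule.mul_mem_mul hx hy
  rw [spanι, Submodule.span_mul_span] at h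
  refine Submodule.span_mono ?_ h
  rintro _ ⟨_, ⟨f, rfl⟩, _, ⟨g, rfl⟩, rfl⟩
  exact ⟨f * g, map_mul _ _ _⟩

/-- Every element of `F'` is a quotient of two elements of the span of `ι F`. -/
theorem exists_mul_mem_spanι (x : F') :
    ∃ b ∈ spanι C, b ≠ 0 ∧ x * b ∈ spanι C := by
  have hx : x ∈ Subfield.closure (Set.range (algebraMap K' F') ∪ Set.range C.ι) := by
    rw [C.gen]; exact Subfield.mem_top x
  induction hx using Subfield.closure_induction with
  | mem x hx =>
    refine ⟨1, one_mem_spanι C, one_ne_zero, ?_⟩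
    rw [mul_one]
    rcases hx with ⟨c, rfl⟩ | ⟨f, rfl⟩
    · exact algebraMap_mem_spanι C c
    · exact ι_mem_spanι C f
  | one => exact ⟨1, one_mem_spanι C, one_ne_zero, by rw [mul_one]; exact one_mem_spanι C⟩
  | add x y _ _ hx hy =>
    obtain ⟨b, hb, hb0, hxb⟩ := hx
    obtain ⟨b', hb', hb'0, hyb'⟩ := hy
    refine ⟨b * b', mul_mem_spanι C hb hb', mul_ne_zero hb0 hb'0, ?_⟩
    have : (x + y) * (b * b') = (x * b) * b' + (y * b') * b := by ring
    rw [this]
    exact (spanι C).add_mem (mul_mem_spanι C hxb hb') (mul_mem_spanι C hyb' hb)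
  | neg x _ hx =>
    obtain ⟨b, hb, hb0, hxb⟩ := hx
    refine ⟨b, hb, hb0, ?_⟩
    rw [neg_mul]
    exact (spanι C).neg_mem hxb
  | inv x _ hx =>
    obtain ⟨b, hb, hb0, hxb⟩ := hx
    by_cases hx0 : x = 0
    · refine ⟨1, one_mem_spanι C, one_ne_zero, ?_⟩
      rw [hx0, inv_zero, zero_mul]
      exact (spanι C).zero_mem
    · refine ⟨x * b, hxb, mul_ne_zero hx0 hb0, ?_⟩
      rw [← mul_assoc, inv_mul_cancel₀ hx0, one_mul]
      exact hb
  | mul x y _ _ hx hy =>
    obtain ⟨b, hb, hb0, hxb⟩ := hx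
    obtain ⟨b', hb', hb'0, hyb'⟩ := hy
    refine ⟨b * b', mul_mem_spanι C hb hb', mul_ne_zero hb0 hb'0, ?_⟩
    have : (x * y) * (b * b') = (x * b) * (y * b') := by ring
    rw [this]
    exact mul_mem_spanι C hxb hyb'

/-! ## The action -/

section Action

variable {C}

theorem act_algebraMap (hact : ActSpec C) {σ : RingAut K'} (hσ : σ ∈ C.gal) (c : K') :
    C.act σ • algebraMap K' F' c = algebraMap K' F' (σ c) :=
  (hact σ hσ).1.1 c

theorem act_ι (hact : ActSpec C) {σ : RingAut K'} (hσ : σ ∈ C.gal) (f : F) :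
    C.act σ • C.ι f = C.ι f :=
  (hact σ hσ).1.2 f

theorem act_smul' (hact : ActSpec C) {σ : RingAut K'} (hσ : σ ∈ C.gal) (c : K') (x : F') :
    C.act σ • (c • x) = σ c • (C.act σ • x) := by
  rw [Algebra.smul_def, smul_mul', act_algebraMap hact hσ, Algebra.smul_def]

/-- `act σ⁻¹` inverts `act σ` (both sides are ring automorphisms agreeing on generators). -/
theorem act_inv_act (hact : ActSpec C) {σ : RingAut K'} (hσ : σ ∈ C.gal) (x : F') :
    C.act σ⁻¹ • (C.act σ • x) = x := by
  have hσ' : σ⁻¹ ∈ C.gal := C.gal.inv_mem hσ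
  have hx : x ∈ Subfield.closure (Set.range (algebraMap K' F') ∪ Set.range C.ι) := by
    rw [C.gen]; exact Subfield.mem_top x
  induction hx using Subfield.closure_induction with
  | mem x hx =>
    rcases hx with ⟨c, rfl⟩ | ⟨f, rfl⟩
    · rw [act_algebraMap hact hσ, act_algebraMap hact hσ']
      congr 1
      exact σ.symm_apply_apply c
    · rw [act_ι hact hσ, act_ι hact hσ']
  | one => rw [smul_one, smul_one]
  | add x y _ _ hx hy => rw [smul_add, smul_add, hx, hy]
  | neg x _ hx => rw [smul_neg, smul_neg, hx]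
  | inv x _ hx => rw [smul_inv'', smul_inv'', hx]
  | mul x y _ _ hx hy => rw [smul_mul', smul_mul', hx, hy]

theorem act_act_inv (hact : ActSpec C) {σ : RingAut K'} (hσ : σ ∈ C.gal) (x : F') :
    C.act σ • (C.act σ⁻¹ • x) = x := by
  have h := act_inv_act hact (C.gal.inv_mem hσ) x
  rwa [inv_inv] at h

theorem act_mem_spanι (hact : ActSpec C) {σ : RingAut K'} (hσ : σ ∈ C.gal) {x : F'}
    (hx : x ∈ spanι C) : C.act σ • x ∈ spanι C := by
  induction hx using Submodule.span_induction with
  | mem x hx =>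
    obtain ⟨f, rfl⟩ := hx
    rw [act_ι hact hσ]
    exact ι_mem_spanι C f
  | zero => rw [smul_zero]; exact (spanι C).zero_mem
  | add x y _ _ hx hy => rw [smul_add]; exact (spanι C).add_mem hx hy
  | smul c x _ hx => rw [act_smul' hact hσ]; exact (spanι C).smul_mem _ hx

theorem act_linearCombination (hact : ActSpec C) {σ : RingAut K'} (hσ : σ ∈ C.gal)
    {I : Type*} (e : I → F) (c : I →₀ K') :
    C.act σ • Finsupp.linearCombination K' (fun i => C.ι (e i)) c =
      Finsupp.linearCombination K' (fun i => C.ι (e i))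
        (Finsupp.mapRange σ (map_zero σ) c) := by
  classical
  induction c using Finsupp.induction_linear with
  | zero => simp
  | add c d hc hd =>
    rw [map_add, smul_add, hc, hd, Finsupp.mapRange_add (map_add σ), map_add]
  | single i a =>
    rw [Finsupp.mapRange_single, Finsupp.linearCombination_single,
      Finsupp.linearCombination_single, act_smul' hact hσ, act_ι hact hσ]

end Action

/-! ## The basis -/

section Basis

variable {I : Type*} (e : Module.Basis I K F)

/-- `ι f` in coordinates. -/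
theorem ι_eq_linearCombination (f : F) :
    C.ι f = Finsupp.linearCombination K' (fun i => C.ι (e i))
      (Finsupp.mapRange C.κ (map_zero C.κ) (e.repr f)) := by
  classical
  conv_lhs => rw [← e.linearCombination_repr f]
  rw [Finsupp.linearCombination_apply, Finsupp.linearCombination_apply,
    Finsupp.sum_mapRange_index (h := fun i (a : K') => a • C.ι (e i)) (fun i => zero_smul _ _),
    Finsupp.sum, Finsupp.sum, map_sum]
  refine Finset.sum_congr rfl fun i _ => ?_
  exact ι_smul C _ _

theorem spanι_eq_range :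
    spanι C = LinearMap.range (Finsupp.linearCombination K' (fun i => C.ι (e i))) := by
  apply le_antisymm
  · rw [spanι, Submodule.span_le]
    rintro _ ⟨f, rfl⟩
    exact ⟨_, (ι_eq_linearCombination C e f).symm⟩
  · rw [Finsupp.range_linearCombination, spanι]
    apply Submodule.span_mono
    rintro _ ⟨i, rfl⟩
    exact ⟨e i, rfl⟩

/-- A linear combination of the `ι e_i` with coefficients in `κ K` lies in `ι F`. -/
theorem linearCombination_mem_range_ι (d : I →₀ K') (hd : ∀ i, d i ∈ Set.range C.κ) :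
    Finsupp.linearCombination K' (fun i => C.ι (e i)) d ∈ Set.range C.ι := by
  classical
  choose a ha using hd
  refine ⟨∑ i ∈ d.support, a i • e i, ?_⟩
  rw [map_sum, Finsupp.linearCombination_apply, Finsupp.sum]
  refine Finset.sum_congr rfl fun i _ => ?_
  rw [ι_smul, ha]

end Basis

/-! ## FIX-1 -/

/-- **FIX-1** (core version): a `K'`-subspace of the `K'`-span of `ι F` which is stable under
`Aut(K'/K)` is spanned by its elements in `ι F`. -/
theorem span_inter_eq_of_stable_of_le_of (hact : ActSpec C) (hgal : GalFixed C)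
    (M : Submodule K' F')
    (hM : M ≤ Submodule.span K' (Set.range C.ι))
    (hst : ∀ σ ∈ C.gal, ∀ x ∈ M, C.act σ • x ∈ M) :
    M = Submodule.span K' (C.ι '' {f : F | C.ι f ∈ M}) := by
  classical
  apply le_antisymm
  · intro x hx
    set e := Module.Basis.ofVectorSpace K F with he
    set lc := Finsupp.linearCombination K' (fun i => C.ι (e i)) with hlc
    have hxR : x ∈ LinearMap.range lc := by
      rw [hlc, ← spanι_eq_range C e]
      exact hM hx
    obtain ⟨c, rfl⟩ := hxR
    set N : Submodule K' (_ →₀ K') := M.comap lc with hN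
    have hcN : c ∈ N := hx
    have hNst : ∀ σ ∈ (C.gal : Set (K' ≃+* K')), ∀ c ∈ N,
        Finsupp.mapRange σ (map_zero σ) c ∈ N := by
      intro σ hσ c hc
      show lc _ ∈ M
      rw [hlc, ← act_linearCombination hact hσ]
      exact hst σ hσ _ hc
    have key := descent_finsupp (C.gal : Set (K' ≃+* K')) (Set.range C.κ)
      (fun c hc => hgal c hc) N hNst c hcN
    have h2 : lc c ∈ Submodule.map lc
        (Submodule.span K' {d : _ →₀ K' | d ∈ N ∧ ∀ i, d i ∈ Set.range C.κ}) :=
      Submodule.mem_map_of_mem key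
    rw [Submodule.map_span] at h2
    refine Submodule.span_mono ?_ h2
    rintro _ ⟨d, ⟨hdN, hdk⟩, rfl⟩
    obtain ⟨f, hf⟩ := linearCombination_mem_range_ι C e d hdk
    refine ⟨f, ?_, hf⟩
    show C.ι f ∈ M
    rw [hf]
    exact hdN
  · rw [Submodule.span_le]
    rintro _ ⟨f, hf, rfl⟩
    exact hf

/-! ## FIX-3 -/

/-- A common denominator for a finitely generated subspace. -/
theorem exists_common_denominator (M : Submodule K' F') (hfd : Module.Finite K' M) :
    ∃ b ∈ spanι C, b ≠ 0 ∧ ∀ m ∈ M, m * b ∈ spanι C := by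
  classical
  have hfg : M.FG := Module.Finite.iff_fg.mp hfd
  obtain ⟨S, hS⟩ := hfg
  have hSb : ∃ b ∈ spanι C, b ≠ 0 ∧ ∀ s ∈ S, s * b ∈ spanι C := by
    clear hS
    induction S using Finset.induction_on with
    | empty => exact ⟨1, one_mem_spanι C, one_ne_zero, by simp⟩
    | insert a S _ ih =>
      obtain ⟨b, hb, hb0, hbS⟩ := ih
      obtain ⟨b', hb', hb'0, hab'⟩ := exists_mul_mem_spanι C a
      refine ⟨b * b', mul_mem_spanι C hb hb', mul_ne_zero hb0 hb'0, ?_⟩
      intro s hs
      rcases Finset.mem_insert.mp hs with rfl | hs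
      · have : s * (b * b') = (s * b') * b := by ring
        rw [this]
        exact mul_mem_spanι C hab' hb
      · rw [← mul_assoc]
        exact mul_mem_spanι C (hbS s hs) hb'
  obtain ⟨b, hb, hb0, hbS⟩ := hSb
  refine ⟨b, hb, hb0, ?_⟩
  intro m hm
  rw [← hS] at hm
  induction hm using Submodule.span_induction with
  | mem x hx => exact hbS x hx
  | zero => rw [zero_mul]; exact (spanι C).zero_mem
  | add x y _ _ hx hy => rw [add_mul]; exact (spanι C).add_mem hx hy
  | smul c x _ hx => rw [smul_mul_assoc]; exact (spanι C).smul_mem _ hx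

/-- **FIX-3** (core version): a finite-dimensional stable subspace of `F'` is spanned by its
elements in `ι F`. -/
theorem span_inter_eq_of_stable_of (hact : ActSpec C) (hgal : GalFixed C)
    (M : Submodule K' F')
    (hfd : Module.Finite K' M) (hst : ∀ σ ∈ C.gal, ∀ x ∈ M, C.act σ • x ∈ M) :
    M = Submodule.span K' (C.ι '' {f : F | C.ι f ∈ M}) := by
  classical
  apply le_antisymm
  swap
  · rw [Submodule.span_le]
    rintro _ ⟨f, hf, rfl⟩
    exact hf
  -- the space of denominators
  let J : Submodule K' F' :=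
    { carrier := {b | b ∈ spanι C ∧ ∀ m ∈ M, m * b ∈ spanι C}
      zero_mem' := ⟨(spanι C).zero_mem, fun m _ => by
        rw [mul_zero]; exact (spanι C).zero_mem⟩
      add_mem' := fun {a b} ha hb => ⟨(spanι C).add_mem ha.1 hb.1, fun m hm => by
        rw [mul_add]; exact (spanι C).add_mem (ha.2 m hm) (hb.2 m hm)⟩
      smul_mem' := fun c b hb => ⟨(spanι C).smul_mem c hb.1, fun m hm => by
        rw [mul_smul_comm]; exact (spanι C).smul_mem c (hb.2 m hm)⟩ }
  have hJle : J ≤ Submodule.span K' (Set.range C.ι) := fun b hb => hb.1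
  have hJst : ∀ σ ∈ C.gal, ∀ x ∈ J, C.act σ • x ∈ J := by
    intro σ hσ b hb
    refine ⟨act_mem_spanι hact hσ hb.1, fun m hm => ?_⟩
    have h1 : C.act σ⁻¹ • m ∈ M := hst σ⁻¹ (C.gal.inv_mem hσ) m hm
    have h2 := act_mem_spanι hact hσ (hb.2 _ h1)
    rwa [smul_mul', act_act_inv hact hσ] at h2
  have hJ := span_inter_eq_of_stable_of_le_of C hact hgal J hJle hJst
  obtain ⟨b, hb, hb0, hbM⟩ := exists_common_denominator C M hfd
  have hbJ : b ∈ J := ⟨hb, hbM⟩
  -- a nonzero denominator in `ι F`
  obtain ⟨f, hfJ, hf0⟩ : ∃ f : F, C.ι f ∈ J ∧ C.ι f ≠ 0 := by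
    by_contra hne
    push Not at hne
    have hJbot : J ≤ ⊥ := by
      rw [hJ, Submodule.span_le]
      rintro _ ⟨f, hf, rfl⟩
      exact hne f hf
    exact hb0 (hJbot hbJ)
  -- the subspace `ι f * M` of the span
  let M₁ : Submodule K' F' := M.map (LinearMap.mulLeft K' (C.ι f))
  have hM₁le : M₁ ≤ Submodule.span K' (Set.range C.ι) := by
    rintro _ ⟨m, hm, rfl⟩
    show C.ι f * m ∈ spanι C
    rw [mul_comm]
    exact hfJ.2 m hm
  have hM₁st : ∀ σ ∈ C.gal, ∀ x ∈ M₁, C.act σ • x ∈ M₁ := by
    rintro σ hσ _ ⟨m, hm, rfl⟩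
    refine ⟨C.act σ • m, hst σ hσ m hm, ?_⟩
    show C.ι f * (C.act σ • m) = C.act σ • (C.ι f * m)
    rw [smul_mul', act_ι hact hσ]
  have hM₁ := span_inter_eq_of_stable_of_le_of C hact hgal M₁ hM₁le hM₁st
  intro m hm
  have h1 : C.ι f * m ∈ M₁ := ⟨m, hm, rfl⟩
  rw [hM₁] at h1
  have h2 : ∀ y ∈ Submodule.span K' (C.ι '' {g : F | C.ι g ∈ M₁}),
      (C.ι f)⁻¹ * y ∈ Submodule.span K' (C.ι '' {f : F | C.ι f ∈ M}) := by
    intro y hy
    induction hy using Submodule.span_induction with
    | mem y hy =>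
      obtain ⟨g, hg, rfl⟩ := hy
      obtain ⟨m', hm', hgm'⟩ := hg
      have hgm'' : C.ι f * m' = C.ι g := hgm'
      apply Submodule.subset_span
      refine ⟨f⁻¹ * g, ?_, ?_⟩
      · show C.ι (f⁻¹ * g) ∈ M
        rw [map_mul, map_inv₀, ← hgm'', ← mul_assoc, inv_mul_cancel₀ hf0, one_mul]
        exact hm'
      · rw [map_mul, map_inv₀]
    | zero => rw [mul_zero]; exact Submodule.zero_mem _
    | add x y _ _ hx hy => rw [mul_add]; exact Submodule.add_mem _ hx hy
    | smul c x _ hx => rw [mul_smul_comm]; exact Submodule.smul_mem _ _ hx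
  have h3 := h2 _ h1
  rwa [← mul_assoc, inv_mul_cancel₀ hf0, one_mul] at h3

/-! ## FIX-2 -/

/-- **FIX-2** (core version): `F'^{Aut(K'/K)} = ι F`. -/
theorem mem_range_ι_of_fixed_of (hact : ActSpec C) (hgal : GalFixed C) (x : F')
    (hx : ∀ σ ∈ C.gal, C.act σ • x = x) : x ∈ Set.range C.ι := by
  classical
  by_cases hx0 : x = 0
  · exact ⟨0, by rw [map_zero, hx0]⟩
  let M : Submodule K' F' := Submodule.span K' {x}
  have hfd : Module.Finite K' M := Module.Finite.span_singleton K' x
  have hst : ∀ σ ∈ C.gal, ∀ y ∈ M, C.act σ • y ∈ M := by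
    intro σ hσ y hy
    obtain ⟨c, rfl⟩ := Submodule.mem_span_singleton.mp hy
    rw [act_smul' hact hσ, hx σ hσ]
    exact Submodule.smul_mem _ _ (Submodule.mem_span_singleton_self x)
  have hM := span_inter_eq_of_stable_of C hact hgal M hfd hst
  obtain ⟨g, hgM, hg0⟩ : ∃ g : F, C.ι g ∈ M ∧ C.ι g ≠ 0 := by
    by_contra hne
    push Not at hne
    have hMbot : M ≤ ⊥ := by
      rw [hM, Submodule.span_le]
      rintro _ ⟨f, hf, rfl⟩
      exact hne f hf
    exact hx0 (hMbot (Submodule.mem_span_singleton_self x))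
  obtain ⟨c, hc⟩ := Submodule.mem_span_singleton.mp hgM
  have hc0 : c ≠ 0 := by
    rintro rfl
    rw [zero_smul] at hc
    exact hg0 hc.symm
  have hcfix : ∀ σ ∈ C.gal, σ c = c := by
    intro σ hσ
    have h1 : C.act σ • (c • x) = c • x := by rw [hc, act_ι hact hσ]
    rw [act_smul' hact hσ, hx σ hσ] at h1
    have h2 : (σ c - c) • x = 0 := by rw [sub_smul, h1, sub_self]
    rcases smul_eq_zero.mp h2 with h | h
    · exact sub_eq_zero.mp h
    · exact absurd h hx0
  obtain ⟨a, ha⟩ := hgal c hcfix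
  have ha0 : a ≠ 0 := by
    rintro rfl
    rw [map_zero] at ha
    exact hc0 ha.symm
  refine ⟨a⁻¹ • g, ?_⟩
  rw [ι_smul, map_inv₀, ha, ← hc, smul_smul, inv_mul_cancel₀ hc0, one_smul]

end Fermat.Agent.LEF.helper21
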