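import Mathlib
import Fermat.Agent.LEF.helper99_Defs
import Fermat.Agent.P2.helper74_Riemann
import Fermat.Prelude.Def_AlgebraicCurve_Correspondence

/-!
# LEF-SQ (helper37, task 471): the conorm in commutative squares

Setting: constant field extensions `C₁ : ConstExt K F₁ K' F₁'`, `C₂ : ConstExt K F₂ K' F₂'` and
finite extensions `φ : F₁ → F₂`, `φ' : F₁' → F₂'` forming a commutative square
(`φ' ∘ ι₁ = ι₂ ∘ φ`).

* `PLInputs C` : the statements PL-1, PL-2, PL-3, PL-5 of the LEF interface for `C`, as a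
  `Prop`-structure (the inputs of this package);
* `isExt_restrictAlong` (SQ-1, VERBATIM, unconditional);
* `con_pullbackAlong_of` (SQ-2), `con_pushforwardAlong_of` (SQ-3), `conPic0_correspondence_of`
  (SQ-4) : the statements of the LEF interface, conditional ONLY on `PLInputs C₁`, `PLInputs C₂`;
* by-products: `isExt_inj` (PL-4), `not_isNew_of_isExt` (PL-7), `con_single_of_isExt` (CON-1),
  `con_apply_of_isExt` (CON-2), `con_apply_of_isNew` (CON-3), `conPic0_mk` (CON-7), all from
  `PLInputs` only.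
-/

set_option autoImplicit false
set_option linter.unusedSectionVars false
set_option linter.style.haveILetI false

open AlgebraicCurve

namespace Fermat.Agent.LEF.helper37

open Fermat.Agent.LEF Fermat.Agent.P2.helper74

section Inputs

variable {K F K' F' : Type*} [Field K] [Field F] [Algebra K F] [Field K'] [Field F']
  [Algebra K' F'] (C : ConstExt K F K' F')

/-- The inputs of the package: PL-1, PL-2, PL-3, PL-5 of the LEF interface for `C`. -/
structure PLInputs : Prop where
  exists_isExt : ∀ P : Place K F, ∃ Q : Place K' F', C.IsExt P Q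
  isExt_unique : ∀ {P : Place K F} {Q Q' : Place K' F'}, C.IsExt P Q → C.IsExt P Q' → Q = Q'
  ord_eq_of_isExt : ∀ {P : Place K F} {Q : Place K' F'}, C.IsExt P Q →
    ∀ f : F, Q.ord (C.ι f) = P.ord f
  isNew_or_exists_isExt : ∀ Q : Place K' F', C.IsNew Q ∨ ∃ P : Place K F, C.IsExt P Q

variable {C}

/-- PL-4. -/
theorem isExt_inj {P P' : Place K F} {Q : Place K' F'}
    (h : C.IsExt P Q) (h' : C.IsExt P' Q) : P = P' :=
  Place.ext (SetLike.ext fun f => (h f).symm.trans (h' f))

/-- PL-7. -/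
theorem not_isNew_of_isExt {P : Place K F} {Q : Place K' F'} (h : C.IsExt P Q) :
    ¬ C.IsNew Q := fun hn =>
  P.ne_top' (SetLike.ext fun f => ⟨fun _ => ValuationSubring.mem_top f, fun _ => (h f).1 (hn f)⟩)

theorem extDiv_eq_of_isExt (I : PLInputs C) {P : Place K F} {Q : Place K' F'}
    (h : C.IsExt P Q) : C.extDiv P = Finsupp.single Q 1 := by
  have hex : ∃ Q : Place K' F', C.IsExt P Q := ⟨Q, h⟩
  rw [ConstExt.extDiv, dif_pos hex, I.isExt_unique hex.choose_spec h]

/-- CON-1. -/
theorem con_single_of_isExt (I : PLInputs C) {P : Place K F} {Q : Place K' F'}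
    (h : C.IsExt P Q) (n : ℤ) : C.con (Finsupp.single P n) = Finsupp.single Q n := by
  rw [ConstExt.con, Finsupp.liftAddHom_apply_single, zmultiplesHom_apply, extDiv_eq_of_isExt I h,
    Finsupp.smul_single, smul_eq_mul, mul_one]

/-- CON-2. -/
theorem con_apply_of_isExt (I : PLInputs C) {P : Place K F} {Q : Place K' F'}
    (h : C.IsExt P Q) (D : Divisor K F) : C.con D Q = D P := by
  classical
  induction D using Finsupp.induction_linear with
  | zero => simp
  | add D E hD hE => rw [map_add, Finsupp.add_apply, Finsupp.add_apply, hD, hE]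
  | single P' n =>
    obtain ⟨Q', hQ'⟩ := I.exists_isExt P'
    rw [con_single_of_isExt I hQ', Finsupp.single_apply, Finsupp.single_apply]
    by_cases hP : P' = P
    · subst hP
      rw [if_pos (I.isExt_unique hQ' h), if_pos rfl]
    · rw [if_neg hP, if_neg]
      rintro rfl
      exact hP (isExt_inj hQ' h)

/-- CON-3. -/
theorem con_apply_of_isNew (I : PLInputs C) {Q : Place K' F'} (h : C.IsNew Q)
    (D : Divisor K F) : C.con D Q = 0 := by
  classical
  induction D using Finsupp.induction_linear with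
  | zero => simp
  | add D E hD hE => rw [map_add, Finsupp.add_apply, hD, hE, add_zero]
  | single P' n =>
    obtain ⟨Q', hQ'⟩ := I.exists_isExt P'
    rw [con_single_of_isExt I hQ', Finsupp.single_apply, if_neg]
    rintro rfl
    exact not_isNew_of_isExt hQ' h

/-- CON-7. -/
theorem conPic0_mk (h : C.ConOK) (D : Divisor.degZero (K := K) (F := F)) :
    C.conPic0 (Pic0.mk D) = Pic0.mk (C.conDegZero h D) := by
  rw [ConstExt.conPic0, dif_pos h]
  rfl

theorem conPic0_eq_zero (h : ¬ C.ConOK) (c : Pic0 K F) : C.conPic0 c = 0 := by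
  rw [ConstExt.conPic0, dif_neg h]
  rfl

end Inputs

section Square

variable {K F₁ F₂ K' F₁' F₂' : Type*} [Field K] [Field F₁] [Field F₂] [Algebra K F₁]
  [Algebra K F₂] [Field K'] [Field F₁'] [Field F₂'] [Algebra K' F₁'] [Algebra K' F₂']
  (C₁ : ConstExt K F₁ K' F₁') (C₂ : ConstExt K F₂ K' F₂')
  (φ : F₁ →ₐ[K] F₂) (φ' : F₁' →ₐ[K'] F₂')
  (hφ : φ.toRingHom.IsIntegral) (hφ' : φ'.toRingHom.IsIntegral)

theorem mem_restrictAlong_iff (P₂ : Place K F₂) (f : F₁) :
    f ∈ (Place.restrictAlong φ hφ P₂).toValuationSubring ↔ φ f ∈ P₂.toValuationSubring :=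
  Iff.rfl

/-- **SQ-1**: places in a commutative square: if `Q₂` lies over `P₂` then the restriction of
`Q₂` to `F₁'` lies over the restriction of `P₂` to `F₁`. -/
theorem isExt_restrictAlong (hsq : ∀ f : F₁, φ' (C₁.ι f) = C₂.ι (φ f))
    {P₂ : Place K F₂} {Q₂ : Place K' F₂'} (h : C₂.IsExt P₂ Q₂) :
    C₁.IsExt (Place.restrictAlong φ hφ P₂) (Place.restrictAlong φ' hφ' Q₂) := by
  intro f
  rw [mem_restrictAlong_iff, mem_restrictAlong_iff, hsq]
  exact h (φ f)

/-- the restriction of a new place is new -/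
theorem isNew_restrictAlong (hsq : ∀ f : F₁, φ' (C₁.ι f) = C₂.ι (φ f))
    {Q₂ : Place K' F₂'} (h : C₂.IsNew Q₂) :
    C₁.IsNew (Place.restrictAlong φ' hφ' Q₂) := by
  intro f
  rw [mem_restrictAlong_iff, hsq]
  exact h (φ f)

include hφ in
theorem ramificationIndexAlong_pos (W : Place K F₂) :
    0 < Place.ramificationIndexAlong φ W := by
  letI := algebraAlong φ
  haveI := isScalarTower_along φ
  haveI := isIntegral_along φ hφ
  exact W.ramificationIndex_pos (F := F₁)

include hφ in
theorem exists_ord_eq_ramificationIndexAlong (W : Place K F₂) :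
    ∃ g : F₁, g ≠ 0 ∧ W.ord (φ g) = Place.ramificationIndexAlong φ W := by
  letI := algebraAlong φ
  haveI := isScalarTower_along φ
  haveI := isIntegral_along φ hφ
  exact W.exists_ord_eq_ramificationIndex (F := F₁)

include hφ hφ' in
/-- No new ramification: the ramification index of `ext W` over `F₁'` is that of `W` over
`F₁`. -/
theorem ramificationIndexAlong_eq_of_isExt (I₁ : PLInputs C₁) (I₂ : PLInputs C₂)
    (hsq : ∀ f : F₁, φ' (C₁.ι f) = C₂.ι (φ f))
    {W : Place K F₂} {R : Place K' F₂'} (h : C₂.IsExt W R) :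
    Place.ramificationIndexAlong φ' R = Place.ramificationIndexAlong φ W := by
  obtain ⟨g, -, hg⟩ := exists_ord_eq_ramificationIndexAlong φ hφ W
  have hpos := ramificationIndexAlong_pos φ hφ W
  have h1 := Place.ord_restrictAlong φ hφ W g
  -- `ord_P g = 1`
  have hP : (Place.restrictAlong φ hφ W).ord g = 1 := by
    rw [hg] at h1
    have hpos' : (0 : ℤ) < (Place.ramificationIndexAlong φ W : ℤ) := by exact_mod_cast hpos
    have : (Place.ramificationIndexAlong φ W : ℤ) * 1 =
        (Place.ramificationIndexAlong φ W : ℤ) * (Place.restrictAlong φ hφ W).ord g := by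
      rw [mul_one]; exact h1
    exact (mul_left_cancel₀ hpos'.ne' this).symm
  have h2 := Place.ord_restrictAlong φ' hφ' R (C₁.ι g)
  rw [hsq, I₂.ord_eq_of_isExt h, hg,
    I₁.ord_eq_of_isExt (isExt_restrictAlong C₁ C₂ φ φ' hφ hφ' hsq h), hP, mul_one] at h2
  exact_mod_cast h2.symm

/-- **SQ-2**, conditional on the PL inputs: conorm commutes with pull-back of divisors. -/
theorem con_pullbackAlong_of (I₁ : PLInputs C₁) (I₂ : PLInputs C₂)
    [HasPrincipalDivisors K F₂] [HasPrincipalDivisors K' F₂']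
    (hsq : ∀ f : F₁, φ' (C₁.ι f) = C₂.ι (φ f)) (D : Divisor K F₁) :
    C₂.con (Divisor.pullbackAlong φ hφ D) = Divisor.pullbackAlong φ' hφ' (C₁.con D) := by
  ext R
  rw [Divisor.pullbackAlong_apply]
  rcases I₂.isNew_or_exists_isExt R with hnew | ⟨W, hW⟩
  · rw [con_apply_of_isNew I₂ hnew,
      con_apply_of_isNew I₁ (isNew_restrictAlong C₁ C₂ φ φ' hφ' hsq hnew), mul_zero]
  · rw [con_apply_of_isExt I₂ hW, Divisor.pullbackAlong_apply,
      con_apply_of_isExt I₁ (isExt_restrictAlong C₁ C₂ φ φ' hφ hφ' hsq hW),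
      ramificationIndexAlong_eq_of_isExt C₁ C₂ φ φ' hφ hφ' I₁ I₂ hsq hW]

theorem inertiaDegAlong_eq_one (hdeg : ∀ v : Place K F₂, v.deg = 1)
    (hdeg₁ : ∀ v : Place K F₁, v.deg = 1) (W : Place K F₂) :
    Place.inertiaDegAlong φ hφ W = 1 := by
  letI := algebraAlong φ
  haveI := isScalarTower_along φ
  haveI := isIntegral_along φ hφ
  have h := W.deg_restrict_mul_inertiaDeg (F := F₁)
  rw [hdeg W, hdeg₁ (W.restrict F₁), one_mul] at h
  exact h

/-- **SQ-3**, conditional on the PL inputs: conorm commutes with push-forward of divisors. -/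
theorem con_pushforwardAlong_of (I₁ : PLInputs C₁) (I₂ : PLInputs C₂)
    (hsq : ∀ f : F₁, φ' (C₁.ι f) = C₂.ι (φ f))
    (hS₁ : RiemannSetting K F₁) (hS₂ : RiemannSetting K F₂)
    (hS₁' : RiemannSetting K' F₁') (hS₂' : RiemannSetting K' F₂') (E : Divisor K F₂) :
    C₁.con (Divisor.pushforwardAlong φ hφ E) = Divisor.pushforwardAlong φ' hφ' (C₂.con E) := by
  induction E using Finsupp.induction_linear with
  | zero => simp
  | add D E hD hE => rw [map_add, map_add, map_add, map_add, hD, hE]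
  | single W n =>
    obtain ⟨R, hR⟩ := I₂.exists_isExt W
    rw [Divisor.pushforwardAlong_single, con_single_of_isExt I₂ hR,
      Divisor.pushforwardAlong_single,
      con_single_of_isExt I₁ (isExt_restrictAlong C₁ C₂ φ φ' hφ hφ' hsq hR),
      inertiaDegAlong_eq_one φ hφ hS₂.deg_one hS₁.deg_one,
      inertiaDegAlong_eq_one φ' hφ' hS₂'.deg_one hS₁'.deg_one]

/-- **SQ-4**, conditional on the PL inputs: conorm commutes with correspondences on `Pic0`. -/
theorem conPic0_correspondence_of (I₁ : PLInputs C₁) (I₂ : PLInputs C₂)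
    [HasPrincipalDivisors K F₂] [HasPrincipalDivisors K' F₂']
    (ψ : F₁ →ₐ[K] F₂) (ψ' : F₁' →ₐ[K'] F₂')
    (hψ : ψ.toRingHom.IsIntegral) (hψ' : ψ'.toRingHom.IsIntegral)
    (hsqφ : ∀ f : F₁, φ' (C₁.ι f) = C₂.ι (φ f)) (hsqψ : ∀ f : F₁, ψ' (C₁.ι f) = C₂.ι (ψ f))
    (hS₁ : RiemannSetting K F₁) (hS₂ : RiemannSetting K F₂)
    (hS₁' : RiemannSetting K' F₁') (hS₂' : RiemannSetting K' F₂')
    (hFI : FundamentalIdentityAlong K φ hφ) (hfin : FiniteAlong K ψ)
    (hN : NormFormulaAlong K ψ hfin)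
    (hFI' : FundamentalIdentityAlong K' φ' hφ') (hfin' : FiniteAlong K' ψ')
    (hN' : NormFormulaAlong K' ψ' hfin') (c : Pic0 K F₁) :
    C₁.conPic0 (Pic0.correspondence φ ψ hφ hψ hFI hfin hN c) =
      Pic0.correspondence φ' ψ' hφ' hψ' hFI' hfin' hN' (C₁.conPic0 c) := by
  by_cases hOK : C₁.ConOK
  · obtain ⟨D, rfl⟩ := Pic0.mk_surjective c
    rw [Pic0.correspondence_mk, conPic0_mk hOK, conPic0_mk hOK, Pic0.correspondence_mk]
    congr 1
    apply Subtype.ext
    show C₁.con (Divisor.pushforwardAlong ψ hψ (Divisor.pullbackAlong φ hφ (D : Divisor K F₁))) =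
      Divisor.pushforwardAlong ψ' hψ' (Divisor.pullbackAlong φ' hφ' (C₁.con (D : Divisor K F₁)))
    rw [con_pushforwardAlong_of C₁ C₂ ψ ψ' hψ hψ' I₁ I₂ hsqψ hS₁ hS₂ hS₁' hS₂',
      con_pullbackAlong_of C₁ C₂ φ φ' hφ hφ' I₁ I₂ hsqφ]
  · rw [conPic0_eq_zero hOK, conPic0_eq_zero hOK, map_zero]

end Square

end Fermat.Agent.LEF.helper37
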