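import Mathlib
import Fermat.Agent.LEF.helper99_Defs

/-!
# LEF-PL-B (helper69): classification of the places of a constant field extension

For `C : ConstExt K F K' F'` (no further hypotheses):

* `isExt_inj` (PL-4)              : a place of `F'/K'` lies over at most one place of `F/K`;
* `isNew_or_exists_isExt` (PL-5)  : a place of `F'/K'` is new or lies over a place of `F/K`;
* `ord_eq_zero_of_isNew` (PL-6)   : a new place has `ord (ι f) = 0` for all `f ≠ 0`;
* `not_isNew_of_isExt` (PL-7)     : a place lying over a place of `F/K` is not new.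

The content is PL-5: for a place `Q` of `F'/K'` and a field homomorphism `ι : F →+* F'` the
valuation subring `O_Q.comap ι` of `F` is either `⊤` or a discrete valuation ring
(`isPrincipalIdealRing_comap_of_ne_top`); the argument is the one of the Prelude
(`Place.restrict` in `Def_AlgebraicCurve_DivisorPushPull`) with integrality replaced by the
hypothesis `O_Q.comap ι ≠ ⊤`.
-/

set_option autoImplicit false
set_option linter.unusedVariables false

noncomputable section

open AlgebraicCurve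

namespace Fermat.Agent.LEF.helper69

open Fermat.Agent.LEF

section SinglePlace

variable {K F : Type*} [Field K] [Field F] [Algebra K F] (v : Place K F)

theorem place_ord_nonneg_of_mem {f : F} (hf : f ∈ v.toValuationSubring) : 0 ≤ v.ord f := by
  rcases eq_or_ne f 0 with rfl | hf0
  · simp
  obtain ⟨π, hπ⟩ := IsDiscreteValuationRing.exists_irreducible v.toValuationSubring
  obtain ⟨n, u, hu⟩ :=
    IsDiscreteValuationRing.eq_unit_mul_pow_irreducible
      (x := (⟨f, hf⟩ : v.toValuationSubring)) (by simpa [Subtype.ext_iff] using hf0) hπ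
  have hcoe : f = ((u : v.toValuationSubring) : F) * ((π : F) ^ (n : ℤ)) := by
    have h := congrArg (Subtype.val) hu
    push_cast at h
    rw [zpow_natCast]
    exact h
  rw [hcoe, v.ord_unit_smul_zpow u hπ (n : ℤ)]
  exact Int.natCast_nonneg n

theorem place_mem_of_ord_nonneg {f : F} (h : 0 ≤ v.ord f) : f ∈ v.toValuationSubring := by
  rcases eq_or_ne f 0 with rfl | hf
  · exact zero_mem _
  obtain ⟨π, hπ⟩ := IsDiscreteValuationRing.exists_irreducible v.toValuationSubring
  obtain ⟨u, hu⟩ := v.exists_unit_mul_zpow hf hπ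
  rw [hu, show v.ord f = (((v.ord f).toNat : ℕ) : ℤ) from (Int.toNat_of_nonneg h).symm,
    zpow_natCast]
  exact mul_mem (u : v.toValuationSubring).2 (pow_mem (π : v.toValuationSubring).2 _)

theorem place_mem_iff_ord_nonneg {f : F} : f ∈ v.toValuationSubring ↔ 0 ≤ v.ord f :=
  ⟨place_ord_nonneg_of_mem v, place_mem_of_ord_nonneg v⟩

/-- an element which is integral together with its inverse has order `0` -/
theorem place_ord_eq_zero_of_mem_of_inv_mem {f : F} (hf : f ∈ v.toValuationSubring)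
    (hf' : f⁻¹ ∈ v.toValuationSubring) : v.ord f = 0 := by
  have h1 := place_ord_nonneg_of_mem v hf
  have h2 := place_ord_nonneg_of_mem v hf'
  rw [v.ord_inv] at h2
  omega

end SinglePlace

section Comap

variable {K' F F' : Type*} [Field K'] [Field F] [Field F'] [Algebra K' F']
  (Q : Place K' F') (ι : F →+* F')

theorem map_ne_zero' {f : F} (hf : f ≠ 0) : ι f ≠ 0 := by
  simpa using hf

variable {Q ι} in
theorem mem_comap_iff_ord_nonneg {f : F} :
    f ∈ Q.toValuationSubring.comap ι ↔ 0 ≤ Q.ord (ι f) := by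
  rw [ValuationSubring.mem_comap]
  exact place_mem_iff_ord_nonneg Q

variable {Q ι} in
theorem isUnit_mk_comap_iff {f : F} (hf : f ≠ 0) (hmem : f ∈ Q.toValuationSubring.comap ι) :
    IsUnit (⟨f, hmem⟩ : Q.toValuationSubring.comap ι) ↔ Q.ord (ι f) = 0 := by
  constructor
  · rintro h
    obtain ⟨b, hb⟩ := isUnit_iff_exists_inv.mp h
    have hb' : f * (b : F) = 1 := by
      simpa [Subtype.ext_iff] using hb
    have hbne : (b : F) ≠ 0 := by
      intro h0
      rw [h0, mul_zero] at hb'
      exact zero_ne_one hb'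
    have hsum : Q.ord (ι f) + Q.ord (ι (b : F)) = 0 := by
      rw [← Q.ord_mul (map_ne_zero' ι hf) (map_ne_zero' ι hbne), ← map_mul, hb',
        map_one, Q.ord_one]
    have h1 : 0 ≤ Q.ord (ι f) := mem_comap_iff_ord_nonneg.mp hmem
    have h2 : 0 ≤ Q.ord (ι (b : F)) := mem_comap_iff_ord_nonneg.mp b.2
    omega
  · intro h0
    have hinv : f⁻¹ ∈ Q.toValuationSubring.comap ι :=
      mem_comap_iff_ord_nonneg.mpr (by rw [map_inv₀, Q.ord_inv]; omega)
    exact ⟨⟨⟨f, hmem⟩, ⟨f⁻¹, hinv⟩, Subtype.ext (mul_inv_cancel₀ hf),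
      Subtype.ext (inv_mul_cancel₀ hf)⟩, rfl⟩

/-- the set of positive values of `ord_Q ∘ ι` -/
def posOrdSet : Set ℕ := {n : ℕ | 0 < n ∧ ∃ f : F, f ≠ 0 ∧ Q.ord (ι f) = n}

/-- the minimal positive value of `ord_Q ∘ ι` ("ramification index"; junk `0` if there is none) -/
def minOrd : ℕ := sInf (posOrdSet Q ι)

theorem minOrd_le_ord {f : F} (hf : f ≠ 0) (hpos : 0 < Q.ord (ι f)) :
    (minOrd Q ι : ℤ) ≤ Q.ord (ι f) := by
  have h := Nat.sInf_le (s := posOrdSet Q ι) (m := (Q.ord (ι f)).toNat)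
    ⟨by omega, f, hf, by omega⟩
  rw [minOrd]
  omega

theorem exists_ord_pos_of_ne_top (hne : Q.toValuationSubring.comap ι ≠ ⊤) :
    ∃ f : F, f ≠ 0 ∧ 0 < Q.ord (ι f) := by
  rw [ne_eq, SetLike.ext_iff, not_forall] at hne
  obtain ⟨g, hg⟩ := hne
  simp only [ValuationSubring.mem_top, iff_true] at hg
  have hg0 : g ≠ 0 := by
    rintro rfl
    exact hg (zero_mem _)
  refine ⟨g⁻¹, inv_ne_zero hg0, ?_⟩
  rw [map_inv₀, Q.ord_inv]
  have := mem_comap_iff_ord_nonneg.not.mp hg
  omega

theorem posOrdSet_nonempty (hne : Q.toValuationSubring.comap ι ≠ ⊤) :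
    (posOrdSet Q ι).Nonempty := by
  obtain ⟨f, hf0, hf⟩ := exists_ord_pos_of_ne_top Q ι hne
  exact ⟨(Q.ord (ι f)).toNat, by omega, f, hf0, by omega⟩

theorem minOrd_pos (hne : Q.toValuationSubring.comap ι ≠ ⊤) : 0 < minOrd Q ι :=
  (Nat.sInf_mem (posOrdSet_nonempty Q ι hne)).1

theorem exists_ord_eq_minOrd (hne : Q.toValuationSubring.comap ι ≠ ⊤) :
    ∃ f : F, f ≠ 0 ∧ Q.ord (ι f) = minOrd Q ι :=
  (Nat.sInf_mem (posOrdSet_nonempty Q ι hne)).2

theorem minOrd_dvd_ord (hne : Q.toValuationSubring.comap ι ≠ ⊤) {f : F} (hf : f ≠ 0) :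
    (minOrd Q ι : ℤ) ∣ Q.ord (ι f) := by
  obtain ⟨g, hg0, hge⟩ := exists_ord_eq_minOrd Q ι hne
  set e : ℤ := (minOrd Q ι : ℤ) with he
  have hepos : 0 < e := by
    have := minOrd_pos Q ι hne
    omega
  set m : ℤ := Q.ord (ι f) with hm
  set q : ℤ := m / e with hq
  have hgq : ι (g ^ (-q)) = (ι g) ^ (-q) := map_zpow₀ _ _ _
  have hr : Q.ord (ι (f * g ^ (-q))) = m - e * q := by
    rw [map_mul, Q.ord_mul (map_ne_zero' ι hf)
      (by rw [hgq]; exact zpow_ne_zero _ (map_ne_zero' ι hg0)), hgq, Q.ord_zpow, hge,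
      ← hm]
    ring
  have hmod := Int.emod_nonneg m (by omega : e ≠ 0)
  have hmod' := Int.emod_lt_of_pos m hepos
  have hbridge : m % e = m - e * q := by
    rw [hq]
    exact Int.emod_def m e
  rcases eq_or_lt_of_le (show (0 : ℤ) ≤ m - e * q by omega) with heq | hlt
  · exact ⟨q, by omega⟩
  · exfalso
    have hfg : f * g ^ (-q) ≠ 0 := mul_ne_zero hf (zpow_ne_zero _ hg0)
    have hle := minOrd_le_ord Q ι hfg (by omega)
    rw [hr, ← he] at hle
    omega

theorem irreducible_mk_comap (hne : Q.toValuationSubring.comap ι ≠ ⊤) {g : F} (hg0 : g ≠ 0)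
    (hmem : g ∈ Q.toValuationSubring.comap ι) (hge : Q.ord (ι g) = minOrd Q ι) :
    Irreducible (⟨g, hmem⟩ : Q.toValuationSubring.comap ι) := by
  have hepos : 0 < minOrd Q ι := minOrd_pos Q ι hne
  constructor
  · rw [isUnit_mk_comap_iff hg0 hmem, hge]
    omega
  · rintro ⟨a, ha⟩ ⟨b, hb⟩ hab
    have hab' : g = a * b := by simpa [Subtype.ext_iff] using hab
    have ha0 : a ≠ 0 := by
      rintro rfl
      exact hg0 (by simpa using hab')
    have hb0 : b ≠ 0 := by
      rintro rfl
      exact hg0 (by simpa using hab')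
    have hsum : Q.ord (ι a) + Q.ord (ι b) = minOrd Q ι := by
      rw [← Q.ord_mul (map_ne_zero' ι ha0) (map_ne_zero' ι hb0), ← map_mul, ← hab', hge]
    have ha' : 0 ≤ Q.ord (ι a) := mem_comap_iff_ord_nonneg.mp ha
    have hb' : 0 ≤ Q.ord (ι b) := mem_comap_iff_ord_nonneg.mp hb
    rcases eq_or_lt_of_le ha' with ha0' | hapos
    · exact Or.inl ((isUnit_mk_comap_iff ha0 ha).mpr ha0'.symm)
    rcases eq_or_lt_of_le hb' with hb0' | hbpos
    · exact Or.inr ((isUnit_mk_comap_iff hb0 hb).mpr hb0'.symm)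
    exfalso
    have h1 := minOrd_le_ord Q ι ha0 hapos
    have h2 := minOrd_le_ord Q ι hb0 hbpos
    omega

/-- **Key lemma for PL-5**: the restriction of a place along a field homomorphism is a discrete
valuation ring as soon as it is not the whole field. -/
theorem isPrincipalIdealRing_comap_of_ne_top (hne : Q.toValuationSubring.comap ι ≠ ⊤) :
    IsPrincipalIdealRing (Q.toValuationSubring.comap ι) := by
  obtain ⟨g, hg0, hge⟩ := exists_ord_eq_minOrd Q ι hne
  have hepos : 0 < minOrd Q ι := minOrd_pos Q ι hne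
  have hgmem : g ∈ Q.toValuationSubring.comap ι :=
    mem_comap_iff_ord_nonneg.mpr (by omega)
  refine (IsDiscreteValuationRing.ofHasUnitMulPowIrreducibleFactorization
    ⟨⟨g, hgmem⟩, irreducible_mk_comap Q ι hne hg0 hgmem hge, ?_⟩).toIsPrincipalIdealRing
  rintro ⟨f, hmem⟩ hx
  have hf : f ≠ 0 := by simpa [Subtype.ext_iff] using hx
  obtain ⟨c, hc⟩ := minOrd_dvd_ord Q ι hne hf
  have hnonneg : 0 ≤ Q.ord (ι f) := mem_comap_iff_ord_nonneg.mp hmem
  have hcnonneg : 0 ≤ c := by
    by_contra hneg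
    have hcle : c ≤ -1 := by omega
    have : (minOrd Q ι : ℤ) * c ≤ (minOrd Q ι : ℤ) * -1 :=
      mul_le_mul_of_nonneg_left hcle (by omega)
    omega
  set n : ℕ := c.toNat with hn
  have hcn : (n : ℤ) = c := Int.toNat_of_nonneg hcnonneg
  refine ⟨n, ?_⟩
  have hgn : g ^ n ≠ 0 := pow_ne_zero _ hg0
  have hdiv0 : f / g ^ n ≠ 0 := div_ne_zero hf hgn
  have hu0 : Q.ord (ι (f / g ^ n)) = 0 := by
    have hkey : ι (f / g ^ n) = ι f * (ι g) ^ (-(n : ℤ)) := by
      rw [div_eq_mul_inv, map_mul, map_inv₀, map_pow, ← zpow_natCast (ι g) n, ← zpow_neg]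
    rw [hkey, Q.ord_mul (map_ne_zero' ι hf) (zpow_ne_zero _ (map_ne_zero' ι hg0)),
      Q.ord_zpow, hge, hc, ← hcn]
    ring
  have humem : f / g ^ n ∈ Q.toValuationSubring.comap ι :=
    mem_comap_iff_ord_nonneg.mpr (le_of_eq hu0.symm)
  have hu : IsUnit (⟨f / g ^ n, humem⟩ : Q.toValuationSubring.comap ι) :=
    (isUnit_mk_comap_iff hdiv0 humem).mpr hu0
  refine ⟨hu.unit, ?_⟩
  refine Subtype.ext ?_
  have hcoe : ((hu.unit : Q.toValuationSubring.comap ι) : F) = f / g ^ n := by
    rw [IsUnit.unit_spec]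
  push_cast
  rw [hcoe, mul_comm, div_mul_cancel₀]
  exact hgn

end Comap

section Main

variable {K F K' F' : Type*} [Field K] [Field F] [Algebra K F] [Field K'] [Field F']
  [Algebra K' F'] (C : ConstExt K F K' F')

/-- the restriction to `F` of a place of `F'/K'` which is not new -/
def restrictPlace (Q : Place K' F') (h : ¬ C.IsNew Q) : Place K F where
  toValuationSubring := Q.toValuationSubring.comap C.ι
  algebraMap_mem' a := by
    rw [ValuationSubring.mem_comap, C.comm]
    exact Q.algebraMap_mem' (C.κ a)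
  ne_top' := fun htop => h fun f =>
    ValuationSubring.mem_comap.mp (htop ▸ ValuationSubring.mem_top f)
  isPrincipalIdealRing' := isPrincipalIdealRing_comap_of_ne_top Q C.ι fun htop => h fun f =>
    ValuationSubring.mem_comap.mp (htop ▸ ValuationSubring.mem_top f)

theorem isExt_restrictPlace (Q : Place K' F') (h : ¬ C.IsNew Q) :
    C.IsExt (restrictPlace C Q h) Q := fun _ => Iff.rfl

/-- **PL-4**. -/
theorem isExt_inj {P P' : Place K F} {Q : Place K' F'}
    (h : C.IsExt P Q) (h' : C.IsExt P' Q) : P = P' := by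
  apply Place.ext
  ext f
  exact (h f).symm.trans (h' f)

/-- **PL-5** (classification): a place of `F'/K'` is new or lies over a place of `F/K`. -/
theorem isNew_or_exists_isExt (Q : Place K' F') :
    C.IsNew Q ∨ ∃ P : Place K F, C.IsExt P Q := by
  by_cases h : C.IsNew Q
  · exact Or.inl h
  · exact Or.inr ⟨restrictPlace C Q h, isExt_restrictPlace C Q h⟩

/-- **PL-6**. -/
theorem ord_eq_zero_of_isNew {Q : Place K' F'} (h : C.IsNew Q) {f : F} (hf : f ≠ 0) :
    Q.ord (C.ι f) = 0 := by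
  refine place_ord_eq_zero_of_mem_of_inv_mem Q (h f) ?_
  rw [← map_inv₀]
  exact h f⁻¹

/-- **PL-7**. -/
theorem not_isNew_of_isExt {P : Place K F} {Q : Place K' F'} (h : C.IsExt P Q) :
    ¬ C.IsNew Q := by
  intro hnew
  apply P.ne_top'
  refine SetLike.ext fun f => ⟨fun _ => ValuationSubring.mem_top f, fun _ => ?_⟩
  exact (h f).1 (hnew f)

/-- the order function at a place over `P` is a positive multiple of the order at `P`
(no ramification, i.e. `e = 1`, is PL-3 and needs `linDisj`) -/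
theorem ord_eq_minOrd_mul_of_isExt {P : Place K F} {Q : Place K' F'} (h : C.IsExt P Q) (f : F) :
    Q.ord (C.ι f) = minOrd Q C.ι * P.ord f := by
  have hnew : ¬ C.IsNew Q := not_isNew_of_isExt C h
  have hne : Q.toValuationSubring.comap C.ι ≠ ⊤ := fun htop => hnew fun f =>
    ValuationSubring.mem_comap.mp (htop ▸ ValuationSubring.mem_top f)
  have hP : P = restrictPlace C Q hnew := isExt_inj C h (isExt_restrictPlace C Q hnew)
  subst hP
  rcases eq_or_ne f 0 with rfl | hf
  · simp
  obtain ⟨g, hg0, hge⟩ := exists_ord_eq_minOrd Q C.ι hne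
  have hepos : 0 < minOrd Q C.ι := minOrd_pos Q C.ι hne
  have hgmem : g ∈ Q.toValuationSubring.comap C.ι :=
    mem_comap_iff_ord_nonneg.mpr (by omega)
  have hirr : Irreducible (⟨g, hgmem⟩ : (restrictPlace C Q hnew).toValuationSubring) :=
    irreducible_mk_comap Q C.ι hne hg0 hgmem hge
  obtain ⟨u, hu⟩ := (restrictPlace C Q hnew).exists_unit_mul_zpow hf hirr
  have hu0 : Q.ord (C.ι ((u : (restrictPlace C Q hnew).toValuationSubring) : F)) = 0 := by
    have hune : ((u : (restrictPlace C Q hnew).toValuationSubring) : F) ≠ 0 := by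
      simp [ne_eq, ZeroMemClass.coe_eq_zero]
    exact (isUnit_mk_comap_iff (Q := Q) (ι := C.ι) hune
      (u : (restrictPlace C Q hnew).toValuationSubring).2).mp u.isUnit
  have hune : ((u : (restrictPlace C Q hnew).toValuationSubring) : F) ≠ 0 := by
    simp [ne_eq, ZeroMemClass.coe_eq_zero]
  conv_lhs => rw [hu]
  rw [map_mul, map_zpow₀, Q.ord_mul (map_ne_zero' C.ι hune)
    (zpow_ne_zero _ (map_ne_zero' C.ι hg0)), hu0, zero_add, Q.ord_zpow, hge]
  ring

end Main

end Fermat.Agent.LEF.helper69
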