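import Mathlib
import Fermat.Agent.LEF.helper99_Defs
import Fermat.Agent.P2.helper74_Riemann
import Fermat.Agent.LEF.helper27_Act

/-!
# LEF-ACT-B (helper95, task 464): the semilinear action of `Aut(K'/K)` on places and conorms

Statements ACT-5 .. ACT-8 of `LEF INTERFACE v1` (helper99).  The inputs of the other LEF packages
enter as explicit hypotheses:

* `hact`  = ACT-3 (`act_spec`) for the given `σ`;
* `huniq` = PL-2 (`isExt_unique`).

(CON-1/2/3 are not needed: ACT-7 is proved directly from the definition of `con`.)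
-/

set_option autoImplicit false

open AlgebraicCurve

namespace Fermat.Agent.LEF.helper95

open Fermat.Agent.LEF Fermat.Agent.P2.helper74
open scoped Pointwise

variable {K F K' F' : Type*} [Field K] [Field F] [Algebra K F] [Field K'] [Field F']
  [Algebra K' F'] (C : ConstExt K F K' F')

/-- A lift of `σ` fixes `ι F`, hence so does its inverse. -/
theorem inv_smul_ι {σ : RingAut K'}
    (hact : C.IsLift σ (SemilinearAut.toRingAut (C.act σ)) ∧
      SemilinearAut.baseAut (C.act σ) = σ) (f : F) :
    (C.act σ)⁻¹ • C.ι f = C.ι f := by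
  rw [SemilinearAut.inv_smul_def]
  apply (SemilinearAut.toRingAut (C.act σ)).injective
  rw [RingEquiv.apply_symm_apply, hact.1.2 f]

theorem smul_ι {σ : RingAut K'}
    (hact : C.IsLift σ (SemilinearAut.toRingAut (C.act σ)) ∧
      SemilinearAut.baseAut (C.act σ) = σ) (f : F) :
    C.act σ • C.ι f = C.ι f :=
  hact.1.2 f

/-- Membership in the valuation ring of a translated place. -/
theorem mem_smul_place_iff (g : SemilinearAut K' F') (Q : Place K' F') (x : F') :
    x ∈ (g • Q).toValuationSubring ↔ g⁻¹ • x ∈ Q.toValuationSubring := by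
  rw [SemilinearAut.smul_toValuationSubring]
  exact ValuationSubring.mem_pointwise_smul_iff_inv_smul_mem

/-- The translate of a place over `P` lies over `P`. -/
theorem isExt_act_smul {σ : RingAut K'}
    (hact : C.IsLift σ (SemilinearAut.toRingAut (C.act σ)) ∧
      SemilinearAut.baseAut (C.act σ) = σ)
    {P : Place K F} {Q : Place K' F'} (h : C.IsExt P Q) : C.IsExt P (C.act σ • Q) := by
  intro f
  rw [mem_smul_place_iff, inv_smul_ι C hact f]
  exact h f

/-- **ACT-5**: the places coming from `F` are fixed.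
Hypotheses: `hact` = ACT-3 for `σ`, `huniq` = PL-2. -/
theorem act_smul_of_isExt_of (hS : RiemannSetting K F) (σ : RingAut K') (hσ : σ ∈ C.gal)
    (hact : C.IsLift σ (SemilinearAut.toRingAut (C.act σ)) ∧
      SemilinearAut.baseAut (C.act σ) = σ)
    (huniq : ∀ {P : Place K F} {Q Q' : Place K' F'}, C.IsExt P Q → C.IsExt P Q' → Q = Q')
    {P : Place K F} {Q : Place K' F'} (h : C.IsExt P Q) : C.act σ • Q = Q :=
  huniq (isExt_act_smul C hact h) h

/-- **ACT-6**: new places stay new.  Hypothesis: `hact` = ACT-3 for `σ`. -/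
theorem isNew_act_smul_of (σ : RingAut K') (hσ : σ ∈ C.gal)
    (hact : C.IsLift σ (SemilinearAut.toRingAut (C.act σ)) ∧
      SemilinearAut.baseAut (C.act σ) = σ)
    {Q : Place K' F'} (h : C.IsNew Q) : C.IsNew (C.act σ • Q) := by
  intro f
  rw [mem_smul_place_iff, inv_smul_ι C hact f]
  exact h f

/-- The divisor `extDiv P` is fixed. -/
theorem act_smul_extDiv_of (hS : RiemannSetting K F) (σ : RingAut K') (hσ : σ ∈ C.gal)
    (hact : C.IsLift σ (SemilinearAut.toRingAut (C.act σ)) ∧
      SemilinearAut.baseAut (C.act σ) = σ)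
    (huniq : ∀ {P : Place K F} {Q Q' : Place K' F'}, C.IsExt P Q → C.IsExt P Q' → Q = Q')
    (P : Place K F) : C.act σ • C.extDiv P = C.extDiv P := by
  classical
  unfold ConstExt.extDiv
  split_ifs with h
  · rw [SemilinearAut.smul_single, act_smul_of_isExt_of C hS σ hσ hact huniq h.choose_spec]
  · exact smul_zero _

/-- **ACT-7**: conorms are invariant.
Hypotheses: `hact` = ACT-3 for `σ`, `huniq` = PL-2. -/
theorem act_smul_con_of (hS : RiemannSetting K F) (σ : RingAut K') (hσ : σ ∈ C.gal)
    (hact : C.IsLift σ (SemilinearAut.toRingAut (C.act σ)) ∧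
      SemilinearAut.baseAut (C.act σ) = σ)
    (huniq : ∀ {P : Place K F} {Q Q' : Place K' F'}, C.IsExt P Q → C.IsExt P Q' → Q = Q')
    (D : Divisor K F) : C.act σ • C.con D = C.con D := by
  induction D using Finsupp.induction with
  | zero => rw [map_zero, smul_zero]
  | single_add P n D _ _ ih =>
    rw [map_add, smul_add, ih]
    congr 1
    have h1 : C.con (Finsupp.single P n) = n • C.extDiv P := by
      unfold ConstExt.con
      rw [Finsupp.liftAddHom_apply_single]
      rfl
    rw [h1, smul_comm, act_smul_extDiv_of C hS σ hσ hact huniq P]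

/-- **ACT-8**: equivariance of residues at any place: if `x ≡ c mod 𝔪_Q` then
`σ x ≡ σ c mod 𝔪_{σ Q}`.  Hypothesis: `hact` = ACT-3 for `σ`. -/
theorem ord_act_sub_pos_of (σ : RingAut K') (hσ : σ ∈ C.gal)
    (hact : C.IsLift σ (SemilinearAut.toRingAut (C.act σ)) ∧
      SemilinearAut.baseAut (C.act σ) = σ)
    (Q : Place K' F') (x : F') (c : K')
    (h : 0 < Q.ord (x - algebraMap K' F' c)) :
    0 < (C.act σ • Q).ord (C.act σ • x - algebraMap K' F' (σ c)) := by
  have h1 : C.act σ • (x - algebraMap K' F' c) = C.act σ • x - algebraMap K' F' (σ c) := by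
    rw [smul_sub, SemilinearAut.smul_algebraMap, hact.2]
  rw [← h1, SemilinearAut.ord_smul]
  exact h

/-! ## Versions with ACT-3 discharged (helper27 `act_spec`, on main) -/

/-- **ACT-5** (only PL-2 as hypothesis). -/
theorem act_smul_of_isExt (hS : RiemannSetting K F) (σ : RingAut K') (hσ : σ ∈ C.gal)
    (huniq : ∀ {P : Place K F} {Q Q' : Place K' F'}, C.IsExt P Q → C.IsExt P Q' → Q = Q')
    {P : Place K F} {Q : Place K' F'} (h : C.IsExt P Q) : C.act σ • Q = Q :=
  act_smul_of_isExt_of C hS σ hσ (Fermat.Agent.LEF.helper27.act_spec C σ hσ) huniq h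

/-- **ACT-6**, VERBATIM and unconditional: new places stay new. -/
theorem isNew_act_smul (σ : RingAut K') (hσ : σ ∈ C.gal) {Q : Place K' F'} (h : C.IsNew Q) :
    C.IsNew (C.act σ • Q) :=
  isNew_act_smul_of C σ hσ (Fermat.Agent.LEF.helper27.act_spec C σ hσ) h

/-- **ACT-7** (only PL-2 as hypothesis). -/
theorem act_smul_con (hS : RiemannSetting K F) (σ : RingAut K') (hσ : σ ∈ C.gal)
    (huniq : ∀ {P : Place K F} {Q Q' : Place K' F'}, C.IsExt P Q → C.IsExt P Q' → Q = Q')
    (D : Divisor K F) : C.act σ • C.con D = C.con D :=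
  act_smul_con_of C hS σ hσ (Fermat.Agent.LEF.helper27.act_spec C σ hσ) huniq D

/-- **ACT-8**, VERBATIM and unconditional. -/
theorem ord_act_sub_pos (σ : RingAut K') (hσ : σ ∈ C.gal) (Q : Place K' F') (x : F') (c : K')
    (h : 0 < Q.ord (x - algebraMap K' F' c)) :
    0 < (C.act σ • Q).ord (C.act σ • x - algebraMap K' F' (σ c)) :=
  ord_act_sub_pos_of C σ hσ (Fermat.Agent.LEF.helper27.act_spec C σ hσ) Q x c h

end Fermat.Agent.LEF.helper95
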