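import Mathlib
import Fermat.Agent.LEF.helper99_Defs
import Fermat.Prelude.Def_ModularCurve_LaurentCoeff

/-!
# LEF-INST (helper44): the Laurent instance of a constant field extension

For a field embedding `j : L →+* L'` of `ℚ`-algebras, the map
`coeffMap j : laurentBaseChange L F₀ → laurentBaseChange L' F₀` is a constant field extension
in the sense of `Fermat.Agent.LEF.ConstExt`.

* `linearIndependent_coeffMap` (INST-1): Laurent series over `L` which are linearly independent
  over `L` stay linearly independent over `L'`;
* `coeffMap_mem_laurentBaseChange'` (INST-2);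
* `exists_laurentConstExt` (INST-3), with the explicit `laurentConstExt`.
-/

set_option autoImplicit false

noncomputable section

open AlgebraicCurve ModularCurve

namespace Fermat.Agent.LEF.helper44

section General

variable {L L' : Type*} [Field L] [Field L'] (j : L →+* L')

theorem coeffMap_algebraMap' (c : L) :
    coeffMap j (algebraMap L (LaurentSeries L) c) = algebraMap L' (LaurentSeries L') (j c) := by
  rw [algebraMap_laurentSeries_eq_single, algebraMap_laurentSeries_eq_single, coeffMap_single]

theorem coeffMap_injective : Function.Injective (coeffMap j) :=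
  (coeffMap j).injective

/-- The two scalar multiplications on Laurent series (through the `Algebra` instance and
coefficientwise) agree. -/
theorem algebraMap_mul_eq_smul (c : L) (x : LaurentSeries L) :
    algebraMap L (LaurentSeries L) c * x = c • x := by
  rw [algebraMap_laurentSeries_eq_single]
  exact HahnSeries.single_zero_mul_eq_smul

theorem coe_smul_eq (E : IntermediateField L (LaurentSeries L)) (c : L) (x : E) :
    ((c • x : E) : LaurentSeries L) = c • (x : LaurentSeries L) := by
  rw [Algebra.smul_def, ← algebraMap_mul_eq_smul]
  rfl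

/-- **INST-1**: Laurent series over `L` which are linearly independent over `L` stay linearly
independent over `L'`. -/
theorem linearIndependent_coeffMap (n : ℕ) (f : Fin n → LaurentSeries L)
    (hf : LinearIndependent L f) : LinearIndependent L' (fun i => coeffMap j (f i)) := by
  let _ : Algebra L L' := j.toAlgebra
  let b := Module.Free.chooseBasis L L'
  rw [Fintype.linearIndependent_iff]
  intro c hc i
  have key : ∀ k, ∑ i, (b.repr (c i) k) • f i = 0 := by
    intro k
    ext m
    have h1 : ∑ i, c i * j ((f i).coeff m) = 0 := by
      have := congrArg (fun x : LaurentSeries L' => x.coeff m) hc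
      simpa [HahnSeries.coeff_sum] using this
    have h2 := congrArg (fun x : L' => b.repr x k) h1
    simp only [map_sum, map_zero, Finsupp.coe_finsetSum, Finset.sum_apply,
      Finsupp.coe_zero, Pi.zero_apply] at h2
    have h3 : ∀ i, b.repr (c i * j ((f i).coeff m)) k = b.repr (c i) k * (f i).coeff m := by
      intro i
      have : c i * j ((f i).coeff m) = (f i).coeff m • c i := by
        rw [Algebra.smul_def, mul_comm]; rfl
      rw [this, map_smul, Finsupp.smul_apply, smul_eq_mul, mul_comm]
    simp only [h3] at h2
    simpa [HahnSeries.coeff_sum] using h2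
  have hz : ∀ k, b.repr (c i) k = 0 := fun k =>
    (Fintype.linearIndependent_iff.1 hf _ (key k)) i
  have : b.repr (c i) = 0 := Finsupp.ext hz
  exact (LinearEquiv.map_eq_zero_iff b.repr).1 this

end General

section Laurent

variable {L L' : Type*} [Field L] [Algebra ℚ L] [Field L'] [Algebra ℚ L'] (j : L →+* L')

theorem coeffMap_coeffEmb' (x : LaurentSeries ℚ) :
    coeffMap j (coeffEmb L x) = coeffEmb L' x := by
  rw [coeffEmb, coeffMap_coeffMap]
  exact coeffMap_congr (Subsingleton.elim _ _) x

/-- **INST-2**: `coeffMap j` maps `laurentBaseChange L F₀` into `laurentBaseChange L' F₀`. -/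
theorem coeffMap_mem_laurentBaseChange' (F₀ : IntermediateField ℚ (LaurentSeries ℚ))
    {x : LaurentSeries L} (hx : x ∈ laurentBaseChange L F₀) :
    coeffMap j x ∈ laurentBaseChange L' F₀ := by
  rw [mem_laurentBaseChange_iff] at hx
  induction hx using Subfield.closure_induction with
  | mem y hy =>
      rcases hy with ⟨a, rfl⟩ | ⟨z, hz, rfl⟩
      · rw [coeffMap_algebraMap']
        exact (laurentBaseChange L' F₀).algebraMap_mem _
      · rw [coeffMap_coeffEmb']
        exact coeffEmb_mem_laurentBaseChange L' hz
  | one => simp
  | add x y _ _ hx hy => simpa using add_mem hx hy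
  | neg x _ hx => simpa using neg_mem hx
  | inv x _ hx => simpa using inv_mem hx
  | mul x y _ _ hx hy => simpa using mul_mem hx hy

/-- The ring homomorphism `laurentBaseChange L F₀ → laurentBaseChange L' F₀` induced by
`coeffMap j`. -/
def laurentι (F₀ : IntermediateField ℚ (LaurentSeries ℚ)) :
    laurentBaseChange L F₀ →+* laurentBaseChange L' F₀ where
  toFun x := ⟨coeffMap j (x : LaurentSeries L), coeffMap_mem_laurentBaseChange' j F₀ x.2⟩
  map_zero' := Subtype.ext (by simp)
  map_one' := Subtype.ext (by simp)
  map_add' x y := Subtype.ext (by simp)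
  map_mul' x y := Subtype.ext (by simp)

@[simp] theorem coe_laurentι (F₀ : IntermediateField ℚ (LaurentSeries ℚ))
    (x : laurentBaseChange L F₀) :
    ((laurentι j F₀ x : laurentBaseChange L' F₀) : LaurentSeries L') =
      coeffMap j (x : LaurentSeries L) := rfl

theorem laurent_gen (F₀ : IntermediateField ℚ (LaurentSeries ℚ)) :
    Subfield.closure (Set.range (algebraMap L' (laurentBaseChange L' F₀)) ∪
      Set.range (laurentι j F₀)) = ⊤ := by
  rw [eq_top_iff]
  rintro ⟨x, hx⟩ -
  have hT : Subfield.closure (Set.range (algebraMap L' (LaurentSeries L')) ∪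
        (⇑(coeffEmb L') '' (F₀ : Set (LaurentSeries ℚ)))) ≤
      (Subfield.closure (Set.range (algebraMap L' (laurentBaseChange L' F₀)) ∪
        Set.range (laurentι j F₀))).map
          (algebraMap (laurentBaseChange L' F₀) (LaurentSeries L')) := by
    rw [Subfield.closure_le]
    rintro y (⟨a, rfl⟩ | ⟨z, hz, rfl⟩)
    · exact ⟨algebraMap L' (laurentBaseChange L' F₀) a,
        Subfield.subset_closure (Or.inl ⟨a, rfl⟩), rfl⟩
    · refine ⟨⟨coeffEmb L' z, coeffEmb_mem_laurentBaseChange L' hz⟩,
        Subfield.subset_closure (Or.inr ⟨⟨coeffEmb L z,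
          coeffEmb_mem_laurentBaseChange L hz⟩, ?_⟩), rfl⟩
      exact Subtype.ext (coeffMap_coeffEmb' j z)
  obtain ⟨y, hy, hyx⟩ := hT (mem_laurentBaseChange_iff.1 hx)
  have hxy : y = ⟨x, hx⟩ := Subtype.ext hyx
  rw [← hxy]
  exact hy

/-- The constant field extension `laurentBaseChange L F₀ → laurentBaseChange L' F₀` along a
field embedding `j : L → L'`. -/
def laurentConstExt (F₀ : IntermediateField ℚ (LaurentSeries ℚ)) :
    ConstExt L (laurentBaseChange L F₀) L' (laurentBaseChange L' F₀) where
  κ := j
  ι := laurentι j F₀
  comm a := Subtype.ext (coeffMap_algebraMap' j a)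
  gen := laurent_gen j F₀
  linDisj n f hf := by
    rw [Fintype.linearIndependent_iff] at hf ⊢
    have h0 : LinearIndependent L
        (fun i => ((f i : laurentBaseChange L F₀) : LaurentSeries L)) := by
      rw [Fintype.linearIndependent_iff]
      intro c hc i
      refine hf c ?_ i
      apply Subtype.val_injective
      rw [ZeroMemClass.coe_zero, ← hc, AddSubmonoidClass.coe_finsetSum]
      exact Finset.sum_congr rfl fun i _ => coe_smul_eq _ (c i) (f i)
    have h2 := linearIndependent_coeffMap j n _ h0
    rw [Fintype.linearIndependent_iff] at h2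
    intro c hc i
    refine h2 c ?_ i
    have h3 := congrArg (fun x : laurentBaseChange L' F₀ => (x : LaurentSeries L')) hc
    simp only [AddSubmonoidClass.coe_finsetSum, ZeroMemClass.coe_zero] at h3
    rw [← h3]
    exact Finset.sum_congr rfl fun i _ => (coe_smul_eq _ (c i) (laurentι j F₀ (f i))).symm

/-- **INST-3**: the constant field extension `laurentBaseChange L F₀ → laurentBaseChange L' F₀`
along a field embedding `j : L → L'`. -/
theorem exists_laurentConstExt (F₀ : IntermediateField ℚ (LaurentSeries ℚ)) :
    ∃ C : ConstExt L (laurentBaseChange L F₀) L' (laurentBaseChange L' F₀),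
      C.κ = j ∧ ∀ x : laurentBaseChange L F₀,
        ((C.ι x : laurentBaseChange L' F₀) : LaurentSeries L') =
          coeffMap j (x : LaurentSeries L) :=
  ⟨laurentConstExt j F₀, rfl, fun _ => rfl⟩

end Laurent

end Fermat.Agent.LEF.helper44

end
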