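import Mathlib
import Fermat.Agent.LEF.helper99_Defs
import Fermat.Agent.LEF.helper37_Square
import Fermat.Agent.LEF.helper44_Laurent
import Fermat.Agent.P2.helper74_Riemann
import Fermat.Prelude.Def_AlgebraicCurve_Correspondence
import Fermat.Prelude.Def_ModularCurve_HeckeOperatorTotal
import Fermat.Prelude.Thm_ModularCurve_coeffMap_qExpand

/-!
# LEF-HECKE (helper95, task 472): the conorm commutes with the Hecke operators of the Prelude

`conPic0_heckeOperatorAlong_of` : the statement HECKE of `LEF INTERFACE v1`, with the constant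
field extension `C₂` of level `N * ℓ` (INST-3) and the PL inputs of `C`, `C₂` (helper37
`PLInputs` = PL-1, PL-2, PL-3, PL-5) as explicit hypotheses.

`conPic0_heckeOperatorAlong` : the VERBATIM statement with the PL inputs (quantified form) as
the only extra hypotheses; INST-3 is discharged by helper44 `exists_laurentConstExt`.
-/

set_option autoImplicit false
set_option linter.unusedVariables false

open AlgebraicCurve

namespace Fermat.Agent.LEF.helper95

open Fermat.Agent.LEF Fermat.Agent.P2.helper74 ModularCurve

variable {L L' : Type*} [Field L] [Algebra ℚ L] [Field L'] [Algebra ℚ L'] (j : L →+* L')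

/-- The `α`-square commutes: `coeffMap j` commutes with the inclusion of levels. -/
theorem heckeAlphaBar_square (N ℓ : ℕ) [NeZero N] [NeZero ℓ]
    (C : ConstExt L (laurentBaseChange L (modularFunctionFieldFull N)) L'
      (laurentBaseChange L' (modularFunctionFieldFull N)))
    (hι : ∀ x : laurentBaseChange L (modularFunctionFieldFull N),
      ((C.ι x : laurentBaseChange L' (modularFunctionFieldFull N)) : LaurentSeries L') =
        coeffMap j (x : LaurentSeries L))
    (C₂ : ConstExt L (laurentBaseChange L (modularFunctionFieldFull (N * ℓ))) L'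
      (laurentBaseChange L' (modularFunctionFieldFull (N * ℓ))))
    (hι₂ : ∀ x : laurentBaseChange L (modularFunctionFieldFull (N * ℓ)),
      ((C₂.ι x : laurentBaseChange L' (modularFunctionFieldFull (N * ℓ))) : LaurentSeries L') =
        coeffMap j (x : LaurentSeries L))
    (f : laurentBaseChange L (modularFunctionFieldFull N)) :
    heckeAlphaBar L' N ℓ (C.ι f) = C₂.ι (heckeAlphaBar L N ℓ f) := by
  apply Subtype.ext
  rw [coe_heckeAlphaBar, hι, hι₂, coe_heckeAlphaBar]

/-- The `β`-square commutes: `coeffMap j` commutes with `q ↦ q^ℓ`. -/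
theorem heckeBetaBar_square (N ℓ : ℕ) [NeZero N] [NeZero ℓ]
    (C : ConstExt L (laurentBaseChange L (modularFunctionFieldFull N)) L'
      (laurentBaseChange L' (modularFunctionFieldFull N)))
    (hι : ∀ x : laurentBaseChange L (modularFunctionFieldFull N),
      ((C.ι x : laurentBaseChange L' (modularFunctionFieldFull N)) : LaurentSeries L') =
        coeffMap j (x : LaurentSeries L))
    (C₂ : ConstExt L (laurentBaseChange L (modularFunctionFieldFull (N * ℓ))) L'
      (laurentBaseChange L' (modularFunctionFieldFull (N * ℓ))))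
    (hι₂ : ∀ x : laurentBaseChange L (modularFunctionFieldFull (N * ℓ)),
      ((C₂.ι x : laurentBaseChange L' (modularFunctionFieldFull (N * ℓ))) : LaurentSeries L') =
        coeffMap j (x : LaurentSeries L))
    (f : laurentBaseChange L (modularFunctionFieldFull N)) :
    heckeBetaBar L' N ℓ (C.ι f) = C₂.ι (heckeBetaBar L N ℓ f) := by
  apply Subtype.ext
  rw [coe_heckeBetaBar, hι, hι₂, coe_heckeBetaBar, ModularCurve.coeffMap_qExpand]

/-- **HECKE**, with the level-`N ℓ` constant field extension `C₂` and the PL inputs as explicit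
hypotheses: the conorm commutes with the Hecke operators of the Prelude. -/
theorem conPic0_heckeOperatorAlong_of (N ℓ : ℕ) [NeZero N] [NeZero ℓ]
    (C : ConstExt L (laurentBaseChange L (modularFunctionFieldFull N)) L'
      (laurentBaseChange L' (modularFunctionFieldFull N)))
    (hι : ∀ x : laurentBaseChange L (modularFunctionFieldFull N),
      ((C.ι x : laurentBaseChange L' (modularFunctionFieldFull N)) : LaurentSeries L') =
        coeffMap j (x : LaurentSeries L))
    (C₂ : ConstExt L (laurentBaseChange L (modularFunctionFieldFull (N * ℓ))) L'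
      (laurentBaseChange L' (modularFunctionFieldFull (N * ℓ))))
    (hι₂ : ∀ x : laurentBaseChange L (modularFunctionFieldFull (N * ℓ)),
      ((C₂.ι x : laurentBaseChange L' (modularFunctionFieldFull (N * ℓ))) : LaurentSeries L') =
        coeffMap j (x : LaurentSeries L))
    (I₁ : helper37.PLInputs C) (I₂ : helper37.PLInputs C₂)
    (hH : HeckeInputsAlong L N ℓ) (hH' : HeckeInputsAlong L' N ℓ)
    (hS₁ : RiemannSetting L (laurentBaseChange L (modularFunctionFieldFull N)))
    (hS₂ : RiemannSetting L (laurentBaseChange L (modularFunctionFieldFull (N * ℓ))))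
    (hS₁' : RiemannSetting L' (laurentBaseChange L' (modularFunctionFieldFull N)))
    (hS₂' : RiemannSetting L' (laurentBaseChange L' (modularFunctionFieldFull (N * ℓ))))
    (c : Pic0 L (laurentBaseChange L (modularFunctionFieldFull N))) :
    C.conPic0 (heckeOperatorAlong L N ℓ c) = heckeOperatorAlong L' N ℓ (C.conPic0 c) := by
  obtain ⟨hα, hβ, hP, hfin, hFI, hN⟩ := hH
  obtain ⟨hα', hβ', hP', hfin', hFI', hN'⟩ := hH'
  have := hP
  have := hP'
  rw [heckeOperatorAlong_eq hα hβ hFI hfin hN, heckeOperatorAlong_eq hα' hβ' hFI' hfin' hN']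
  exact helper37.conPic0_correspondence_of C C₂ (heckeBetaBar L N ℓ) (heckeBetaBar L' N ℓ)
    hβ hβ' I₁ I₂ (heckeAlphaBar L N ℓ) (heckeAlphaBar L' N ℓ) hα hα'
    (heckeBetaBar_square j N ℓ C hι C₂ hι₂) (heckeAlphaBar_square j N ℓ C hι C₂ hι₂)
    hS₁ hS₂ hS₁' hS₂' hFI hfin hN hFI' hfin' hN' c

/-- **HECKE**, VERBATIM statement of the LEF interface plus the inputs `hPL₁`, `hPL₂`
(= PL-1, PL-2, PL-3, PL-5 for the two constant field extensions) as hypotheses. -/
theorem conPic0_heckeOperatorAlong (N ℓ : ℕ) [NeZero N] [NeZero ℓ]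
    (C : ConstExt L (laurentBaseChange L (modularFunctionFieldFull N)) L'
      (laurentBaseChange L' (modularFunctionFieldFull N)))
    (hκ : C.κ = j)
    (hι : ∀ x : laurentBaseChange L (modularFunctionFieldFull N),
      ((C.ι x : laurentBaseChange L' (modularFunctionFieldFull N)) : LaurentSeries L') =
        coeffMap j (x : LaurentSeries L))
    (hPL₁ : RiemannSetting L (laurentBaseChange L (modularFunctionFieldFull N)) →
      helper37.PLInputs C)
    (hPL₂ : ∀ C₂ : ConstExt L (laurentBaseChange L (modularFunctionFieldFull (N * ℓ))) L'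
        (laurentBaseChange L' (modularFunctionFieldFull (N * ℓ))),
      RiemannSetting L (laurentBaseChange L (modularFunctionFieldFull (N * ℓ))) →
        helper37.PLInputs C₂)
    (hH : HeckeInputsAlong L N ℓ) (hH' : HeckeInputsAlong L' N ℓ)
    (hS₁ : RiemannSetting L (laurentBaseChange L (modularFunctionFieldFull N)))
    (hS₂ : RiemannSetting L (laurentBaseChange L (modularFunctionFieldFull (N * ℓ))))
    (hS₁' : RiemannSetting L' (laurentBaseChange L' (modularFunctionFieldFull N)))
    (hS₂' : RiemannSetting L' (laurentBaseChange L' (modularFunctionFieldFull (N * ℓ))))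
    (c : Pic0 L (laurentBaseChange L (modularFunctionFieldFull N))) :
    C.conPic0 (heckeOperatorAlong L N ℓ c) = heckeOperatorAlong L' N ℓ (C.conPic0 c) := by
  obtain ⟨C₂, -, hι₂⟩ := helper44.exists_laurentConstExt j (modularFunctionFieldFull (N * ℓ))
  exact conPic0_heckeOperatorAlong_of j N ℓ C hι C₂ hι₂ (hPL₁ hS₁) (hPL₂ C₂ hS₂) hH hH'
    hS₁ hS₂ hS₁' hS₂' c

end Fermat.Agent.LEF.helper95
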