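import Mathlib
import Fermat.Agent.LEF.helper99_Defs
import Fermat.Agent.P2.helper74_Riemann

/-!
# LEF / PL-A (helper99, task 460): the place of `F'/K'` over a place of `F/K`
-/

set_option autoImplicit false
set_option linter.unusedSectionVars false
set_option linter.unusedVariables false
set_option linter.style.haveILetI false

open AlgebraicCurve

namespace Fermat.Agent.LEF.helper99

open Fermat.Agent.LEF Fermat.Agent.P2.helper74 Fermat.Agent.S24

variable {K F K' F' : Type*} [Field K] [Field F] [Algebra K F] [Field K'] [Field F']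
  [Algebra K' F'] (C : ConstExt K F K' F')

/-! ## Linear disjointness -/

theorem ι_injective : Function.Injective C.ι := C.ι.injective

/-- `ι (a • f) = κ a • ι f`. -/
theorem ι_smul (a : K) (f : F) : C.ι (a • f) = C.κ a • C.ι f := by
  rw [Algebra.smul_def, map_mul, C.comm, Algebra.smul_def]

/-- Linear disjointness for arbitrary families. -/
theorem linDisj_family {I : Type*} (b : I → F) (hb : LinearIndependent K b) :
    LinearIndependent K' (fun i => C.ι (b i)) := by
  classical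
  rw [linearIndependent_iff_finset_linearIndependent]
  intro s
  have h1 : LinearIndependent K (b ∘ (Subtype.val : s → I)) :=
    hb.comp _ Subtype.val_injective
  have e := s.equivFin
  have h2 : LinearIndependent K (fun i : Fin s.card => b (e.symm i).1) := by
    have := (linearIndependent_equiv e.symm (f := b ∘ (Subtype.val : s → I))).mpr h1
    exact this
  have h3 := C.linDisj s.card _ h2
  have h4 := (linearIndependent_equiv e (f := fun i : Fin s.card => C.ι (b (e.symm i).1))).mpr h3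
  convert h4 using 1
  funext i
  simp

/-- The `K'`-span of `ι V` for a `K`-subspace `V` is the `K'`-span of the image of a basis. -/
theorem span_image_eq_span_range {I : Type*} (V : Submodule K F) (b : Module.Basis I K V) :
    Submodule.span K' (C.ι '' (V : Set F)) =
      Submodule.span K' (Set.range fun i => C.ι (b i : F)) := by
  apply le_antisymm
  · rw [Submodule.span_le]
    rintro _ ⟨v, hv, rfl⟩
    have hrepr := b.linearCombination_repr ⟨v, hv⟩
    have hv' : v = ∑ i ∈ (b.repr ⟨v, hv⟩).support, (b.repr ⟨v, hv⟩) i • (b i : F) := by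
      have := congrArg (Subtype.val) hrepr
      rw [Finsupp.linearCombination_apply, Finsupp.sum] at this
      simpa using this.symm
    rw [hv', map_sum]
    refine Submodule.sum_mem _ fun i _ => ?_
    rw [ι_smul]
    exact Submodule.smul_mem _ _ (Submodule.subset_span ⟨i, rfl⟩)
  · rw [Submodule.span_le]
    rintro _ ⟨i, rfl⟩
    exact Submodule.subset_span ⟨(b i : F), (b i).2, rfl⟩

/-- **Linear disjointness, subspace form**: if `f ∉ V` then `ι f` is not in the `K'`-span of
`ι V`. -/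
theorem ι_not_mem_span (V : Submodule K F) {f : F} (hf : f ∉ V) :
    C.ι f ∉ Submodule.span K' (C.ι '' (V : Set F)) := by
  classical
  let b := Module.Basis.ofVectorSpace K V
  have hb : LinearIndependent K (fun i => (b i : F)) := by
    have := b.linearIndependent
    exact this.map' V.subtype (Submodule.ker_subtype V)
  have hspan : Submodule.span K (Set.range fun i => (b i : F)) = V := by
    have h := b.span_eq
    have h2 := congrArg (Submodule.map V.subtype) h
    rw [Submodule.map_span, Submodule.map_top, Submodule.range_subtype] at h2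
    refine Eq.trans ?_ h2
    congr 1
    ext x
    constructor
    · rintro ⟨i, rfl⟩
      exact ⟨b i, ⟨i, rfl⟩, rfl⟩
    · rintro ⟨_, ⟨i, rfl⟩, rfl⟩
      exact ⟨i, rfl⟩
  have hopt : LinearIndependent K
      (fun o => Option.casesOn' o f (fun i => (b i : F)) : Option _ → F) :=
    hb.option (by rw [hspan]; exact hf)
  have h2 := linDisj_family C _ hopt
  have h3 : LinearIndependent K'
      (fun o => Option.casesOn' o (C.ι f) (fun i => C.ι (b i : F)) : Option _ → F') := by
    convert h2 using 1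
    funext o
    cases o <;> rfl
  rw [linearIndependent_option'] at h3
  rw [span_image_eq_span_range C V b]
  exact h3.2

/-! ## The data at a place `P` of `F/K` -/

section AtPlace

variable (P : Place K F)

/-- The maximal ideal of `O_P`, as a `K`-subspace of `F`. -/
def mP : Submodule K F where
  carrier := {f | f = 0 ∨ 0 < P.ord f}
  zero_mem' := Or.inl rfl
  add_mem' := by
    rintro f g hf hg
    by_cases hfg : f + g = 0
    · exact Or.inl hfg
    right
    rcases hf with rfl | hf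
    · rcases hg with rfl | hg
      · simp at hfg
      · simpa using hg
    rcases hg with rfl | hg
    · simpa using hf
    have := ord_add_ge P hfg
    exact lt_of_lt_of_le (lt_min hf hg) this
  smul_mem' := by
    rintro a f hf
    rcases eq_or_ne a 0 with rfl | ha
    · left; simp
    rcases hf with rfl | hf
    · left; simp
    right
    have hf0 : f ≠ 0 := ne_zero_of_ord_ne_zero P hf.ne'
    have ha' : algebraMap K F a ≠ 0 := by
      simpa using ha
    rw [Algebra.smul_def, P.ord_mul ha' hf0, helper82.ord_algebraMap, zero_add]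
    exact hf

theorem mem_mP {f : F} : f ∈ mP P ↔ f = 0 ∨ 0 < P.ord f := Iff.rfl

theorem one_not_mem_mP : (1 : F) ∉ mP P := by
  rw [mem_mP]
  simp

theorem mem_valuationSubring_of_mem_mP {f : F} (hf : f ∈ mP P) : f ∈ P.toValuationSubring := by
  rcases hf with rfl | hf
  · exact zero_mem _
  · exact helper82.mem_of_ord_nonneg P hf.le

theorem mul_mem_mP {g h : F} (hg : g ∈ P.toValuationSubring) (hh : h ∈ mP P) :
    g * h ∈ mP P := by
  rcases eq_or_ne g 0 with rfl | hg0
  · left; simp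
  rcases hh with rfl | hh
  · left; simp
  right
  have hh0 : h ≠ 0 := ne_zero_of_ord_ne_zero P hh.ne'
  rw [P.ord_mul hg0 hh0]
  have := helper82.ord_nonneg_of_mem P hg
  omega

/-- The `K'`-span of `ι (O_P)`. -/
def spanA : Submodule K' F' := Submodule.span K' (C.ι '' (P.toValuationSubring : Set F))

/-- The `K'`-span of `ι (𝔪_P)`. -/
def spanM : Submodule K' F' := Submodule.span K' (C.ι '' (mP P : Set F))

theorem ι_mem_spanA {f : F} (hf : f ∈ P.toValuationSubring) : C.ι f ∈ spanA C P :=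
  Submodule.subset_span ⟨f, hf, rfl⟩

theorem ι_mem_spanM {f : F} (hf : f ∈ mP P) : C.ι f ∈ spanM C P :=
  Submodule.subset_span ⟨f, hf, rfl⟩

theorem one_mem_spanA : (1 : F') ∈ spanA C P := by
  have := ι_mem_spanA C P (one_mem P.toValuationSubring)
  rwa [map_one] at this

theorem algebraMap_mem_spanA (c : K') : algebraMap K' F' c ∈ spanA C P := by
  rw [Algebra.algebraMap_eq_smul_one]
  exact Submodule.smul_mem _ _ (one_mem_spanA C P)

theorem spanM_le_spanA : spanM C P ≤ spanA C P :=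
  Submodule.span_mono (Set.image_mono fun f hf => mem_valuationSubring_of_mem_mP P hf)

theorem mul_mem_spanA {a b : F'} (ha : a ∈ spanA C P) (hb : b ∈ spanA C P) :
    a * b ∈ spanA C P := by
  have h := Submodule.mul_mem_mul ha hb
  have hle : spanA C P * spanA C P ≤ spanA C P := by
    unfold spanA
    rw [Submodule.span_mul_span]
    apply Submodule.span_mono
    rintro _ ⟨_, ⟨f, hf, rfl⟩, _, ⟨g, hg, rfl⟩, rfl⟩
    exact ⟨f * g, mul_mem hf hg, by rw [map_mul]⟩
  exact hle h

theorem mul_mem_spanM {a μ : F'} (ha : a ∈ spanA C P) (hμ : μ ∈ spanM C P) :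
    a * μ ∈ spanM C P := by
  have h := Submodule.mul_mem_mul ha hμ
  have hle : spanA C P * spanM C P ≤ spanM C P := by
    unfold spanA spanM
    rw [Submodule.span_mul_span]
    apply Submodule.span_mono
    rintro _ ⟨_, ⟨f, hf, rfl⟩, _, ⟨g, hg, rfl⟩, rfl⟩
    exact ⟨f * g, mul_mem_mP P hf hg, by rw [map_mul]⟩
  exact hle h

/-- **KEY**: a constant in the span of `ι 𝔪_P` is zero (linear disjointness). -/
theorem eq_zero_of_algebraMap_mem_spanM {c : K'} (hc : algebraMap K' F' c ∈ spanM C P) :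
    c = 0 := by
  by_contra hc0
  have h1 : (1 : F') ∈ spanM C P := by
    have := Submodule.smul_mem (spanM C P) c⁻¹ hc
    rwa [Algebra.algebraMap_eq_smul_one, smul_smul, inv_mul_cancel₀ hc0, one_smul] at this
  have h2 := ι_not_mem_span C (mP P) (one_not_mem_mP P)
  rw [map_one] at h2
  exact h2 h1

/-- Elements of `A` which are congruent to a nonzero constant modulo `𝔪`. -/
def IsU (a : F') : Prop := ∃ c : K', c ≠ 0 ∧ a - algebraMap K' F' c ∈ spanM C P

theorem IsU.mem_spanA {a : F'} (ha : IsU C P a) : a ∈ spanA C P := by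
  obtain ⟨c, -, hc⟩ := ha
  have := Submodule.add_mem _ (spanM_le_spanA C P hc) (algebraMap_mem_spanA C P c)
  rwa [sub_add_cancel] at this

theorem IsU.ne_zero {a : F'} (ha : IsU C P a) : a ≠ 0 := by
  rintro rfl
  obtain ⟨c, hc0, hc⟩ := ha
  rw [zero_sub] at hc
  have := (spanM C P).neg_mem hc
  rw [neg_neg] at this
  exact hc0 (eq_zero_of_algebraMap_mem_spanM C P this)

theorem IsU.mul {a b : F'} (ha : IsU C P a) (hb : IsU C P b) : IsU C P (a * b) := by
  obtain ⟨c, hc0, hc⟩ := ha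
  obtain ⟨d, hd0, hd⟩ := hb
  refine ⟨c * d, mul_ne_zero hc0 hd0, ?_⟩
  have h1 : a * b - algebraMap K' F' (c * d) =
      a * (b - algebraMap K' F' d) + algebraMap K' F' d * (a - algebraMap K' F' c) := by
    rw [map_mul]; ring
  rw [h1]
  exact Submodule.add_mem _ (mul_mem_spanM C P (IsU.mem_spanA C P ⟨c, hc0, hc⟩) hd)
    (mul_mem_spanM C P (algebraMap_mem_spanA C P d) hc)

theorem isU_one : IsU C P 1 :=
  ⟨1, one_ne_zero, by rw [map_one, sub_self]; exact Submodule.zero_mem _⟩

theorem not_isU_of_mem_spanM {a : F'} (ha : a ∈ spanM C P) : ¬ IsU C P a := by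
  rintro ⟨c, hc0, hc⟩
  have := Submodule.sub_mem _ ha hc
  rw [sub_sub_cancel] at this
  exact hc0 (eq_zero_of_algebraMap_mem_spanM C P this)


/-! ### Uniformizers and the normal form -/

theorem exists_uniformizer : ∃ π : F, P.ord π = 1 := by
  obtain ⟨π, hπ⟩ := IsDiscreteValuationRing.exists_irreducible P.toValuationSubring
  exact ⟨(π : F), P.ord_coe_irreducible hπ⟩

theorem uniformizer_ne_zero {π : F} (hπ : P.ord π = 1) : π ≠ 0 :=
  ne_zero_of_ord_ne_zero P (by rw [hπ]; norm_num)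

theorem uniformizer_mem_mP {π : F} (hπ : P.ord π = 1) : π ∈ mP P :=
  Or.inr (by rw [hπ]; norm_num)

theorem ι_uniformizer_ne_zero {π : F} (hπ : P.ord π = 1) : C.ι π ≠ 0 := by
  rw [Ne, map_eq_zero]
  exact uniformizer_ne_zero P hπ

/-- `ι π ^ (k+1) * a ∈ spanM` for `a ∈ spanA`. -/
theorem pow_succ_mul_mem_spanM {π : F} (hπ : P.ord π = 1) (k : ℕ) {a : F'}
    (ha : a ∈ spanA C P) : C.ι π ^ (k + 1) * a ∈ spanM C P := by
  have h1 : C.ι π ^ k * a ∈ spanA C P := by
    refine mul_mem_spanA C P ?_ ha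
    rw [← map_pow]
    exact ι_mem_spanA C P (pow_mem (mem_valuationSubring_of_mem_mP P
      (uniformizer_mem_mP P hπ)) k)
  have h2 := mul_mem_spanM C P h1 (ι_mem_spanM C P (uniformizer_mem_mP P hπ))
  have h3 : C.ι π ^ (k + 1) * a = C.ι π ^ k * a * C.ι π := by ring
  rw [h3]
  exact h2

theorem pow_mul_mem_spanA {π : F} (hπ : P.ord π = 1) (k : ℕ) {a : F'}
    (ha : a ∈ spanA C P) : C.ι π ^ k * a ∈ spanA C P := by
  refine mul_mem_spanA C P ?_ ha
  rw [← map_pow]
  exact ι_mem_spanA C P (pow_mem (mem_valuationSubring_of_mem_mP P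
    (uniformizer_mem_mP P hπ)) k)

/-- Residues: for `0 ≤ ord f` there is a constant `b` with `f - b ∈ 𝔪_P`. -/
theorem exists_residue (hS : RiemannSetting K F) {f : F} (hf : 0 ≤ P.ord f) :
    ∃ b : K, f - algebraMap K F b ∈ mP P := by
  obtain ⟨b, hb | hb⟩ := hS.residue P f hf
  · exact ⟨b, Or.inl (by rw [hb, sub_self])⟩
  · exact ⟨b, Or.inr hb⟩

theorem residue_ne_zero {f : F} (hf0 : f ≠ 0) (hf : P.ord f = 0) {b : K}
    (hb : f - algebraMap K F b ∈ mP P) : b ≠ 0 := by
  rintro rfl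
  rw [map_zero, sub_zero] at hb
  rcases hb with h | h
  · exact hf0 h
  · omega

/-- `ι f` is a unit of `A` modulo `𝔪` when `ord f = 0`. -/
theorem isU_ι (hS : RiemannSetting K F) {f : F} (hf0 : f ≠ 0) (hf : P.ord f = 0) :
    IsU C P (C.ι f) := by
  obtain ⟨b, hb⟩ := exists_residue P hS (f := f) (by rw [hf])
  have hb0 := residue_ne_zero P hf0 hf hb
  refine ⟨C.κ b, by simpa using hb0, ?_⟩
  have := ι_mem_spanM C P hb
  rwa [map_sub, C.comm] at this

/-- **Normal form** for sums `∑ c i • ι (f i)`. -/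
theorem nf_sum (hS : RiemannSetting K F) {π : F} (hπ : P.ord π = 1) {I : Type*} :
    ∀ (n : ℕ) (s : Finset I) (f : I → F) (c : I → K'), s.card ≤ n →
      (∑ i ∈ s, c i • C.ι (f i)) ≠ 0 →
      ∃ m : ℤ, ∃ a : F', IsU C P a ∧ ∑ i ∈ s, c i • C.ι (f i) = C.ι π ^ m * a := by
  classical
  intro n
  induction n with
  | zero =>
    intro s f c hs hx
    have : s = ∅ := Finset.card_eq_zero.mp (Nat.le_zero.mp hs)
    subst this
    simp at hx
  | succ n ih =>
    intro s f c hs hx
    have hπ0 : π ≠ 0 := uniformizer_ne_zero P hπ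
    have hιπ0 : C.ι π ≠ 0 := ι_uniformizer_ne_zero C P hπ
    set t := s.filter (fun i => f i ≠ 0) with ht
    have hts : t ⊆ s := Finset.filter_subset _ _
    have hsum : ∑ i ∈ s, c i • C.ι (f i) = ∑ i ∈ t, c i • C.ι (f i) := by
      rw [ht, Finset.sum_filter]
      refine Finset.sum_congr rfl fun i _ => ?_
      by_cases h : f i = 0
      · simp [h]
      · simp [h]
    have htne : t.Nonempty := by
      by_contra h
      rw [Finset.not_nonempty_iff_eq_empty] at h
      rw [hsum, h] at hx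
      simp at hx
    obtain ⟨i₀, hi₀, hmin⟩ := Finset.exists_min_image t (fun i => P.ord (f i)) htne
    set m := P.ord (f i₀) with hm
    have hfne : ∀ i ∈ t, f i ≠ 0 := fun i hi => (Finset.mem_filter.mp hi).2
    have hordeq : ∀ i ∈ t, P.ord (f i * π ^ (-m)) = P.ord (f i) - m := by
      intro i hi
      rw [P.ord_mul (hfne i hi) (zpow_ne_zero _ hπ0), P.ord_zpow, hπ]
      ring
    have hord : ∀ i ∈ t, 0 ≤ P.ord (f i * π ^ (-m)) := by
      intro i hi
      rw [hordeq i hi]
      have := hmin i hi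
      omega
    choose! b hb using fun i (hi : i ∈ t) => exists_residue P hS (hord i hi)
    have hb0 : b i₀ ≠ 0 := by
      refine residue_ne_zero P (mul_ne_zero (hfne i₀ hi₀) (zpow_ne_zero _ hπ0)) ?_ (hb i₀ hi₀)
      rw [hordeq i₀ hi₀]
      omega
    set c₀ := ∑ i ∈ t, c i * C.κ (b i) with hc₀def
    have hdecomp : (∑ i ∈ t, c i • C.ι (f i)) * C.ι π ^ (-m) - algebraMap K' F' c₀
        ∈ spanM C P := by
      have h1 : (∑ i ∈ t, c i • C.ι (f i)) * C.ι π ^ (-m) - algebraMap K' F' c₀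
          = ∑ i ∈ t, c i • C.ι (f i * π ^ (-m) - algebraMap K F (b i)) := by
        rw [Finset.sum_mul, hc₀def, map_sum, ← Finset.sum_sub_distrib]
        refine Finset.sum_congr rfl fun i _ => ?_
        have e1 : C.ι (f i * π ^ (-m)) = C.ι (f i) * C.ι π ^ (-m) := by
          rw [map_mul, map_zpow₀]
        have e2 : algebraMap K' F' (c i * C.κ (b i)) = c i • C.ι (algebraMap K F (b i)) := by
          rw [map_mul, C.comm, Algebra.smul_def]
        rw [map_sub, e1, e2, smul_sub, smul_mul_assoc]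
      rw [h1]
      exact Submodule.sum_mem _ fun i hi =>
        Submodule.smul_mem _ _ (ι_mem_spanM C P (hb i hi))
    by_cases hc₀ : c₀ = 0
    · -- eliminate `i₀`
      have hκb0 : C.κ (b i₀) ≠ 0 := by simpa using hb0
      have hci₀ : c i₀ = -(∑ i ∈ t.erase i₀, c i * C.κ (b i)) * (C.κ (b i₀))⁻¹ := by
        have h := Finset.add_sum_erase t (fun i => c i * C.κ (b i)) hi₀
        rw [← hc₀def, hc₀] at h
        field_simp
        linear_combination h
      have hnew : ∑ i ∈ t, c i • C.ι (f i)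
          = ∑ i ∈ t.erase i₀, c i • C.ι (f i - (b i / b i₀) • f i₀) := by
        rw [← Finset.add_sum_erase t (fun i => c i • C.ι (f i)) hi₀]
        have h2 : ∑ i ∈ t.erase i₀, c i • C.ι (f i - (b i / b i₀) • f i₀)
            = ∑ i ∈ t.erase i₀, c i • C.ι (f i)
              - (∑ i ∈ t.erase i₀, c i * C.κ (b i)) • ((C.κ (b i₀))⁻¹ • C.ι (f i₀)) := by
          rw [Finset.sum_smul, ← Finset.sum_sub_distrib]
          refine Finset.sum_congr rfl fun i _ => ?_
          rw [map_sub, ι_smul, smul_sub, map_div₀, div_eq_mul_inv, mul_smul, mul_smul]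
        rw [h2, hci₀, neg_mul, neg_smul, mul_smul]
        abel
      have hcard : (t.erase i₀).card ≤ n := by
        have h1 := Finset.card_erase_lt_of_mem hi₀
        have h2 := Finset.card_le_card hts
        omega
      rw [hsum, hnew]
      rw [hsum, hnew] at hx
      exact ih (t.erase i₀) _ c hcard hx
    · refine ⟨m, (∑ i ∈ t, c i • C.ι (f i)) * C.ι π ^ (-m), ⟨c₀, hc₀, hdecomp⟩, ?_⟩
      rw [hsum, mul_comm, mul_assoc, ← zpow_add₀ hιπ0, neg_add_cancel, zpow_zero, mul_one]


/-! ### The ring `R = K'`-span of `ι F` and normal forms in `F'` -/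

/-- The `K'`-span of `ι F`. -/
def spanR : Submodule K' F' := Submodule.span K' (Set.range C.ι)

theorem ι_mem_spanR (f : F) : C.ι f ∈ spanR C := Submodule.subset_span ⟨f, rfl⟩

theorem mul_mem_spanR {a b : F'} (ha : a ∈ spanR C) (hb : b ∈ spanR C) : a * b ∈ spanR C := by
  have h := Submodule.mul_mem_mul ha hb
  have hle : spanR C * spanR C ≤ spanR C := by
    unfold spanR
    rw [Submodule.span_mul_span]
    apply Submodule.span_mono
    rintro _ ⟨_, ⟨f, rfl⟩, _, ⟨g, rfl⟩, rfl⟩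
    exact ⟨f * g, by rw [map_mul]⟩
  exact hle h

theorem algebraMap_mem_spanR (c : K') : algebraMap K' F' c ∈ spanR C := by
  rw [Algebra.algebraMap_eq_smul_one, ← map_one C.ι]
  exact Submodule.smul_mem _ _ (ι_mem_spanR C 1)

theorem closure_le_spanR {x : F'}
    (hx : x ∈ Subring.closure (Set.range (algebraMap K' F') ∪ Set.range C.ι)) :
    x ∈ spanR C := by
  induction hx using Subring.closure_induction with
  | mem x hx =>
    rcases hx with ⟨c, rfl⟩ | ⟨f, rfl⟩
    · exact algebraMap_mem_spanR C c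
    · exact ι_mem_spanR C f
  | zero => exact Submodule.zero_mem _
  | one =>
    rw [← map_one C.ι]
    exact ι_mem_spanR C 1
  | add x y _ _ hx hy => exact Submodule.add_mem _ hx hy
  | neg x _ hx => exact Submodule.neg_mem _ hx
  | mul x y _ _ hx hy => exact mul_mem_spanR C hx hy

/-- Every element of `F'` is a quotient of elements of `R`. -/
theorem exists_div_spanR (x : F') : ∃ y z : F', y ∈ spanR C ∧ z ∈ spanR C ∧ y / z = x := by
  have hx : x ∈ Subfield.closure (Set.range (algebraMap K' F') ∪ Set.range C.ι) := by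
    rw [C.gen]
    exact Subfield.mem_top x
  obtain ⟨y, hy, z, hz, e⟩ := Subfield.mem_closure_iff.mp hx
  exact ⟨y, z, closure_le_spanR C hy, closure_le_spanR C hz, e⟩

/-- `x = ι π ^ m * a₁ / a₂` with `a₁, a₂` units of `A` modulo `𝔪`. -/
def IsNF (π : F) (x : F') (m : ℤ) : Prop :=
  ∃ a₁ a₂ : F', IsU C P a₁ ∧ IsU C P a₂ ∧ x * a₂ = C.ι π ^ m * a₁

variable {C P}

theorem IsNF.ne_zero {π : F} (hπ : P.ord π = 1) {x : F'} {m : ℤ} (h : IsNF C P π x m) :
    x ≠ 0 := by
  rintro rfl
  obtain ⟨a₁, a₂, ha₁, ha₂, e⟩ := h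
  rw [zero_mul] at e
  exact mul_ne_zero (zpow_ne_zero _ (ι_uniformizer_ne_zero C P hπ)) (IsU.ne_zero C P ha₁) e.symm

theorem IsNF.mul {π : F} (hπ : P.ord π = 1) {x y : F'} {m n : ℤ} (hx : IsNF C P π x m)
    (hy : IsNF C P π y n) : IsNF C P π (x * y) (m + n) := by
  obtain ⟨a₁, a₂, ha₁, ha₂, e⟩ := hx
  obtain ⟨b₁, b₂, hb₁, hb₂, e'⟩ := hy
  refine ⟨a₁ * b₁, a₂ * b₂, IsU.mul C P ha₁ hb₁, IsU.mul C P ha₂ hb₂, ?_⟩
  rw [zpow_add₀ (ι_uniformizer_ne_zero C P hπ)]
  linear_combination (y * b₂) * e + (C.ι π ^ m * a₁) * e'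

theorem IsNF.inv {π : F} (hπ : P.ord π = 1) {x : F'} {m : ℤ} (hx : IsNF C P π x m) :
    IsNF C P π x⁻¹ (-m) := by
  have hx0 := hx.ne_zero hπ
  obtain ⟨a₁, a₂, ha₁, ha₂, e⟩ := hx
  refine ⟨a₂, a₁, ha₂, ha₁, ?_⟩
  have h0 := zpow_ne_zero m (ι_uniformizer_ne_zero C P hπ)
  rw [zpow_neg]
  field_simp
  linear_combination -e

theorem IsNF.le {π : F} (hπ : P.ord π = 1) {x : F'} {m m' : ℤ} (h : IsNF C P π x m)
    (h' : IsNF C P π x m') : m ≤ m' := by
  by_contra hlt
  rw [not_le] at hlt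
  obtain ⟨a₁, a₂, ha₁, ha₂, e⟩ := h
  obtain ⟨b₁, b₂, hb₁, hb₂, e'⟩ := h'
  obtain ⟨k, hk⟩ : ∃ k : ℕ, m = m' + ((k + 1 : ℕ) : ℤ) := ⟨(m - m' - 1).toNat, by omega⟩
  have hιπ0 := ι_uniformizer_ne_zero C P hπ
  have key : C.ι π ^ (k + 1) * (a₁ * b₂) = b₁ * a₂ := by
    have h1 : C.ι π ^ m * a₁ * b₂ = C.ι π ^ m' * b₁ * a₂ := by
      rw [← e, ← e']; ring
    rw [hk, zpow_add₀ hιπ0, zpow_natCast] at h1
    have h2 : C.ι π ^ m' ≠ 0 := zpow_ne_zero _ hιπ0
    apply mul_left_cancel₀ h2
    linear_combination h1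
  have hmem : b₁ * a₂ ∈ spanM C P :=
    key ▸ pow_succ_mul_mem_spanM C P hπ k
      (mul_mem_spanA C P (IsU.mem_spanA C P ha₁) (IsU.mem_spanA C P hb₂))
  exact not_isU_of_mem_spanM C P hmem (IsU.mul C P hb₁ ha₂)

theorem IsNF.unique {π : F} (hπ : P.ord π = 1) {x : F'} {m m' : ℤ} (h : IsNF C P π x m)
    (h' : IsNF C P π x m') : m = m' :=
  le_antisymm (h.le hπ h') (h'.le hπ h)

variable (C P)

theorem isNF_of_mem_spanR (hS : RiemannSetting K F) {π : F} (hπ : P.ord π = 1) {x : F'}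
    (hx : x ∈ spanR C) (hx0 : x ≠ 0) : ∃ m : ℤ, IsNF C P π x m := by
  obtain ⟨n, c, g, rfl⟩ := Submodule.mem_span_set'.mp hx
  choose f hf using fun i => (g i).2
  have hsum : ∑ i, c i • (g i : F') = ∑ i ∈ Finset.univ, c i • C.ι (f i) := by
    refine Finset.sum_congr rfl fun i _ => ?_
    rw [hf i]
  rw [hsum] at hx0 ⊢
  obtain ⟨m, a, ha, e⟩ := nf_sum C P hS hπ _ Finset.univ f c le_rfl hx0
  exact ⟨m, a, 1, ha, isU_one C P, by rw [mul_one, e]⟩

theorem exists_isNF (hS : RiemannSetting K F) {π : F} (hπ : P.ord π = 1) {x : F'}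
    (hx0 : x ≠ 0) : ∃ m : ℤ, IsNF C P π x m := by
  obtain ⟨y, z, hy, hz, rfl⟩ := exists_div_spanR C x
  have hy0 : y ≠ 0 := by
    rintro rfl
    simp at hx0
  have hz0 : z ≠ 0 := by
    rintro rfl
    simp at hx0
  obtain ⟨m, hm⟩ := isNF_of_mem_spanR C P hS hπ hy hy0
  obtain ⟨n, hn⟩ := isNF_of_mem_spanR C P hS hπ hz hz0
  refine ⟨m + -n, ?_⟩
  rw [div_eq_mul_inv]
  exact hm.mul hπ (hn.inv hπ)

theorem isNF_ι (hS : RiemannSetting K F) {π : F} (hπ : P.ord π = 1) {f : F} (hf : f ≠ 0) :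
    IsNF C P π (C.ι f) (P.ord f) := by
  have hπ0 := uniformizer_ne_zero P hπ
  have hu0 : f * π ^ (-P.ord f) ≠ 0 := mul_ne_zero hf (zpow_ne_zero _ hπ0)
  have hu : P.ord (f * π ^ (-P.ord f)) = 0 := by
    rw [P.ord_mul hf (zpow_ne_zero _ hπ0), P.ord_zpow, hπ]
    ring
  refine ⟨C.ι (f * π ^ (-P.ord f)), 1, isU_ι C P hS hu0 hu, isU_one C P, ?_⟩
  rw [mul_one, ← map_zpow₀, ← map_mul]
  congr 1
  rw [mul_comm, mul_assoc, ← zpow_add₀ hπ0, neg_add_cancel, zpow_zero, mul_one]


/-! ### The valuation ring over `P` -/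

/-- The carrier of the valuation ring over `P`: quotients `a / s`, `a ∈ A`, `s` a unit of `A`
modulo `𝔪`. -/
def carrierO : Set F' := {x | ∃ a s : F', a ∈ spanA C P ∧ IsU C P s ∧ x * s = a}

theorem mem_carrierO_of_mem_spanA {a : F'} (ha : a ∈ spanA C P) : a ∈ carrierO C P :=
  ⟨a, 1, ha, isU_one C P, mul_one a⟩

theorem mem_carrierO_iff_of_isNF {π : F} (hπ : P.ord π = 1) {x : F'} {m : ℤ}
    (h : IsNF C P π x m) : x ∈ carrierO C P ↔ 0 ≤ m := by
  obtain ⟨a₁, a₂, ha₁, ha₂, e⟩ := h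
  constructor
  · rintro ⟨a, s, ha, hs, e'⟩
    by_contra hlt
    rw [not_le] at hlt
    obtain ⟨k, hk⟩ : ∃ k : ℕ, m = -((k + 1 : ℕ) : ℤ) := ⟨(-m - 1).toNat, by omega⟩
    have hιπ0 := ι_uniformizer_ne_zero C P hπ
    have key : C.ι π ^ (k + 1) * (a * a₂) = a₁ * s := by
      rw [hk, zpow_neg, zpow_natCast] at e
      have h2 : C.ι π ^ (k + 1) ≠ 0 := pow_ne_zero _ hιπ0
      have e2 : C.ι π ^ (k + 1) * (x * a₂) = a₁ := by
        rw [e]
        field_simp
      rw [← e', ← e2]
      ring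
    have hmem : a₁ * s ∈ spanM C P :=
      key ▸ pow_succ_mul_mem_spanM C P hπ k (mul_mem_spanA C P ha (IsU.mem_spanA C P ha₂))
    exact not_isU_of_mem_spanM C P hmem (IsU.mul C P ha₁ hs)
  · intro hm
    obtain ⟨k, rfl⟩ := Int.eq_ofNat_of_zero_le hm
    rw [zpow_natCast] at e
    exact ⟨C.ι π ^ k * a₁, a₂, pow_mul_mem_spanA C P hπ k (IsU.mem_spanA C P ha₁), ha₂, e⟩

/-- The valuation ring of `F'` over `P`. -/
def valSub (hS : RiemannSetting K F) : ValuationSubring F' where
  carrier := carrierO C P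
  mul_mem' := by
    rintro x y ⟨a, s, ha, hs, e⟩ ⟨b, t, hb, ht, e'⟩
    refine ⟨a * b, s * t, mul_mem_spanA C P ha hb, IsU.mul C P hs ht, ?_⟩
    rw [← e, ← e']
    ring
  one_mem' := ⟨1, 1, one_mem_spanA C P, isU_one C P, mul_one 1⟩
  add_mem' := by
    rintro x y ⟨a, s, ha, hs, e⟩ ⟨b, t, hb, ht, e'⟩
    refine ⟨a * t + b * s, s * t,
      Submodule.add_mem _ (mul_mem_spanA C P ha (IsU.mem_spanA C P ht))
        (mul_mem_spanA C P hb (IsU.mem_spanA C P hs)), IsU.mul C P hs ht, ?_⟩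
    rw [← e, ← e']
    ring
  zero_mem' := ⟨0, 1, Submodule.zero_mem _, isU_one C P, mul_one 0⟩
  neg_mem' := by
    rintro x ⟨a, s, ha, hs, e⟩
    exact ⟨-a, s, Submodule.neg_mem _ ha, hs, by rw [← e]; ring⟩
  mem_or_inv_mem' := by
    intro x
    rcases eq_or_ne x 0 with rfl | hx0
    · exact Or.inl ⟨0, 1, Submodule.zero_mem _, isU_one C P, mul_one 0⟩
    obtain ⟨π, hπ⟩ := exists_uniformizer P
    obtain ⟨m, hm⟩ := exists_isNF C P hS hπ hx0
    rcases le_total 0 m with h | h
    · exact Or.inl ((mem_carrierO_iff_of_isNF C P hπ hm).mpr h)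
    · exact Or.inr ((mem_carrierO_iff_of_isNF C P hπ (hm.inv hπ)).mpr (by omega))

theorem mem_valSub_iff (hS : RiemannSetting K F) {x : F'} :
    x ∈ valSub C P hS ↔ x ∈ carrierO C P := Iff.rfl

theorem mem_valSub_iff_of_isNF (hS : RiemannSetting K F) {π : F} (hπ : P.ord π = 1) {x : F'}
    {m : ℤ} (h : IsNF C P π x m) : x ∈ valSub C P hS ↔ 0 ≤ m :=
  mem_carrierO_iff_of_isNF C P hπ h

theorem ι_mem_valSub_iff (hS : RiemannSetting K F) (f : F) :
    C.ι f ∈ valSub C P hS ↔ f ∈ P.toValuationSubring := by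
  rcases eq_or_ne f 0 with rfl | hf
  · rw [map_zero]
    exact ⟨fun _ => zero_mem _, fun _ => zero_mem _⟩
  obtain ⟨π, hπ⟩ := exists_uniformizer P
  rw [mem_valSub_iff_of_isNF C P hS hπ (isNF_ι C P hS hπ hf), helper82.mem_iff_ord_nonneg]

theorem valSub_ne_top (hS : RiemannSetting K F) : valSub C P hS ≠ ⊤ := by
  obtain ⟨π, hπ⟩ := exists_uniformizer P
  intro h
  have h1 : C.ι π⁻¹ ∈ valSub C P hS := by
    rw [h]
    exact ValuationSubring.mem_top _
  rw [ι_mem_valSub_iff, helper82.mem_iff_ord_nonneg, P.ord_inv, hπ] at h1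
  omega

/-- Elements in normal form with exponent `0` are units of the valuation ring. -/
theorem exists_unit_of_isNF_zero (hS : RiemannSetting K F) {π : F} (hπ : P.ord π = 1) {x : F'}
    (h : IsNF C P π x 0) : ∃ u : (valSub C P hS)ˣ, ((u : valSub C P hS) : F') = x := by
  have hx0 := h.ne_zero hπ
  have h1 : x ∈ valSub C P hS := (mem_valSub_iff_of_isNF C P hS hπ h).mpr le_rfl
  have h2 : x⁻¹ ∈ valSub C P hS :=
    (mem_valSub_iff_of_isNF C P hS hπ (h.inv hπ)).mpr (by omega)
  refine ⟨⟨⟨x, h1⟩, ⟨x⁻¹, h2⟩, ?_, ?_⟩, rfl⟩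
  · apply Subtype.ext
    show x * x⁻¹ = 1
    exact mul_inv_cancel₀ hx0
  · apply Subtype.ext
    show x⁻¹ * x = 1
    exact inv_mul_cancel₀ hx0

theorem isNF_zero_of_isUnit (hS : RiemannSetting K F) {π : F} (hπ : P.ord π = 1)
    {x : valSub C P hS} (hx : IsUnit x) {m : ℤ} (h : IsNF C P π (x : F') m) : m = 0 := by
  obtain ⟨u, rfl⟩ := hx
  have h1 : 0 ≤ m := (mem_valSub_iff_of_isNF C P hS hπ h).mp (u : valSub C P hS).2
  have hinv : (((u⁻¹ : (valSub C P hS)ˣ) : valSub C P hS) : F') = ((u : valSub C P hS) : F')⁻¹ := by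
    have hmul : ((u : valSub C P hS) : F') * (((u⁻¹ : (valSub C P hS)ˣ) : valSub C P hS) : F')
        = 1 := by
      have h := u.mul_inv
      have h' : ((u : valSub C P hS) * ((u⁻¹ : (valSub C P hS)ˣ) : valSub C P hS) :
          valSub C P hS).1 = (1 : valSub C P hS).1 := by rw [h]
      exact h'
    exact eq_inv_of_mul_eq_one_right hmul
  have h2 : 0 ≤ -m := by
    have := (mem_valSub_iff_of_isNF C P hS hπ (h.inv hπ)).mp
      (hinv ▸ ((u⁻¹ : (valSub C P hS)ˣ) : valSub C P hS).2)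
    exact this
  omega

theorem valSub_hasFactorization (hS : RiemannSetting K F) :
    IsDiscreteValuationRing.HasUnitMulPowIrreducibleFactorization (valSub C P hS) := by
  obtain ⟨π, hπ⟩ := exists_uniformizer P
  have hπ0 := uniformizer_ne_zero P hπ
  have hιπ0 := ι_uniformizer_ne_zero C P hπ
  have hNFπ : IsNF C P π (C.ι π) 1 := by
    have := isNF_ι C P hS hπ hπ0
    rwa [hπ] at this
  have hmem : C.ι π ∈ valSub C P hS := (mem_valSub_iff_of_isNF C P hS hπ hNFπ).mpr zero_le_one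
  refine ⟨⟨C.ι π, hmem⟩, ?_, ?_⟩
  · rw [irreducible_iff]
    constructor
    · intro hu
      have := isNF_zero_of_isUnit C P hS hπ hu hNFπ
      omega
    · intro a b hab
      have hab' : C.ι π = (a : F') * (b : F') := congrArg Subtype.val hab
      have ha0 : (a : F') ≠ 0 := by
        intro h
        rw [h, zero_mul] at hab'
        exact hιπ0 hab'
      have hb0 : (b : F') ≠ 0 := by
        intro h
        rw [h, mul_zero] at hab'
        exact hιπ0 hab'
      obtain ⟨m, hm⟩ := exists_isNF C P hS hπ ha0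
      obtain ⟨n, hn⟩ := exists_isNF C P hS hπ hb0
      have hm0 : 0 ≤ m := (mem_valSub_iff_of_isNF C P hS hπ hm).mp a.2
      have hn0 : 0 ≤ n := (mem_valSub_iff_of_isNF C P hS hπ hn).mp b.2
      have hmn : (1 : ℤ) = m + n := by
        have h1 := hm.mul hπ hn
        rw [← hab'] at h1
        exact hNFπ.unique hπ h1
      have hcase : m = 0 ∨ n = 0 := by omega
      rcases hcase with rfl | rfl
      · left
        obtain ⟨u, hu⟩ := exists_unit_of_isNF_zero C P hS hπ hm
        have : (u : valSub C P hS) = a := Subtype.ext hu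
        rw [← this]
        exact u.isUnit
      · right
        obtain ⟨u, hu⟩ := exists_unit_of_isNF_zero C P hS hπ hn
        have : (u : valSub C P hS) = b := Subtype.ext hu
        rw [← this]
        exact u.isUnit
  · intro x hx
    have hx0 : (x : F') ≠ 0 := by
      intro h
      exact hx (Subtype.ext h)
    obtain ⟨m, hm⟩ := exists_isNF C P hS hπ hx0
    have hm0 : 0 ≤ m := (mem_valSub_iff_of_isNF C P hS hπ hm).mp x.2
    obtain ⟨k, rfl⟩ := Int.eq_ofNat_of_zero_le hm0
    refine ⟨k, ?_⟩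
    have hNFk : IsNF C P π ((C.ι π ^ k)⁻¹) (-(k : ℤ)) := by
      have h1 : IsNF C P π (C.ι π ^ k) (k : ℤ) := by
        refine ⟨1, 1, isU_one C P, isU_one C P, ?_⟩
        rw [zpow_natCast]
      exact h1.inv hπ
    have hu : IsNF C P π ((x : F') * (C.ι π ^ k)⁻¹) 0 := by
      have := hm.mul hπ hNFk
      rwa [add_neg_cancel] at this
    obtain ⟨u, hu'⟩ := exists_unit_of_isNF_zero C P hS hπ hu
    refine ⟨u, ?_⟩
    apply Subtype.ext
    show C.ι π ^ k * ((u : valSub C P hS) : F') = (x : F')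
    rw [hu']
    field_simp

/-- The place of `F'/K'` over `P`. -/
def placeOver (hS : RiemannSetting K F) : Place K' F' where
  toValuationSubring := valSub C P hS
  algebraMap_mem' := fun c => mem_carrierO_of_mem_spanA C P (algebraMap_mem_spanA C P c)
  ne_top' := valSub_ne_top C P hS
  isPrincipalIdealRing' :=
    (IsDiscreteValuationRing.ofHasUnitMulPowIrreducibleFactorization
      (valSub_hasFactorization C P hS)).toIsPrincipalIdealRing

theorem isExt_placeOver (hS : RiemannSetting K F) : C.IsExt P (placeOver C P hS) :=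
  fun f => ι_mem_valSub_iff C P hS f


/-! ### Any place over `P` is `placeOver` -/

section Over

variable {C P}
variable {Q : Place K' F'}

theorem spanA_le_of_isExt (hQ : C.IsExt P Q) {a : F'} (ha : a ∈ spanA C P) :
    a ∈ Q.toValuationSubring := by
  unfold spanA at ha
  induction ha using Submodule.span_induction with
  | mem x hx =>
    obtain ⟨f, hf, rfl⟩ := hx
    exact (hQ f).mpr hf
  | zero => exact zero_mem _
  | add x y _ _ hx hy => exact add_mem hx hy
  | smul c x _ hx =>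
    rw [Algebra.smul_def]
    exact mul_mem (Q.algebraMap_mem' c) hx

theorem ord_ι_uniformizer_pos (hQ : C.IsExt P Q) {π : F} (hπ : P.ord π = 1) :
    0 < Q.ord (C.ι π) := by
  have h1 : 0 ≤ Q.ord (C.ι π) := by
    rw [← helper82.mem_iff_ord_nonneg, hQ, helper82.mem_iff_ord_nonneg, hπ]
    norm_num
  have h2 : ¬ 0 ≤ Q.ord (C.ι π⁻¹) := by
    rw [← helper82.mem_iff_ord_nonneg, hQ, helper82.mem_iff_ord_nonneg, P.ord_inv, hπ]
    norm_num
  rw [map_inv₀, Q.ord_inv] at h2
  omega

theorem spanM_le_mP_of_isExt (hQ : C.IsExt P Q) {μ : F'} (hμ : μ ∈ spanM C P) :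
    μ ∈ mP Q := by
  obtain ⟨π, hπ⟩ := exists_uniformizer P
  have hπ0 := uniformizer_ne_zero P hπ
  have hpos := ord_ι_uniformizer_pos hQ hπ
  unfold spanM at hμ
  induction hμ using Submodule.span_induction with
  | mem x hx =>
    obtain ⟨g, hg, rfl⟩ := hx
    rcases hg with rfl | hg
    · left
      simp
    · right
      have hg0 : g ≠ 0 := ne_zero_of_ord_ne_zero P hg.ne'
      have hh0 : g * π⁻¹ ≠ 0 := mul_ne_zero hg0 (inv_ne_zero hπ0)
      have hh : 0 ≤ P.ord (g * π⁻¹) := by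
        rw [P.ord_mul hg0 (inv_ne_zero hπ0), P.ord_inv, hπ]
        omega
      have hh' : 0 ≤ Q.ord (C.ι (g * π⁻¹)) := by
        rw [← helper82.mem_iff_ord_nonneg, hQ, helper82.mem_iff_ord_nonneg]
        exact hh
      have e : C.ι g = C.ι (g * π⁻¹) * C.ι π := by
        rw [← map_mul, mul_assoc, inv_mul_cancel₀ hπ0, mul_one]
      rw [e, Q.ord_mul (by simpa using hh0) (by simpa using hπ0)]
      omega
  | zero => exact Submodule.zero_mem _
  | add x y _ _ hx hy => exact Submodule.add_mem _ hx hy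
  | smul c x _ hx => exact Submodule.smul_mem _ c hx

theorem ord_isU_of_isExt (hQ : C.IsExt P Q) {a : F'} (ha : IsU C P a) : Q.ord a = 0 := by
  have ha0 := IsU.ne_zero C P ha
  have hmem : a ∈ Q.toValuationSubring := spanA_le_of_isExt hQ (IsU.mem_spanA C P ha)
  have h1 : 0 ≤ Q.ord a := helper82.ord_nonneg_of_mem Q hmem
  obtain ⟨c, hc0, hc⟩ := ha
  have hμ := spanM_le_mP_of_isExt hQ hc
  by_contra hne
  have hpos : 0 < Q.ord a := lt_of_le_of_ne h1 (Ne.symm hne)
  have ha' : a ∈ mP Q := Or.inr hpos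
  have hc' : algebraMap K' F' c ∈ mP Q := by
    have := Submodule.sub_mem _ ha' hμ
    rwa [sub_sub_cancel] at this
  rcases hc' with h | h
  · exact hc0 (by simpa using h)
  · rw [helper82.ord_algebraMap] at h
    exact lt_irrefl _ h

theorem ord_eq_mul_of_isNF (hQ : C.IsExt P Q) {π : F} (hπ : P.ord π = 1) {x : F'} {m : ℤ}
    (h : IsNF C P π x m) : Q.ord x = m * Q.ord (C.ι π) := by
  have hx0 := h.ne_zero hπ
  obtain ⟨a₁, a₂, ha₁, ha₂, e⟩ := h
  have h1 := congrArg Q.ord e
  rw [Q.ord_mul hx0 (IsU.ne_zero C P ha₂),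
    Q.ord_mul (zpow_ne_zero _ (ι_uniformizer_ne_zero C P hπ)) (IsU.ne_zero C P ha₁),
    ord_isU_of_isExt hQ ha₁, ord_isU_of_isExt hQ ha₂, Q.ord_zpow] at h1
  simpa using h1

theorem ord_ι_uniformizer (hS : RiemannSetting K F) (hQ : C.IsExt P Q) {π : F}
    (hπ : P.ord π = 1) : Q.ord (C.ι π) = 1 := by
  obtain ⟨ϖ, hϖ⟩ := exists_uniformizer Q
  have hϖ0 := uniformizer_ne_zero Q hϖ
  obtain ⟨m, hm⟩ := exists_isNF C P hS hπ hϖ0
  have h1 := ord_eq_mul_of_isNF hQ hπ hm
  rw [hϖ] at h1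
  have hpos := ord_ι_uniformizer_pos hQ hπ
  exact Int.eq_one_of_mul_eq_one_left hpos.le h1.symm

theorem ord_eq_of_isNF (hS : RiemannSetting K F) (hQ : C.IsExt P Q) {π : F}
    (hπ : P.ord π = 1) {x : F'} {m : ℤ} (h : IsNF C P π x m) : Q.ord x = m := by
  rw [ord_eq_mul_of_isNF hQ hπ h, ord_ι_uniformizer hS hQ hπ, mul_one]

end Over

end AtPlace

/-! ## The interface statements PL-1, PL-2, PL-3 -/

/-- **PL-1** (existence). Over every place `P` of `F/K` there is a place of `F'/K'`. -/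
theorem exists_isExt (hS : RiemannSetting K F) (P : Place K F) :
    ∃ Q : Place K' F', C.IsExt P Q :=
  ⟨placeOver C P hS, isExt_placeOver C P hS⟩

/-- **PL-3** (no ramification). -/
theorem ord_eq_of_isExt (hS : RiemannSetting K F) {P : Place K F} {Q : Place K' F'}
    (h : C.IsExt P Q) (f : F) : Q.ord (C.ι f) = P.ord f := by
  rcases eq_or_ne f 0 with rfl | hf
  · simp
  obtain ⟨π, hπ⟩ := exists_uniformizer P
  exact ord_eq_of_isNF hS h hπ (isNF_ι C P hS hπ hf)

/-- The order at a place over `P` is the exponent of the normal form. -/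
theorem ord_eq_of_isExt_of_isExt (hS : RiemannSetting K F) {P : Place K F} {Q Q' : Place K' F'}
    (h : C.IsExt P Q) (h' : C.IsExt P Q') (x : F') : Q.ord x = Q'.ord x := by
  rcases eq_or_ne x 0 with rfl | hx
  · simp
  obtain ⟨π, hπ⟩ := exists_uniformizer P
  obtain ⟨m, hm⟩ := exists_isNF C P hS hπ hx
  rw [ord_eq_of_isNF hS h hπ hm, ord_eq_of_isNF hS h' hπ hm]

/-- **PL-2** (uniqueness). -/
theorem isExt_unique (hS : RiemannSetting K F) {P : Place K F} {Q Q' : Place K' F'}
    (h : C.IsExt P Q) (h' : C.IsExt P Q') : Q = Q' := by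
  apply Place.ext
  ext x
  rw [helper82.mem_iff_ord_nonneg, helper82.mem_iff_ord_nonneg,
    ord_eq_of_isExt_of_isExt C hS h h' x]

end Fermat.Agent.LEF.helper99
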