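import Mathlib
import Fermat.Agent.LEF.helper95_ActPlaces
import Fermat.Agent.LEF.helper95_Hecke
import Fermat.Agent.LEF.helper99_PlaceExt
import Fermat.Agent.LEF.helper69_PlB

/-!
# LEF: ACT-5, ACT-7 and HECKE, VERBATIM and unconditional (helper95)

The PL inputs (PL-1, PL-2, PL-3 of helper99 `helper99_PlaceExt`, PL-5 of helper69
`helper69_PlB`) are plugged into `helper95_ActPlaces` and `helper95_Hecke`.

* `V.plInputs`                   : `RiemannSetting K F → helper37.PLInputs C`
* `V.act_smul_of_isExt`          : ACT-5, VERBATIM
* `V.act_smul_con`               : ACT-7, VERBATIM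
* `V.conPic0_heckeOperatorAlong` : HECKE, VERBATIM
-/

set_option autoImplicit false
set_option linter.unusedVariables false

open AlgebraicCurve

namespace Fermat.Agent.LEF.helper95.V

open Fermat.Agent.LEF Fermat.Agent.P2.helper74 ModularCurve
open scoped Pointwise

section General

variable {K F K' F' : Type*} [Field K] [Field F] [Algebra K F] [Field K'] [Field F']
  [Algebra K' F'] (C : ConstExt K F K' F')

/-- The PL inputs of helper37 `PLInputs` hold over a `RiemannSetting` base. -/
theorem plInputs (hS : RiemannSetting K F) : helper37.PLInputs C where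
  exists_isExt := fun P => helper99.exists_isExt C hS P
  isExt_unique := fun h h' => helper99.isExt_unique C hS h h'
  ord_eq_of_isExt := fun h f => helper99.ord_eq_of_isExt C hS h f
  isNew_or_exists_isExt := fun Q => helper69.isNew_or_exists_isExt C Q

/-- **ACT-5**, VERBATIM: the places coming from `F` are fixed. -/
theorem act_smul_of_isExt (hS : RiemannSetting K F) (σ : RingAut K') (hσ : σ ∈ C.gal)
    {P : Place K F} {Q : Place K' F'} (h : C.IsExt P Q) : C.act σ • Q = Q :=
  helper95.act_smul_of_isExt C hS σ hσ (fun h h' => helper99.isExt_unique C hS h h') h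

/-- **ACT-7**, VERBATIM: conorms are invariant. -/
theorem act_smul_con (hS : RiemannSetting K F) (σ : RingAut K') (hσ : σ ∈ C.gal)
    (D : Divisor K F) : C.act σ • C.con D = C.con D :=
  helper95.act_smul_con C hS σ hσ (fun h h' => helper99.isExt_unique C hS h h') D

end General

section Hecke

variable {L L' : Type*} [Field L] [Algebra ℚ L] [Field L'] [Algebra ℚ L'] (j : L →+* L')

/-- **HECKE**, VERBATIM: the conorm commutes with the Hecke operators of the Prelude. -/
theorem conPic0_heckeOperatorAlong (N ℓ : ℕ) [NeZero N] [NeZero ℓ]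
    (C : ConstExt L (laurentBaseChange L (modularFunctionFieldFull N)) L'
      (laurentBaseChange L' (modularFunctionFieldFull N)))
    (hκ : C.κ = j)
    (hι : ∀ x : laurentBaseChange L (modularFunctionFieldFull N),
      ((C.ι x : laurentBaseChange L' (modularFunctionFieldFull N)) : LaurentSeries L') =
        coeffMap j (x : LaurentSeries L))
    (hH : HeckeInputsAlong L N ℓ) (hH' : HeckeInputsAlong L' N ℓ)
    (hS₁ : RiemannSetting L (laurentBaseChange L (modularFunctionFieldFull N)))
    (hS₂ : RiemannSetting L (laurentBaseChange L (modularFunctionFieldFull (N * ℓ))))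
    (hS₁' : RiemannSetting L' (laurentBaseChange L' (modularFunctionFieldFull N)))
    (hS₂' : RiemannSetting L' (laurentBaseChange L' (modularFunctionFieldFull (N * ℓ))))
    (c : Pic0 L (laurentBaseChange L (modularFunctionFieldFull N))) :
    C.conPic0 (heckeOperatorAlong L N ℓ c) = heckeOperatorAlong L' N ℓ (C.conPic0 c) :=
  helper95.conPic0_heckeOperatorAlong j N ℓ C hκ hι (fun h => plInputs C h)
    (fun C₂ h => plInputs C₂ h) hH hH' hS₁ hS₂ hS₁' hS₂' c

end Hecke

end Fermat.Agent.LEF.helper95.V
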