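/-
LEF-SQ (helper37, task 471): the VERBATIM, unconditional forms of SQ-2, SQ-3, SQ-4
(`con_pullbackAlong`, `con_pushforwardAlong`, `conPic0_correspondence`), obtained from the
conditional forms of `helper37_Square` and the PL inputs (`helper95.V.plInputs`:
PL-1,2,3 of helper99 and PL-5 of helper69).  SQ-1 `isExt_restrictAlong` is in `helper37_Square`.
-/
import Mathlib
import Fermat.Agent.LEF.helper37_Square
import Fermat.Agent.LEF.helper95_Verbatim

set_option autoImplicit false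

open AlgebraicCurve

namespace Fermat.Agent.LEF.helper37

open Fermat.Agent.LEF Fermat.Agent.P2.helper74

variable {K F₁ F₂ K' F₁' F₂' : Type*} [Field K] [Field F₁] [Field F₂] [Algebra K F₁]
  [Algebra K F₂] [Field K'] [Field F₁'] [Field F₂'] [Algebra K' F₁'] [Algebra K' F₂']
  (C₁ : ConstExt K F₁ K' F₁') (C₂ : ConstExt K F₂ K' F₂')
  (φ : F₁ →ₐ[K] F₂) (φ' : F₁' →ₐ[K'] F₂')
  (hφ : φ.toRingHom.IsIntegral) (hφ' : φ'.toRingHom.IsIntegral)

/-- **SQ-2**, verbatim: conorm commutes with pull-back of divisors. -/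
theorem con_pullbackAlong [HasPrincipalDivisors K F₂] [HasPrincipalDivisors K' F₂']
    (hsq : ∀ f : F₁, φ' (C₁.ι f) = C₂.ι (φ f))
    (hS₁ : RiemannSetting K F₁) (hS₂ : RiemannSetting K F₂)
    (hS₁' : RiemannSetting K' F₁') (hS₂' : RiemannSetting K' F₂') (D : Divisor K F₁) :
    C₂.con (Divisor.pullbackAlong φ hφ D) = Divisor.pullbackAlong φ' hφ' (C₁.con D) :=
  con_pullbackAlong_of C₁ C₂ φ φ' hφ hφ' (helper95.V.plInputs C₁ hS₁)
    (helper95.V.plInputs C₂ hS₂) hsq D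

/-- **SQ-3**, verbatim: conorm commutes with push-forward of divisors. -/
theorem con_pushforwardAlong (hsq : ∀ f : F₁, φ' (C₁.ι f) = C₂.ι (φ f))
    (hS₁ : RiemannSetting K F₁) (hS₂ : RiemannSetting K F₂)
    (hS₁' : RiemannSetting K' F₁') (hS₂' : RiemannSetting K' F₂') (E : Divisor K F₂) :
    C₁.con (Divisor.pushforwardAlong φ hφ E) = Divisor.pushforwardAlong φ' hφ' (C₂.con E) :=
  con_pushforwardAlong_of C₁ C₂ φ φ' hφ hφ' (helper95.V.plInputs C₁ hS₁)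
    (helper95.V.plInputs C₂ hS₂) hsq hS₁ hS₂ hS₁' hS₂' E

/-- **SQ-4**, verbatim: conorm commutes with correspondences on `Pic0`. -/
theorem conPic0_correspondence [HasPrincipalDivisors K F₂] [HasPrincipalDivisors K' F₂']
    (ψ : F₁ →ₐ[K] F₂) (ψ' : F₁' →ₐ[K'] F₂')
    (hψ : ψ.toRingHom.IsIntegral) (hψ' : ψ'.toRingHom.IsIntegral)
    (hsqφ : ∀ f : F₁, φ' (C₁.ι f) = C₂.ι (φ f)) (hsqψ : ∀ f : F₁, ψ' (C₁.ι f) = C₂.ι (ψ f))
    (hS₁ : RiemannSetting K F₁) (hS₂ : RiemannSetting K F₂)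
    (hS₁' : RiemannSetting K' F₁') (hS₂' : RiemannSetting K' F₂')
    (hFI : FundamentalIdentityAlong K φ hφ) (hfin : FiniteAlong K ψ)
    (hN : NormFormulaAlong K ψ hfin)
    (hFI' : FundamentalIdentityAlong K' φ' hφ') (hfin' : FiniteAlong K' ψ')
    (hN' : NormFormulaAlong K' ψ' hfin') (c : Pic0 K F₁) :
    C₁.conPic0 (Pic0.correspondence φ ψ hφ hψ hFI hfin hN c) =
      Pic0.correspondence φ' ψ' hφ' hψ' hFI' hfin' hN' (C₁.conPic0 c) :=
  conPic0_correspondence_of C₁ C₂ φ φ' hφ hφ' (helper95.V.plInputs C₁ hS₁)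
    (helper95.V.plInputs C₂ hS₂) ψ ψ' hψ hψ' hsqφ hsqψ hS₁ hS₂ hS₁' hS₂' hFI hfin hN hFI' hfin'
    hN' c

end Fermat.Agent.LEF.helper37
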