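import Mathlib
import Fermat.Agent.LEF.helper99_Defs

/-!
# LEF / P5L-DOM (helper57): tensor products of fields over an algebraically closed field

* `exists_algHom_apply_ne_zero` : (Nullstellensatz) a nonzero element of a finitely generated
  domain over an algebraically closed field `K` is nonzero at some `K`-point;
* `isDomain_tensorProduct` : `K' ⊗[K] F` is a domain for field extensions `K'`, `F` of an
  algebraically closed field `K`;
* `exists_constExt` : the constant field extension `F' = Frac (K' ⊗[K] F)` exists.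
-/

set_option autoImplicit false
set_option linter.style.haveILetI false
set_option linter.unusedSectionVars false

open TensorProduct

noncomputable section

namespace Fermat.Agent.LEF.helper57

universe u v w

/-! ## Nullstellensatz -/

/-- A nonzero element of a finitely generated domain over an algebraically closed field `K` is
nonzero at some `K`-point. -/
theorem exists_algHom_apply_ne_zero (K : Type*) [Field K] [IsAlgClosed K] (R : Type*)
    [CommRing R] [IsDomain R] [Algebra K R] [Algebra.FiniteType K R] {t : R} (ht : t ≠ 0) :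
    ∃ φ : R →ₐ[K] K, φ t ≠ 0 := by
  haveI : IsJacobsonRing R := isJacobsonRing_of_finiteType (A := K) (B := R)
  have hrad : (⊥ : Ideal R).IsRadical := Ideal.isRadical_bot
  have hj : (⊥ : Ideal R).jacobson = ⊥ := IsJacobsonRing.out inferInstance hrad
  have h1 : t ∉ (⊥ : Ideal R).jacobson := by
    rw [hj, Ideal.mem_bot]
    exact ht
  rw [Ideal.jacobson, Ideal.mem_sInf] at h1
  simp only [not_forall] at h1
  obtain ⟨𝔪, ⟨-, h𝔪⟩, ht𝔪⟩ := h1
  letI : Field (R ⧸ 𝔪) := Ideal.Quotient.field 𝔪
  haveI : Algebra.FiniteType K (R ⧸ 𝔪) :=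
    Algebra.FiniteType.of_surjective (Ideal.Quotient.mkₐ K 𝔪) (Ideal.Quotient.mkₐ_surjective K 𝔪)
  haveI : Module.Finite K (R ⧸ 𝔪) := finite_of_finite_type_of_isJacobsonRing K (R ⧸ 𝔪)
  haveI : Algebra.IsIntegral K (R ⧸ 𝔪) := Algebra.IsIntegral.of_finite K (R ⧸ 𝔪)
  have hbij : Function.Bijective (algebraMap K (R ⧸ 𝔪)) :=
    IsAlgClosed.algebraMap_bijective_of_isIntegral
  let e : K ≃ₐ[K] (R ⧸ 𝔪) := AlgEquiv.ofBijective (Algebra.ofId K (R ⧸ 𝔪)) hbij
  refine ⟨e.symm.toAlgHom.comp (Ideal.Quotient.mkₐ K 𝔪), ?_⟩
  intro h0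
  apply ht𝔪
  have h2 : e.symm (Ideal.Quotient.mkₐ K 𝔪 t) = 0 := h0
  have h3 : Ideal.Quotient.mkₐ K 𝔪 t = 0 := by
    have := congrArg e h2
    rwa [AlgEquiv.apply_symm_apply, map_zero] at this
  exact Ideal.Quotient.eq_zero_iff_mem.1 h3

/-! ## `K' ⊗[K] F` is a domain -/

section Dom

variable (K : Type u) (K' : Type w) (F : Type v) [Field K] [Field K'] [Field F]
  [Algebra K K'] [Algebra K F]

/-- the inclusion `R ⊗ F → K' ⊗ F` for a subalgebra `R ⊆ K'` -/
def inclMap (R : Subalgebra K K') : (R ⊗[K] F) →ₐ[K] (K' ⊗[K] F) :=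
  Algebra.TensorProduct.map R.val (AlgHom.id K F)

@[simp] lemma inclMap_tmul (R : Subalgebra K K') (r : R) (f : F) :
    inclMap K K' F R (r ⊗ₜ f) = (r : K') ⊗ₜ f := rfl

lemma inclMap_injective (R : Subalgebra K K') : Function.Injective (inclMap K K' F R) := by
  have h := Module.Flat.rTensor_preserves_injective_linearMap (M := F) R.val.toLinearMap
    Subtype.val_injective
  have e : ⇑(inclMap K K' F R) = ⇑(LinearMap.rTensor F R.val.toLinearMap) := by
    funext x
    induction x using TensorProduct.induction_on with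
    | zero => simp
    | tmul r f => rfl
    | add a b ha hb => rw [map_add, map_add, ha, hb]
  rw [e]
  exact h

/-- the specialisation `R ⊗ F → F` at a `K`-point `φ` of `R` -/
def specMap (R : Subalgebra K K') (φ : R →ₐ[K] K) : (R ⊗[K] F) →ₐ[K] F :=
  Algebra.TensorProduct.lift ((Algebra.ofId K F).comp φ) (AlgHom.id K F)
    (fun _ _ => Commute.all _ _)

@[simp] lemma specMap_tmul (R : Subalgebra K K') (φ : R →ₐ[K] K) (r : R) (f : F) :
    specMap K K' F R φ (r ⊗ₜ f) = φ r • f := by
  unfold specMap
  rw [Algebra.TensorProduct.lift_tmul, AlgHom.comp_apply, Algebra.ofId_apply, AlgHom.id_apply,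
    Algebra.smul_def]

variable {K K' F}

lemma repr_sum_smul {ι : Type*} (b : Module.Basis ι K F) (s : Finset ι) (c : ι → K) (j : ι)
    (hj : j ∈ s) : b.repr (∑ i ∈ s, c i • b i) j = c j := by
  classical
  rw [map_sum, Finsupp.finsetSum_apply]
  have : ∀ i ∈ s, (b.repr (c i • b i)) j = if i = j then c i else 0 := by
    intro i _
    rw [map_smul, Module.Basis.repr_self, Finsupp.smul_apply, Finsupp.single_apply, smul_eq_mul]
    split_ifs <;> simp
  rw [Finset.sum_congr rfl this, Finset.sum_ite_eq' s j, if_pos hj]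

variable (K K' F)

/-- **DOM**: over an algebraically closed field, the tensor product of two field extensions is a
domain. -/
theorem isDomain_tensorProduct [IsAlgClosed K] : IsDomain (K' ⊗[K] F) := by
  classical
  haveI : Nontrivial (K' ⊗[K] F) := inferInstance
  haveI : NoZeroDivisors (K' ⊗[K] F) := by
    refine ⟨fun {x y} hxy => ?_⟩
    by_contra hcon
    rw [not_or] at hcon
    obtain ⟨hx, hy⟩ := hcon
    let b := Module.Free.chooseBasis K F
    let B := b.baseChange K'
    -- coordinates
    have hxrepr : B.repr x ≠ 0 := fun h => hx (B.repr.map_eq_zero_iff.1 h)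
    have hyrepr : B.repr y ≠ 0 := fun h => hy (B.repr.map_eq_zero_iff.1 h)
    obtain ⟨i₀, hi₀⟩ := Finsupp.ne_iff.1 hxrepr
    obtain ⟨j₀, hj₀⟩ := Finsupp.ne_iff.1 hyrepr
    rw [Finsupp.zero_apply] at hi₀ hj₀
    let s : Finset K' := (B.repr x).support.image (B.repr x) ∪ (B.repr y).support.image (B.repr y)
    let R : Subalgebra K K' := Algebra.adjoin K (s : Set K')
    haveI : Algebra.FiniteType K R :=
      (Subalgebra.fg_iff_finiteType _).1 (Subalgebra.fg_adjoin_finset s)
    have hxR : ∀ i, B.repr x i ∈ R := by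
      intro i
      by_cases hi : i ∈ (B.repr x).support
      · exact Algebra.subset_adjoin (Finset.mem_coe.2
          (Finset.mem_union_left _ (Finset.mem_image_of_mem _ hi)))
      · rw [Finsupp.notMem_support_iff.1 hi]
        exact zero_mem _
    have hyR : ∀ i, B.repr y i ∈ R := by
      intro i
      by_cases hi : i ∈ (B.repr y).support
      · exact Algebra.subset_adjoin (Finset.mem_coe.2
          (Finset.mem_union_right _ (Finset.mem_image_of_mem _ hi)))
      · rw [Finsupp.notMem_support_iff.1 hi]
        exact zero_mem _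
    -- the point
    have ht : (⟨B.repr x i₀, hxR i₀⟩ : R) * ⟨B.repr y j₀, hyR j₀⟩ ≠ 0 := by
      refine mul_ne_zero ?_ ?_
      · intro h
        exact hi₀ (congrArg Subtype.val h)
      · intro h
        exact hj₀ (congrArg Subtype.val h)
    obtain ⟨φ, hφ⟩ := exists_algHom_apply_ne_zero K R ht
    rw [map_mul] at hφ
    have hφx : φ ⟨B.repr x i₀, hxR i₀⟩ ≠ 0 := left_ne_zero_of_mul hφ
    have hφy : φ ⟨B.repr y j₀, hyR j₀⟩ ≠ 0 := right_ne_zero_of_mul hφ
    -- lifts to `R ⊗ F`
    let xR : R ⊗[K] F := ∑ i ∈ (B.repr x).support, (⟨B.repr x i, hxR i⟩ : R) ⊗ₜ[K] b i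
    let yR : R ⊗[K] F := ∑ i ∈ (B.repr y).support, (⟨B.repr y i, hyR i⟩ : R) ⊗ₜ[K] b i
    have key : ∀ z : K' ⊗[K] F, (∑ i ∈ (B.repr z).support, (B.repr z i) ⊗ₜ[K] b i) = z := by
      intro z
      conv_rhs => rw [← B.linearCombination_repr z, Finsupp.linearCombination_apply]
      unfold Finsupp.sum
      refine Finset.sum_congr rfl fun i _ => ?_
      have hB : B i = (1 : K') ⊗ₜ[K] b i := Module.Basis.baseChange_apply K' b i
      change _ = (B.repr z i) • B i
      rw [hB, TensorProduct.smul_tmul', smul_eq_mul, mul_one]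
    have hxincl : inclMap K K' F R xR = x := by
      rw [map_sum]
      exact key x
    have hyincl : inclMap K K' F R yR = y := by
      rw [map_sum]
      exact key y
    have hprod : xR * yR = 0 := by
      apply inclMap_injective K K' F R
      rw [map_mul, hxincl, hyincl, hxy, map_zero]
    have hspec : specMap K K' F R φ xR * specMap K K' F R φ yR = 0 := by
      rw [← map_mul, hprod, map_zero]
    have hsx : specMap K K' F R φ xR ≠ 0 := by
      intro h
      have h1 : b.repr (specMap K K' F R φ xR) i₀ = φ ⟨B.repr x i₀, hxR i₀⟩ := by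
        have e : specMap K K' F R φ xR =
            ∑ i ∈ (B.repr x).support, φ ⟨B.repr x i, hxR i⟩ • b i := by
          rw [map_sum]
          exact Finset.sum_congr rfl fun i _ => specMap_tmul K K' F R φ _ _
        rw [e]
        exact repr_sum_smul b _ _ i₀ (Finsupp.mem_support_iff.2 hi₀)
      rw [h, map_zero, Finsupp.zero_apply] at h1
      exact hφx h1.symm
    have hsy : specMap K K' F R φ yR ≠ 0 := by
      intro h
      have h1 : b.repr (specMap K K' F R φ yR) j₀ = φ ⟨B.repr y j₀, hyR j₀⟩ := by
        have e : specMap K K' F R φ yR =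
            ∑ i ∈ (B.repr y).support, φ ⟨B.repr y i, hyR i⟩ • b i := by
          rw [map_sum]
          exact Finset.sum_congr rfl fun i _ => specMap_tmul K K' F R φ _ _
        rw [e]
        exact repr_sum_smul b _ _ j₀ (Finsupp.mem_support_iff.2 hj₀)
      rw [h, map_zero, Finsupp.zero_apply] at h1
      exact hφy h1.symm
    exact (mul_ne_zero hsx hsy) hspec
  exact NoZeroDivisors.to_isDomain _

end Dom

/-! ## The constant field extension -/

section Model

/-- **MODEL-1**: the constant field extension exists (`F' = Frac (K' ⊗[K] F)`). -/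
theorem exists_constExt (K : Type u) (F : Type v) (K' : Type w) [Field K] [Field F]
    [Algebra K F] [Field K'] [IsAlgClosed K] (κ : K →+* K') :
    ∃ (F' : Type (max v w)) (_ : Field F') (_ : Algebra K' F') (C : ConstExt K F K' F'),
      C.κ = κ := by
  letI : Algebra K K' := κ.toAlgebra
  haveI : IsDomain (K' ⊗[K] F) := isDomain_tensorProduct K K' F
  let A := K' ⊗[K] F
  let F' := FractionRing A
  let ι : F →+* F' := (algebraMap A F').comp
    (Algebra.TensorProduct.includeRight : F →ₐ[K] K' ⊗[K] F).toRingHom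
  have hι : ∀ f : F, ι f = algebraMap A F' ((1 : K') ⊗ₜ[K] f) := fun f => rfl
  have hK' : ∀ c : K', algebraMap K' F' c = algebraMap A F' (c ⊗ₜ[K] (1 : F)) := by
    intro c
    rw [IsScalarTower.algebraMap_apply K' A F']
    rfl
  refine ⟨F', inferInstance, inferInstance, ⟨κ, ι, ?_, ?_, ?_⟩, rfl⟩
  · -- comm
    intro a
    rw [hι, hK']
    congr 1
    rw [Algebra.algebraMap_eq_smul_one, TensorProduct.tmul_smul, TensorProduct.smul_tmul',
      Algebra.smul_def, mul_one]
    rfl
  · -- gen
    rw [eq_top_iff]
    intro z _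
    set S := Subfield.closure (Set.range (algebraMap K' F') ∪ Set.range ι) with hS
    have hA : ∀ x : A, algebraMap A F' x ∈ S := by
      intro x
      induction x using TensorProduct.induction_on with
      | zero =>
        rw [map_zero]
        exact zero_mem S
      | tmul c f =>
        have e : (c ⊗ₜ[K] f : A) = (c ⊗ₜ[K] (1 : F)) * ((1 : K') ⊗ₜ[K] f) := by
          rw [Algebra.TensorProduct.tmul_mul_tmul, mul_one, one_mul]
        rw [e, map_mul]
        refine mul_mem ?_ ?_
        · rw [← hK']
          exact Subfield.subset_closure (Or.inl ⟨c, rfl⟩)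
        · rw [← hι]
          exact Subfield.subset_closure (Or.inr ⟨f, rfl⟩)
      | add x y hx hy =>
        rw [map_add]
        exact add_mem hx hy
    obtain ⟨x, y, -, rfl⟩ := IsFractionRing.div_surjective (A := A) z
    exact div_mem (hA x) (hA y)
  · -- linDisj
    intro n f hf
    have h1 : LinearIndependent K' (fun i => (1 : K') ⊗ₜ[K] f i) :=
      Module.Flat.linearIndependent_one_tmul (S := K') hf
    have h2 := h1.map' (IsScalarTower.toAlgHom K' A F').toLinearMap
      (LinearMap.ker_eq_bot.2 (IsFractionRing.injective A F'))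
    exact h2

end Model

end Fermat.Agent.LEF.helper57
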