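import Fermat.Agent.LEF.helper99_L5Final
import Fermat.Agent.P2.helper74_RiemannSep

/-!
# LEF, package P5L-GENUS (helper60, task 575): invariance of the Riemann genus

* `riemannGenus_eq_of` : conditional form (inputs `ℓ(Con D) = ℓ(D)`, `deg (Con D) = deg D` as
  hypotheses; no hypothesis on the constant fields);
* `riemannGenus_eq` : VERBATIM the statement GENUS-R of helper99's P5-LEF interface
  (`blueprints/LEF/helper99_P5LEFInterface.lean`), in terms of `HasRiemannGenus`
  (thin wrapper over `helper99.riemannGenus_eq` / `helper99.ell_con` / `helper7.degree_con`).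
-/

set_option autoImplicit false

open AlgebraicCurve

namespace Fermat.Agent.LEF.helper60

open Fermat.Agent.LEF Fermat.Agent.P2.helper74

/-- **GENUS-R**, conditional form: the Riemann genus is invariant under a constant field
extension for which `ℓ(Con D) = ℓ(D)` and `deg (Con D) = deg D`. -/
theorem riemannGenus_eq_of {K F K' F' : Type*} [Field K] [Field F] [Algebra K F] [Field K']
    [Field F'] [Algebra K' F'] (C : ConstExt K F K' F')
    (hS : RiemannSetting K F)
    (hell : ∀ D : Divisor K F, ell (C.con D) = ell D)
    (hdeg : ∀ D : Divisor K F, Divisor.degree (C.con D) = Divisor.degree D)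
    {g g' : ℕ} (hg : HasRiemannGenus K F g) (hg' : HasRiemannGenus K' F' g') : g' = g := by
  obtain ⟨c, hc⟩ := hg
  obtain ⟨c', hc'⟩ := hg'
  obtain ⟨P⟩ := hS.nonempty
  have hD : Divisor.degree (Finsupp.single P (max c c') : Divisor K F) = max c c' := by
    rw [Divisor.degree_single, hS.deg_one P]
    simp
  have h1 := hc (Finsupp.single P (max c c')) (by rw [hD]; exact le_max_left _ _)
  have h2 := hc' (C.con (Finsupp.single P (max c c')))
    (by rw [hdeg, hD]; exact le_max_right _ _)
  rw [hell, hdeg] at h2
  omega

/-- **GENUS-R**: the Riemann genus is invariant under constant field extension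
(`ℓ(Con D) = ℓ(D)`, `deg (Con D) = deg D` for `D = n • P`, `n` large). -/
theorem riemannGenus_eq {K F K' F' : Type*} [Field K] [Field F] [Algebra K F] [Field K']
    [Field F'] [Algebra K' F'] [IsAlgClosed K] [IsAlgClosed K'] (C : ConstExt K F K' F')
    (hS : RiemannSetting K F) (hS' : RiemannSetting K' F') {g g' : ℕ}
    (hg : HasRiemannGenus K F g) (hg' : HasRiemannGenus K' F' g') : g' = g :=
  riemannGenus_eq_of C hS (fun D => helper99.ell_con C hS hS' D)
    (fun D => helper7.degree_con C hS hS' D) hg hg'

end Fermat.Agent.LEF.helper60
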