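import Mathlib
import Fermat.Agent.LEF.helper99_Defs
import Fermat.Agent.P2.helper74_Riemann

/-!
# LEF, package L5 (helper63, task 467): `L(Con D) = K' ⊗ L(D)`

For a constant field extension `C : ConstExt K F K' F'`:

* `riemannRochSpace_con_of` (L5a): `L(Con D) = K'`-span of `ι (L(D))`;
* `ell_con_of` (L5b): `ℓ(Con D) = ℓ(D)`;
* `riemann_inequality_con_of` (L5c): Riemann's inequality transfers from `F` to `F'`;
* `conPic0_injective_of` (L4): the conorm is injective on divisor classes of degree `0`.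

The statements of the other LEF packages which are used (PL-1, PL-3, PL-5, CON-2, CON-3,
CON-4/6, ACT-7, FIX-3) enter through the structure `L5Inputs C`, whose fields are exactly the
interface statements (`helper99_LEFInterface`) for the given `C`.
-/

set_option autoImplicit false

open AlgebraicCurve

namespace Fermat.Agent.LEF.helper63

open Fermat.Agent.LEF Fermat.Agent.P2.helper74

variable {K F K' F' : Type*} [Field K] [Field F] [Algebra K F] [Field K'] [Field F']
  [Algebra K' F'] (C : ConstExt K F K' F')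

/-- The statements of the other LEF packages used by L5, for a fixed `C`
(names and shapes as in `helper99_LEFInterface`). -/
structure L5Inputs : Prop where
  /-- PL-1 -/
  exists_isExt : ∀ P : Place K F, ∃ Q : Place K' F', C.IsExt P Q
  /-- PL-3 -/
  ord_eq_of_isExt : ∀ {P : Place K F} {Q : Place K' F'}, C.IsExt P Q →
    ∀ f : F, Q.ord (C.ι f) = P.ord f
  /-- PL-5 -/
  isNew_or_exists_isExt : ∀ Q : Place K' F', C.IsNew Q ∨ ∃ P : Place K F, C.IsExt P Q
  /-- CON-2 -/
  con_apply_of_isExt : ∀ {P : Place K F} {Q : Place K' F'}, C.IsExt P Q →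
    ∀ D : Divisor K F, C.con D Q = D P
  /-- CON-3 -/
  con_apply_of_isNew : ∀ {Q : Place K' F'}, C.IsNew Q → ∀ D : Divisor K F, C.con D Q = 0
  /-- CON-6 (its first component is CON-4) -/
  conOK : C.ConOK
  /-- ACT-7 -/
  act_smul_con : ∀ σ ∈ C.gal, ∀ D : Divisor K F, C.act σ • C.con D = C.con D
  /-- FIX-3 -/
  span_inter_eq_of_stable : ∀ M : Submodule K' F', Module.Finite K' M →
    (∀ σ ∈ C.gal, ∀ x ∈ M, C.act σ • x ∈ M) →
    M = Submodule.span K' (C.ι '' {f : F | C.ι f ∈ M})

variable {C}

/-- PL-6 (direct proof): a nonzero element of `F` is a unit at every new place. -/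
theorem ord_ι_eq_zero_of_isNew {Q : Place K' F'} (h : C.IsNew Q) {f : F} (_hf : f ≠ 0) :
    Q.ord (C.ι f) = 0 := by
  have h1 : 0 ≤ Q.ord (C.ι f) := (Fermat.Agent.S24.helper82.mem_iff_ord_nonneg Q).mp (h f)
  have h2 : 0 ≤ Q.ord (C.ι f⁻¹) := (Fermat.Agent.S24.helper82.mem_iff_ord_nonneg Q).mp (h f⁻¹)
  rw [map_inv₀, Q.ord_inv] at h2
  omega

/-- CON-7 (direct proof from the definition). -/
theorem conPic0_mk_of (h : C.ConOK) (D : Divisor.degZero (K := K) (F := F)) :
    C.conPic0 (Pic0.mk D) = Pic0.mk (C.conDegZero h D) := by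
  unfold ConstExt.conPic0
  rw [dif_pos h]
  rfl

theorem ι_algebraMap_smul (c : K) (f : F) : C.ι (c • f) = C.κ c • C.ι f := by
  rw [Algebra.smul_def, map_mul, C.comm, Algebra.smul_def]

/-- `ι f ∈ L(Con D)` for `f ∈ L(D)`. -/
theorem ι_mem_L_con (hI : L5Inputs C) {D : Divisor K F} {f : F}
    (hf : f ∈ riemannRochSpace D) : C.ι f ∈ riemannRochSpace (C.con D) := by
  rcases eq_or_ne f 0 with rfl | hf0
  · rw [map_zero]; exact Submodule.zero_mem _
  have hιf0 : C.ι f ≠ 0 := (map_ne_zero C.ι).mpr hf0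
  rw [mem_L_iff' hιf0]
  intro Q
  rcases hI.isNew_or_exists_isExt Q with hQ | ⟨P, hPQ⟩
  · rw [hI.con_apply_of_isNew hQ, ord_ι_eq_zero_of_isNew hQ hf0]
    simp
  · rw [hI.con_apply_of_isExt hPQ, hI.ord_eq_of_isExt hPQ]
    exact (mem_L_iff' hf0).mp hf P

/-- `f ∈ L(D)` if `ι f ∈ L(Con D)`. -/
theorem mem_L_of_ι_mem_L_con (hI : L5Inputs C) {D : Divisor K F} {f : F}
    (hf : C.ι f ∈ riemannRochSpace (C.con D)) : f ∈ riemannRochSpace D := by
  rcases eq_or_ne f 0 with rfl | hf0
  · exact Submodule.zero_mem _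
  have hιf0 : C.ι f ≠ 0 := (map_ne_zero C.ι).mpr hf0
  rw [mem_L_iff' hf0]
  intro P
  obtain ⟨Q, hPQ⟩ := hI.exists_isExt P
  have := (mem_L_iff' hιf0).mp hf Q
  rwa [hI.con_apply_of_isExt hPQ, hI.ord_eq_of_isExt hPQ] at this

/-- `L(Con D)` is stable under the semilinear action of `Aut(K'/K)`. -/
theorem act_smul_mem_L_con (hI : L5Inputs C) (D : Divisor K F) (σ : RingAut K')
    (hσ : σ ∈ C.gal) {x : F'} (hx : x ∈ riemannRochSpace (C.con D)) :
    C.act σ • x ∈ riemannRochSpace (C.con D) := by
  rcases eq_or_ne x 0 with rfl | hx0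
  · rw [smul_zero]; exact Submodule.zero_mem _
  have hgx0 : C.act σ • x ≠ 0 := by
    rw [SemilinearAut.smul_def]
    exact (map_ne_zero (SemilinearAut.toRingAut (C.act σ))).mpr hx0
  rw [mem_L_iff' hgx0]
  intro Q
  have h1 := SemilinearAut.ord_smul (C.act σ) ((C.act σ)⁻¹ • Q) x
  rw [smul_inv_smul] at h1
  have h2 := SemilinearAut.divisor_smul_apply (C.act σ) (C.con D) Q
  rw [hI.act_smul_con σ hσ D] at h2
  rw [h1, h2]
  exact (mem_L_iff' hx0).mp hx _

/-- **L5a**, conditional on `L5Inputs`: `L(Con D) = K' ⊗ L(D)`. -/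
theorem riemannRochSpace_con_of (hI : L5Inputs C)
    (hS' : RiemannSetting K' F') (D : Divisor K F) :
    riemannRochSpace (C.con D) =
      Submodule.span K' (C.ι '' (riemannRochSpace D : Set F)) := by
  apply le_antisymm
  · have hfd : Module.Finite K' (riemannRochSpace (C.con D)) := finiteDimensional_L hS' (C.con D)
    have h := hI.span_inter_eq_of_stable (riemannRochSpace (C.con D)) hfd
      (fun σ hσ x hx => act_smul_mem_L_con hI D σ hσ hx)
    rw [h]
    apply Submodule.span_mono
    rintro _ ⟨f, hf, rfl⟩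
    exact ⟨f, mem_L_of_ι_mem_L_con hI hf, rfl⟩
  · rw [Submodule.span_le]
    rintro _ ⟨f, hf, rfl⟩
    exact ι_mem_L_con hI hf

/-- The dimension of the `K'`-span of `ι V` for a finite-dimensional `K`-subspace `V` of `F`
(linear disjointness). -/
theorem finrank_span_ι_image (V : Submodule K F) [FiniteDimensional K V] :
    Module.finrank K' (Submodule.span K' (C.ι '' (V : Set F))) = Module.finrank K V := by
  classical
  set n := Module.finrank K V with hn
  let b : Module.Basis (Fin n) K V := Module.finBasis K V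
  have hli : LinearIndependent K (fun i => ((b i : V) : F)) :=
    b.linearIndependent.map' V.subtype (Submodule.ker_subtype _)
  have hli' : LinearIndependent K' (fun i => C.ι ((b i : V) : F)) := C.linDisj n _ hli
  have hspan : Submodule.span K' (C.ι '' (V : Set F))
      = Submodule.span K' (Set.range fun i => C.ι ((b i : V) : F)) := by
    apply le_antisymm
    · rw [Submodule.span_le]
      rintro _ ⟨g, hg, rfl⟩
      have hsum := b.sum_repr ⟨g, hg⟩
      have hsum' : g = ∑ i, b.repr ⟨g, hg⟩ i • ((b i : V) : F) := by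
        have := congrArg (fun x : V => (x : F)) hsum
        simp only [Submodule.coe_sum, Submodule.coe_smul] at this
        exact this.symm
      rw [hsum', map_sum]
      refine Submodule.sum_mem _ fun i _ => ?_
      rw [ι_algebraMap_smul]
      exact Submodule.smul_mem _ _ (Submodule.subset_span ⟨i, rfl⟩)
    · apply Submodule.span_mono
      rintro _ ⟨i, rfl⟩
      exact ⟨_, (b i).2, rfl⟩
  rw [hspan, finrank_span_eq_card hli', Fintype.card_fin]

/-- **L5b**, conditional on `L5Inputs`: `ℓ(Con D) = ℓ(D)`. -/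
theorem ell_con_of (hI : L5Inputs C) (hS : RiemannSetting K F)
    (hS' : RiemannSetting K' F') (D : Divisor K F) : ell (C.con D) = ell D := by
  have : FiniteDimensional K (riemannRochSpace D) := finiteDimensional_L hS D
  unfold ell
  rw [riemannRochSpace_con_of hI hS' D]
  exact finrank_span_ι_image (riemannRochSpace D)

/-- **L5c**, conditional on `L5Inputs`: Riemann's inequality transfers from `F` to `F'` with
the same constant. -/
theorem riemann_inequality_con_of (hI : L5Inputs C) (hS : RiemannSetting K F)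
    (hS' : RiemannSetting K' F') (g : ℤ)
    (hR : ∀ D : Divisor K F, Divisor.degree D + 1 - g ≤ (ell D : ℤ)) :
    ∀ D : Divisor K' F', Divisor.degree D + 1 - g ≤ (ell D : ℤ) := by
  apply riemann_inequality_of_family hS' g
  intro n
  obtain ⟨P₀⟩ := hS.nonempty
  refine ⟨C.con (Finsupp.single P₀ n), ?_, ?_⟩
  · rw [hI.conOK.1, Divisor.degree_single, hS.deg_one]
    simp
  · rw [hI.conOK.1, ell_con_of hI hS hS']
    exact hR _

/-- **L4**, conditional on `L5Inputs`: the conorm is injective on divisor classes. -/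
theorem conPic0_injective_of (hI : L5Inputs C) (hS : RiemannSetting K F)
    (hS' : RiemannSetting K' F') : Function.Injective C.conPic0 := by
  rw [injective_iff_map_eq_zero]
  intro c hc
  obtain ⟨D, rfl⟩ := Pic0.mk_surjective c
  rw [conPic0_mk_of hI.conOK] at hc
  have hprin : C.con (D : Divisor K F) ∈ Divisor.principal (K := K') (F := F') := by
    have h := (QuotientAddGroup.eq_zero_iff _).mp hc
    rw [AddSubgroup.mem_addSubgroupOf] at h
    exact h
  obtain ⟨h', hh'0, hh'⟩ := hprin
  -- `h'⁻¹ ∈ L(Con D)`, hence `ℓ(Con D) > 0`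
  have hmem : h'⁻¹ ∈ riemannRochSpace (C.con (D : Divisor K F)) := by
    rw [mem_L_iff' (inv_ne_zero hh'0)]
    intro Q
    rw [Q.ord_inv, hh' Q]
  have hpos' : 0 < ell (C.con (D : Divisor K F)) := by
    have : FiniteDimensional K' (riemannRochSpace (C.con (D : Divisor K F))) :=
      finiteDimensional_L hS' _
    unfold ell
    rw [Module.finrank_pos_iff_exists_ne_zero]
    exact ⟨⟨h'⁻¹, hmem⟩, fun h0 => inv_ne_zero hh'0 (congrArg Subtype.val h0)⟩
  rw [ell_con_of hI hS hS'] at hpos'
  obtain ⟨f, hf0, hf⟩ := exists_ne_zero_of_ell_pos hpos'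
  obtain ⟨Z, hZ, hZdeg⟩ := hS.principal.exists_divisor f hf0
  -- `D + div f` is effective of degree `0`, hence `0`
  have hE0 : ∀ v, 0 ≤ ((D : Divisor K F) + Z) v := fun v => by
    rw [Finsupp.add_apply, hZ]
    have := (mem_L_iff' hf0).mp hf v
    omega
  have hEdeg : Divisor.degree ((D : Divisor K F) + Z) = 0 := by
    rw [map_add, hZdeg, add_zero]
    exact D.2
  have hEz : ∀ v, ((D : Divisor K F) + Z) v = 0 := by
    intro v
    by_contra hne
    have hlt : 0 < ((D : Divisor K F) + Z) v := lt_of_le_of_ne (hE0 v) (Ne.symm hne)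
    have := degree_pos_of_pos hS.deg_one hE0 hlt
    omega
  -- hence `D = div f⁻¹`
  have hDprin : (D : Divisor K F) ∈ Divisor.principal (K := K) (F := F) := by
    refine ⟨f⁻¹, inv_ne_zero hf0, fun v => ?_⟩
    have := hEz v
    rw [Finsupp.add_apply, hZ] at this
    rw [v.ord_inv]
    omega
  show Pic0.mk D = 0
  exact (QuotientAddGroup.eq_zero_iff _).mpr (AddSubgroup.mem_addSubgroupOf.mpr hDprin)

end Fermat.Agent.LEF.helper63
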