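import Mathlib
import Fermat.Agent.S24.helper75_FFCore2
import Fermat.Prelude.Def_AlgebraicCurve_IsCurveOver

/-!
# P5-LEF, package CURVE-2 (helper67, task 571)

A function field of one variable over an algebraically closed field of characteristic `0`
(`x` transcendental, `[F : K(x)] < ∞`) is a curve in the sense of the Prelude (`IsCurveOver`)
and is essentially of finite type.  Pure wiring of the S24 function-field library.
Statement VERBATIM from `helper99_P5LEFInterface.lean`.
-/

set_option autoImplicit false

open AlgebraicCurve IntermediateField

namespace Fermat.Agent.LEF.helper67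

universe u v w

/-- **CURVE-2**: a function field over an algebraically closed field of characteristic `0` is a
curve in the sense of the Prelude. -/
theorem isCurveOver_of_transcendental (K : Type u) (F : Type v) [Field K] [Field F]
    [Algebra K F] [IsAlgClosed K] [CharZero K] (x : F) (hx : Transcendental K x)
    [FiniteDimensional K⟮x⟯ F] : IsCurveOver K F ∧ Algebra.EssFiniteType K F := by
  refine ⟨?_, Fermat.Agent.S24.helper82.essFiniteType_of_finite_adjoin x⟩
  have hP : HasPrincipalDivisors K F := Fermat.Agent.S24.helper75.ff_hasPrincipalDivisors x hx
  refine { toHasPrincipalDivisors := hP, finiteResidue := ?_, kaehler_free_rank_one := ?_ }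
  · intro v
    have h1 : Module.finrank K v.ResidueField = 1 :=
      Fermat.Agent.S24.helper82.ff_deg_eq_one x hx v
    exact Module.finite_of_finrank_pos (by rw [h1]; exact Nat.one_pos)
  · refine ⟨Module.Free.of_divisionRing F _, ?_⟩
    have hxr : x ∉ Set.range (algebraMap K F) := by
      rintro ⟨a, rfl⟩
      exact hx (isAlgebraic_algebraMap a)
    have hspan := Fermat.Agent.S24.helper82.ff_span_D_eq_top x hx x hxr
    have hne := Fermat.Agent.S24.helper82.ff_D_ne_zero x hx x hxr
    rw [← finrank_top F, ← hspan]
    exact finrank_span_singleton hne

end Fermat.Agent.LEF.helper67
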