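import Mathlib
import Fermat.Agent.LEF.helper99_Defs
import Fermat.Agent.P2.helper74_Riemann

/-!
# LEF, package L6-R (helper67, task 468): pure Riemann theory

* `existsUnique_effective_of_ell_eq_one` (**L6c**): if `ℓ(E) = 1` the class of `E` contains
  exactly one effective divisor;
* `exists_ell_add_eq_one` (**L6d**): for every divisor `D` and place `v` there is `m` with
  `ℓ(D + m v) = 1`, given Riemann's inequality.

Statements VERBATIM from `helper99_LEFInterface.lean`.
-/

set_option autoImplicit false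

open AlgebraicCurve

namespace Fermat.Agent.LEF.helper67

open Fermat.Agent.LEF Fermat.Agent.P2.helper74

variable {K F K' F' : Type*} [Field K] [Field F] [Algebra K F] [Field K'] [Field F']
  [Algebra K' F'] (C : ConstExt K F K' F')

/-- **L6c** (pure Riemann theory in `F'`): if `ℓ(E) = 1` the class of `E` contains exactly one
effective divisor. -/
theorem existsUnique_effective_of_ell_eq_one (hS' : RiemannSetting K' F') (E : Divisor K' F')
    (hE : ell E = 1) :
    ∃! E₁ : Divisor K' F', (∀ v, 0 ≤ E₁ v) ∧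
      (E₁ - E) ∈ Divisor.principal (K := K') (F := F') := by
  obtain ⟨z, hz0, hz⟩ := exists_ne_zero_of_ell_pos (D := E) (by rw [hE]; exact Nat.one_pos)
  obtain ⟨Z, hZ, -⟩ := hS'.principal.exists_divisor z hz0
  refine ⟨E + Z, ⟨fun v => ?_, ?_⟩, ?_⟩
  · rw [Finsupp.add_apply, hZ]
    have := (mem_L_iff' hz0).mp hz v
    omega
  · rw [add_sub_cancel_left]
    exact ⟨z, hz0, hZ⟩
  · rintro E₂ ⟨hE₂, w, hw0, hw⟩
    have hwL : w ∈ riemannRochSpace E := by
      rw [mem_L_iff' hw0]
      intro v
      have h1 := hw v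
      have h2 := hE₂ v
      rw [Finsupp.sub_apply] at h1
      omega
    have hz' : (⟨z, hz⟩ : riemannRochSpace E) ≠ 0 := fun h => hz0 (congrArg Subtype.val h)
    obtain ⟨c, hc⟩ := (finrank_eq_one_iff_of_nonzero' (⟨z, hz⟩ : riemannRochSpace E) hz').mp hE
      ⟨w, hwL⟩
    have hcw : algebraMap K' F' c * z = w := by
      have := congrArg Subtype.val hc
      simpa [Algebra.smul_def] using this
    have hc0 : algebraMap K' F' c ≠ 0 := by
      intro h
      rw [h, zero_mul] at hcw
      exact hw0 hcw.symm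
    ext v
    have h1 := hw v
    rw [Finsupp.sub_apply] at h1
    rw [Finsupp.add_apply, hZ]
    have h2 : v.ord w = v.ord z := by
      rw [← hcw, v.ord_mul hc0 hz0, Fermat.Agent.S24.helper82.ord_algebraMap, zero_add]
    omega

/-- **L6d** (pure Riemann theory in `F'`): for every divisor `D` and place `v` there is `m` with
`ℓ(D + m v) = 1`, given Riemann's inequality. -/
theorem exists_ell_add_eq_one (hS' : RiemannSetting K' F')
    (hR : ∃ g : ℤ, ∀ D : Divisor K' F', Divisor.degree D + 1 - g ≤ (ell D : ℤ))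
    (D : Divisor K' F') (v : Place K' F') :
    ∃ m : ℤ, ell (D + Finsupp.single v m) = 1 := by
  classical
  obtain ⟨g, hg⟩ := hR
  have hdeg : ∀ m : ℤ, Divisor.degree (D + Finsupp.single v m) = Divisor.degree D + m := by
    intro m
    rw [map_add, Divisor.degree_single, hS'.deg_one v]
    simp
  set m₀ : ℤ := -Divisor.degree D - 1 with hm₀
  let f : ℕ → ℕ := fun n => ell (D + Finsupp.single v (m₀ + n))
  have hf0 : f 0 = 0 := by
    change ell (D + Finsupp.single v (m₀ + ((0 : ℕ) : ℤ))) = 0
    have hneg : Divisor.degree (D + Finsupp.single v (m₀ + ((0 : ℕ) : ℤ))) < 0 := by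
      rw [hdeg]
      push_cast
      omega
    unfold ell
    rw [L_eq_bot_of_degree_neg hS' hneg, finrank_bot]
  have hstep : ∀ n, f (n + 1) ≤ f n + 1 := by
    intro n
    have h := ell_le_of_le hS' (D := D + Finsupp.single v (m₀ + n))
      (D' := D + Finsupp.single v (m₀ + ((n + 1 : ℕ) : ℤ))) (fun w => by
        rw [Finsupp.add_apply, Finsupp.add_apply, Finsupp.single_apply, Finsupp.single_apply]
        split_ifs
        · push_cast
          omega
        · exact le_rfl)
    rw [hdeg, hdeg] at h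
    have h' : ((f (n + 1) : ℕ) : ℤ) ≤ (f n : ℤ) + 1 := by
      change ((ell (D + Finsupp.single v (m₀ + ((n + 1 : ℕ) : ℤ))) : ℕ) : ℤ) ≤
        ((ell (D + Finsupp.single v (m₀ + (n : ℤ))) : ℕ) : ℤ) + 1
      push_cast at h ⊢
      linarith
    exact_mod_cast h'
  have hex : ∃ n, 1 ≤ f n := by
    refine ⟨(g + 1).toNat, ?_⟩
    have h := hg (D + Finsupp.single v (m₀ + ((g + 1).toNat : ℤ)))
    rw [hdeg] at h
    have h1 : g + 1 ≤ ((g + 1).toNat : ℤ) := Int.self_le_toNat _
    have h2 : (1 : ℤ) ≤ (f (g + 1).toNat : ℤ) := by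
      change (1 : ℤ) ≤ ((ell (D + Finsupp.single v (m₀ + ((g + 1).toNat : ℤ))) : ℕ) : ℤ)
      omega
    exact_mod_cast h2
  have hmin : ∀ {k : ℕ}, k < Nat.find hex → ¬ 1 ≤ f k := fun {k} hk => Nat.find_min hex hk
  have hspec := Nat.find_spec hex
  rcases Nat.eq_zero_or_pos (Nat.find hex) with h0 | hpos
  · rw [h0, hf0] at hspec
    omega
  · obtain ⟨k, hk⟩ := Nat.exists_eq_succ_of_ne_zero hpos.ne'
    have hk1 : ¬ 1 ≤ f k := hmin (by rw [hk]; exact Nat.lt_succ_self k)
    have hk2 := hstep k
    rw [hk] at hspec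
    refine ⟨m₀ + ((k + 1 : ℕ) : ℤ), ?_⟩
    change f (k + 1) = 1
    have : f k = 0 := by omega
    rw [Nat.succ_eq_add_one] at hspec
    omega

end Fermat.Agent.LEF.helper67
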