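import Fermat.Agent.LEF.helper77_AutInv
import Fermat.Agent.S28.helper25_Descent

/-!
# LEF-AUT (helper77), part 2: coefficientwise descent of Laurent series

For algebraically closed fields `K ⊆ L`:

* `exists_coeffMap_eq_of_fixed` : a Laurent series over `L` fixed coefficientwise by all of
  `Aut(L/K)` is the image of a Laurent series over `K`.
* `exists_coeffMap_eq_of_finite_orbit` : the same for a series whose coefficients have finite
  orbits under a finite-index subgroup (in particular: a series with finite `H`-orbit).
* `exists_mem_laurentBaseChange_of_fixed` : an element of `laurentBaseChange L F₀` fixed by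
  `Aut(L/K)` comes from `laurentBaseChange K F₀` (Prelude vocabulary).
-/

set_option autoImplicit false

open ModularCurve

namespace Fermat.Agent.LEF.helper77

variable {K L : Type*} [Field K] [Field L] [Algebra K L]

/-- A Laurent series over `L` all of whose coefficients lie in `K` is the image of a Laurent
series over `K`. -/
theorem exists_coeffMap_eq_of_coeff_mem (x : LaurentSeries L)
    (hx : ∀ k : ℤ, x.coeff k ∈ (algebraMap K L).range) :
    ∃ y : LaurentSeries K, coeffMap (algebraMap K L) y = x := by
  classical
  choose c hc using hx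
  have hsupp : (Function.support c) ⊆ x.support := by
    intro k hk
    rw [HahnSeries.mem_support]
    rw [Function.mem_support] at hk
    rw [← hc k]
    exact fun h => hk ((algebraMap K L).injective (by rw [h, map_zero]))
  refine ⟨⟨c, x.isPWO_support.mono hsupp⟩, ?_⟩
  ext k
  rw [coeffMap_coeff]
  exact hc k

/-- Coefficients of a coefficientwise fixed series are fixed. -/
theorem coeff_fixed_of_coeffMap_fixed {σ : L ≃ₐ[K] L} {x : LaurentSeries L}
    (hx : coeffMap (σ : L →+* L) x = x) (k : ℤ) : σ (x.coeff k) = x.coeff k := by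
  have := congrArg (fun z : LaurentSeries L => z.coeff k) hx
  simpa using this

/-- **Coefficientwise fixed field**: for `K ⊆ L` algebraically closed, a Laurent series over `L`
fixed coefficientwise by every `K`-automorphism of `L` comes from `K((q))`. -/
theorem exists_coeffMap_eq_of_fixed [IsAlgClosed K] [IsAlgClosed L] (x : LaurentSeries L)
    (hx : ∀ σ : L ≃ₐ[K] L, coeffMap (σ : L →+* L) x = x) :
    ∃ y : LaurentSeries K, coeffMap (algebraMap K L) y = x :=
  exists_coeffMap_eq_of_coeff_mem x fun k =>
    mem_range_of_forall_algEquiv_fixed fun σ => coeff_fixed_of_coeffMap_fixed (hx σ) k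

/-- **Coefficientwise finite orbits**: for `K ⊆ L` algebraically closed and `H ≤ Aut(L/K)` of
finite index, a Laurent series over `L` with finite coefficientwise `H`-orbit comes from
`K((q))`. -/
theorem exists_coeffMap_eq_of_finite_orbit [IsAlgClosed K] [IsAlgClosed L]
    (H : Subgroup (L ≃ₐ[K] L)) [H.FiniteIndex] (x : LaurentSeries L)
    (hx : (Set.range fun h : H => coeffMap (((h : L ≃ₐ[K] L)) : L →+* L) x).Finite) :
    ∃ y : LaurentSeries K, coeffMap (algebraMap K L) y = x := by
  refine exists_coeffMap_eq_of_coeff_mem x fun k => mem_range_of_finite_orbit H ?_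
  refine (hx.image fun z : LaurentSeries L => z.coeff k).subset ?_
  rintro _ ⟨h, rfl⟩
  exact ⟨_, ⟨h, rfl⟩, by simp⟩

section Prelude

variable [Algebra ℚ K] [Algebra ℚ L]

theorem coeffEmb_eq_coeffMap_comp (z : LaurentSeries ℚ) :
    coeffEmb L z = coeffMap (algebraMap K L) (coeffEmb K z) := by
  rw [coeffEmb, coeffEmb, coeffMap_coeffMap]
  exact coeffMap_congr (Subsingleton.elim _ _) z

/-- the base change to `L` is generated by the image of the base change to `K` -/
theorem coeffMap_mem_laurentBaseChange_of_mem (F₀ : IntermediateField ℚ (LaurentSeries ℚ))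
    {y : LaurentSeries K} (hy : y ∈ laurentBaseChange K F₀) :
    coeffMap (algebraMap K L) y ∈ laurentBaseChange L F₀ := by
  rw [mem_laurentBaseChange_iff] at hy
  induction hy using Subfield.closure_induction with
  | mem z hz =>
      rcases hz with ⟨a, rfl⟩ | ⟨w, hw, rfl⟩
      · have : coeffMap (algebraMap K L) (algebraMap K (LaurentSeries K) a)
            = algebraMap L (LaurentSeries L) (algebraMap K L a) := by
          rw [algebraMap_laurentSeries_eq_single, algebraMap_laurentSeries_eq_single,
            coeffMap_single]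
        rw [this]
        exact (laurentBaseChange L F₀).algebraMap_mem _
      · rw [← coeffEmb_eq_coeffMap_comp]
        exact coeffEmb_mem_laurentBaseChange L hw
  | one => simp
  | add x y _ _ hx hy => simpa using add_mem hx hy
  | neg x _ hx => simpa using neg_mem hx
  | inv x _ hx => simpa using inv_mem hx
  | mul x y _ _ hx hy => simpa using mul_mem hx hy

/-- **Intersection**: `F_L ∩ K((q)) = F_K` for the Prelude base changes (any fields `K ⊆ L` of
characteristic zero); from `helper25.mem_adjoin_of_coeffMap_mem_adjoin`. -/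
theorem mem_laurentBaseChange_of_coeffMap_mem (F₀ : IntermediateField ℚ (LaurentSeries ℚ))
    {y : LaurentSeries K} (hy : coeffMap (algebraMap K L) y ∈ laurentBaseChange L F₀) :
    y ∈ laurentBaseChange K F₀ := by
  have himg : (⇑(coeffEmb L) '' (F₀ : Set (LaurentSeries ℚ)))
      = ⇑(coeffMap (algebraMap K L)) '' (⇑(coeffEmb K) '' (F₀ : Set (LaurentSeries ℚ))) := by
    rw [Set.image_image]
    exact Set.image_congr fun z _ => coeffEmb_eq_coeffMap_comp (K := K) (L := L) z
  have h : coeffMap (algebraMap K L) y ∈ IntermediateField.adjoin L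
      (⇑(coeffMap (algebraMap K L)) '' (⇑(coeffEmb K) '' (F₀ : Set (LaurentSeries ℚ)))) := by
    rw [← himg]; exact hy
  exact Fermat.Agent.S28.helper25.mem_adjoin_of_coeffMap_mem_adjoin _ y h

theorem mem_laurentBaseChange_iff_coeffMap_mem (F₀ : IntermediateField ℚ (LaurentSeries ℚ))
    {y : LaurentSeries K} :
    coeffMap (algebraMap K L) y ∈ laurentBaseChange L F₀ ↔ y ∈ laurentBaseChange K F₀ :=
  ⟨mem_laurentBaseChange_of_coeffMap_mem F₀, coeffMap_mem_laurentBaseChange_of_mem F₀⟩

/-- **Galois descent for the Prelude base change**: for `K ⊆ L` algebraically closed, an element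
of `laurentBaseChange L F₀` fixed coefficientwise by `Aut(L/K)` is the image of an element of
`laurentBaseChange K F₀`. -/
theorem exists_mem_laurentBaseChange_of_fixed [IsAlgClosed K] [IsAlgClosed L]
    (F₀ : IntermediateField ℚ (LaurentSeries ℚ)) {x : LaurentSeries L}
    (hx : x ∈ laurentBaseChange L F₀)
    (hfix : ∀ σ : L ≃ₐ[K] L, coeffMap (σ : L →+* L) x = x) :
    ∃ y ∈ laurentBaseChange K F₀, coeffMap (algebraMap K L) y = x := by
  obtain ⟨y, hy⟩ := exists_coeffMap_eq_of_fixed x hfix
  exact ⟨y, mem_laurentBaseChange_of_coeffMap_mem F₀ (by rw [hy]; exact hx), hy⟩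

/-- Finite-orbit version of `exists_mem_laurentBaseChange_of_fixed`. -/
theorem exists_mem_laurentBaseChange_of_finite_orbit [IsAlgClosed K] [IsAlgClosed L]
    (H : Subgroup (L ≃ₐ[K] L)) [H.FiniteIndex]
    (F₀ : IntermediateField ℚ (LaurentSeries ℚ)) {x : LaurentSeries L}
    (hx : x ∈ laurentBaseChange L F₀)
    (hfin : (Set.range fun h : H => coeffMap (((h : L ≃ₐ[K] L)) : L →+* L) x).Finite) :
    ∃ y ∈ laurentBaseChange K F₀, coeffMap (algebraMap K L) y = x := by
  obtain ⟨y, hy⟩ := exists_coeffMap_eq_of_finite_orbit H x hfin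
  exact ⟨y, mem_laurentBaseChange_of_coeffMap_mem F₀ (by rw [hy]; exact hx), hy⟩

end Prelude

end Fermat.Agent.LEF.helper77
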