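import Fermat.Agent.LEF.helper77_AutInv
import Fermat.Agent.LEF.helper99_Defs

/-!
# LEF-GAL (helper77): the field theory of `K'/K` in `ConstExt` vocabulary

Verbatim statements GAL-1 (`mem_range_of_fixed`) and GAL-2 (`infinite_orbit`) of the LEF
interface (helper99), deduced from the generic `Fermat.Agent.LEF.helper77` field theory
(`helper77_AutInv.lean`).
-/

set_option autoImplicit false

open AlgebraicCurve

namespace Fermat.Agent.LEF.helper77

open Fermat.Agent.LEF

variable {K F K' F' : Type*} [Field K] [Field F] [Algebra K F] [Field K'] [Field F']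
  [Algebra K' F'] (C : ConstExt K F K' F')

/-- a `κ`-algebra automorphism of `K'` is an element of `C.gal` -/
theorem algEquiv_mem_gal (σ : @AlgEquiv K K' K' _ _ _ C.κ.toAlgebra C.κ.toAlgebra) :
    (@AlgEquiv.toRingEquiv K K' K' _ _ _ C.κ.toAlgebra C.κ.toAlgebra σ : RingAut K') ∈ C.gal := by
  letI : Algebra K K' := C.κ.toAlgebra
  intro a
  exact σ.commutes a

/-- translation automorphisms in `C.gal` -/
theorem exists_mem_gal_apply_eq_add [IsAlgClosed K] [IsAlgClosed K'] (c : K')
    (hc : c ∉ Set.range C.κ) (a : K) : ∃ σ ∈ C.gal, σ c = c + C.κ a := by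
  letI : Algebra K K' := C.κ.toAlgebra
  have hc' : c ∉ (algebraMap K K').range := fun h => hc h
  obtain ⟨σ, hσ⟩ := exists_algEquiv_apply_eq_add (transcendental_of_not_mem_range hc') a
  exact ⟨σ.toRingEquiv, algEquiv_mem_gal C σ, hσ⟩

/-- **GAL-1**: `K'^{Aut(K'/K)} = K` for algebraically closed `K ⊆ K'`. -/
theorem mem_range_of_fixed [IsAlgClosed K] [IsAlgClosed K'] (c : K')
    (hc : ∀ σ ∈ C.gal, σ c = c) : c ∈ Set.range C.κ := by
  by_contra hmem
  obtain ⟨σ, hσ, h⟩ := exists_mem_gal_apply_eq_add C c hmem 1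
  rw [hc σ hσ] at h
  simp at h

/-- **GAL-2**: elements of `K' ∖ K` have infinite orbits under every subgroup of finite index of
`Aut(K'/K)`. -/
theorem infinite_orbit [IsAlgClosed K] [IsAlgClosed K'] [CharZero K]
    (H : Subgroup (RingAut K')) (hH : H ≤ C.gal) (hfin : (H.subgroupOf C.gal).FiniteIndex)
    (c : K') (hc : c ∉ Set.range C.κ) : {d : K' | ∃ σ ∈ H, σ c = d}.Infinite := by
  intro hfinite
  -- the orbit under `C.gal` is finite
  have h1 : (Set.range fun h : H.subgroupOf C.gal => ((h : C.gal) : RingAut K') c).Finite := by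
    refine hfinite.subset ?_
    rintro _ ⟨h, rfl⟩
    exact ⟨_, h.2, rfl⟩
  have h2 : (Set.range fun g : C.gal => (g : RingAut K') c).Finite :=
    finite_range_of_finiteIndex (G := C.gal) (X := K') (H.subgroupOf C.gal) c h1
  -- but it contains all translates
  have hinj : Function.Injective (fun a : K => c + C.κ a) := by
    intro a b hab
    exact C.κ.injective (add_left_cancel hab)
  refine (Set.infinite_range_of_injective hinj) (h2.subset ?_)
  rintro _ ⟨a, rfl⟩
  obtain ⟨σ, hσ, h⟩ := exists_mem_gal_apply_eq_add C c hc a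
  exact ⟨⟨σ, hσ⟩, h⟩

end Fermat.Agent.LEF.helper77
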