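import Fermat.Agent.LEF.helper37_Square
import Fermat.Agent.LEF.helper69_PlB

/-!
# LEF-CON (helper7, task 462): the conorm on divisors and on `Pic0`

For a constant field extension `C : ConstExt K F K' F'`, conditional on the place package
PL-A (PL-1 `exists_isExt`, PL-2 `isExt_unique`, PL-3 `ord_eq_of_isExt`), given here as
`I : helper37.PLInputs C` (PL-5 is helper69's `isNew_or_exists_isExt`, see `plInputs_of`):

* `con_single_of_isExt_of`, `con_apply_of_isExt_of`, `con_apply_of_isNew_of` (CON-1,2,3);
* `degree_con_of` (CON-4) : `deg (Con D) = deg D`;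
* `con_apply_of_principal_of` (CON-5) : `Con (div f) = div (ι f)`;
* `conOK_of` (CON-6) : `C.ConOK`;
* `conPic0_mk` (CON-7, unconditional, VERBATIM);
* extras: `con_injective_of`, `con_nonneg_iff_of`, `con_le_iff_of`, `coe_conDegZero`,
  `conPic0_mk_of`, `con_mem_principal_of`, `mem_principal_of_con_eq_of`.

The names of the LEF interface (without `_of`) are reserved for the VERBATIM versions, which
need PL-A on main.
-/

set_option autoImplicit false

open AlgebraicCurve

namespace Fermat.Agent.LEF.helper7

open Fermat.Agent.LEF Fermat.Agent.P2.helper74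

variable {K F K' F' : Type*} [Field K] [Field F] [Algebra K F] [Field K'] [Field F']
  [Algebra K' F'] (C : ConstExt K F K' F')

/-- `PLInputs` from PL-1, PL-2, PL-3 alone (PL-5 is helper69's theorem). -/
theorem plInputs_of
    (h1 : ∀ P : Place K F, ∃ Q : Place K' F', C.IsExt P Q)
    (h2 : ∀ {P : Place K F} {Q Q' : Place K' F'}, C.IsExt P Q → C.IsExt P Q' → Q = Q')
    (h3 : ∀ {P : Place K F} {Q : Place K' F'}, C.IsExt P Q → ∀ f : F, Q.ord (C.ι f) = P.ord f) :
    helper37.PLInputs C :=
  ⟨h1, h2, h3, helper69.isNew_or_exists_isExt C⟩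

/-- **CON-1** (conditional on PL-A). -/
theorem con_single_of_isExt_of (I : helper37.PLInputs C) {P : Place K F} {Q : Place K' F'}
    (h : C.IsExt P Q) (n : ℤ) : C.con (Finsupp.single P n) = Finsupp.single Q n :=
  helper37.con_single_of_isExt I h n

/-- **CON-2** (conditional on PL-A). -/
theorem con_apply_of_isExt_of (I : helper37.PLInputs C) {P : Place K F} {Q : Place K' F'}
    (h : C.IsExt P Q) (D : Divisor K F) : C.con D Q = D P :=
  helper37.con_apply_of_isExt I h D

/-- **CON-3** (conditional on PL-A). -/
theorem con_apply_of_isNew_of (I : helper37.PLInputs C) {Q : Place K' F'} (h : C.IsNew Q)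
    (D : Divisor K F) : C.con D Q = 0 :=
  helper37.con_apply_of_isNew I h D

/-- **CON-4** (conditional on PL-A): the conorm preserves degrees (only `deg_one` of the two
settings is used). -/
theorem degree_con_of' (I : helper37.PLInputs C) (hdeg : ∀ v : Place K F, v.deg = 1)
    (hdeg' : ∀ v : Place K' F', v.deg = 1) (D : Divisor K F) :
    Divisor.degree (C.con D) = Divisor.degree D := by
  classical
  induction D using Finsupp.induction_linear with
  | zero => simp
  | add D E hD hE => rw [map_add, map_add, map_add, hD, hE]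
  | single P n =>
    obtain ⟨Q, hQ⟩ := I.exists_isExt P
    rw [helper37.con_single_of_isExt I hQ, Divisor.degree_single, Divisor.degree_single,
      hdeg, hdeg']

/-- **CON-4** (conditional on PL-A). -/
theorem degree_con_of (I : helper37.PLInputs C) (hS : RiemannSetting K F)
    (hS' : RiemannSetting K' F') (D : Divisor K F) :
    Divisor.degree (C.con D) = Divisor.degree D :=
  degree_con_of' C I hS.deg_one hS'.deg_one D

/-- **CON-5** (conditional on PL-A): the conorm of the divisor of `f` is the divisor of
`ι f`. -/
theorem con_apply_of_principal_of (I : helper37.PLInputs C) {f : F} (hf : f ≠ 0)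
    {D : Divisor K F} (hD : ∀ v : Place K F, D v = v.ord f) (Q : Place K' F') :
    C.con D Q = Q.ord (C.ι f) := by
  rcases I.isNew_or_exists_isExt Q with hnew | ⟨P, hP⟩
  · rw [helper37.con_apply_of_isNew I hnew, helper69.ord_eq_zero_of_isNew C hnew hf]
  · rw [helper37.con_apply_of_isExt I hP, hD, I.ord_eq_of_isExt hP]

/-- the conorm of a principal divisor is principal (conditional on PL-A) -/
theorem con_mem_principal_of (I : helper37.PLInputs C) {D : Divisor K F}
    (hD : D ∈ Divisor.principal (K := K) (F := F)) :
    C.con D ∈ Divisor.principal (K := K') (F := F') := by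
  obtain ⟨f, hf, hD⟩ := hD
  exact ⟨C.ι f, (map_ne_zero C.ι).mpr hf, fun Q => con_apply_of_principal_of C I hf hD Q⟩

/-- **CON-6** (conditional on PL-A; only `deg_one` of the two settings is used). -/
theorem conOK_of' (I : helper37.PLInputs C) (hdeg : ∀ v : Place K F, v.deg = 1)
    (hdeg' : ∀ v : Place K' F', v.deg = 1) : C.ConOK :=
  ⟨degree_con_of' C I hdeg hdeg', fun _ hD => con_mem_principal_of C I hD⟩

/-- **CON-6** (conditional on PL-A). -/
theorem conOK_of (I : helper37.PLInputs C) (hS : RiemannSetting K F)
    (hS' : RiemannSetting K' F') : C.ConOK :=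
  conOK_of' C I hS.deg_one hS'.deg_one

/-- **CON-7** (VERBATIM, unconditional). -/
theorem conPic0_mk (h : C.ConOK) (D : Divisor.degZero (K := K) (F := F)) :
    C.conPic0 (Pic0.mk D) = Pic0.mk (C.conDegZero h D) :=
  helper37.conPic0_mk h D

/-! ## Extras -/

@[simp]
theorem coe_conDegZero (h : C.ConOK) (D : Divisor.degZero (K := K) (F := F)) :
    (C.conDegZero h D : Divisor K' F') = C.con (D : Divisor K F) := rfl

/-- CON-7 with `ConOK` discharged (conditional on PL-A). -/
theorem conPic0_mk_of (I : helper37.PLInputs C) (hS : RiemannSetting K F)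
    (hS' : RiemannSetting K' F') (D : Divisor.degZero (K := K) (F := F)) :
    C.conPic0 (Pic0.mk D) = Pic0.mk (C.conDegZero (conOK_of C I hS hS') D) :=
  conPic0_mk C _ D

/-- the conorm is injective on divisors (conditional on PL-A) -/
theorem con_injective_of (I : helper37.PLInputs C) : Function.Injective C.con := by
  rw [injective_iff_map_eq_zero]
  intro D hD
  ext P
  obtain ⟨Q, hQ⟩ := I.exists_isExt P
  rw [← helper37.con_apply_of_isExt I hQ D, hD]
  rfl

/-- `Con D ≤ Con E ↔ D ≤ E` coefficientwise (conditional on PL-A) -/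
theorem con_le_iff_of (I : helper37.PLInputs C) (D E : Divisor K F) :
    (∀ Q : Place K' F', C.con D Q ≤ C.con E Q) ↔ ∀ P : Place K F, D P ≤ E P := by
  constructor
  · intro h P
    obtain ⟨Q, hQ⟩ := I.exists_isExt P
    have := h Q
    rwa [helper37.con_apply_of_isExt I hQ, helper37.con_apply_of_isExt I hQ] at this
  · intro h Q
    rcases I.isNew_or_exists_isExt Q with hnew | ⟨P, hP⟩
    · rw [helper37.con_apply_of_isNew I hnew, helper37.con_apply_of_isNew I hnew]
    · rw [helper37.con_apply_of_isExt I hP, helper37.con_apply_of_isExt I hP]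
      exact h P

/-- `Con D` is effective iff `D` is (conditional on PL-A) -/
theorem con_nonneg_iff_of (I : helper37.PLInputs C) (D : Divisor K F) :
    (∀ Q : Place K' F', 0 ≤ C.con D Q) ↔ ∀ P : Place K F, 0 ≤ D P := by
  have h := con_le_iff_of C I 0 D
  simpa using h

/-- if `Con D` is the divisor of `ι f` then `D` is the divisor of `f` (conditional on PL-A) -/
theorem apply_eq_ord_of_con_eq_of (I : helper37.PLInputs C) {f : F} {D : Divisor K F}
    (h : ∀ Q : Place K' F', C.con D Q = Q.ord (C.ι f)) (P : Place K F) : D P = P.ord f := by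
  obtain ⟨Q, hQ⟩ := I.exists_isExt P
  rw [← helper37.con_apply_of_isExt I hQ D, h Q, I.ord_eq_of_isExt hQ]

/-- the support of a conorm consists of places lying over places of `F` -/
theorem exists_isExt_of_con_apply_ne_zero_of (I : helper37.PLInputs C) {D : Divisor K F}
    {Q : Place K' F'} (h : C.con D Q ≠ 0) : ∃ P : Place K F, C.IsExt P Q ∧ D P ≠ 0 := by
  rcases I.isNew_or_exists_isExt Q with hnew | ⟨P, hP⟩
  · exact absurd (helper37.con_apply_of_isNew I hnew D) h
  · exact ⟨P, hP, by rwa [helper37.con_apply_of_isExt I hP] at h⟩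

end Fermat.Agent.LEF.helper7
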