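import Fermat.Agent.LEF.helper7_Con
import Fermat.Agent.LEF.helper99_PlaceExt

/-!
# LEF-CON (helper7, task 462): the conorm on divisors and on `Pic0` — VERBATIM, unconditional

The statements CON-1 .. CON-6 of helper99's LEF interface, with PL-A
(`helper99_PlaceExt`: `exists_isExt`, `isExt_unique`, `ord_eq_of_isExt`) and PL-B
(`helper69_PlB`) discharged.  CON-7 (`conPic0_mk`) is in `helper7_Con`.
-/

set_option autoImplicit false

open AlgebraicCurve

namespace Fermat.Agent.LEF.helper7

open Fermat.Agent.LEF Fermat.Agent.P2.helper74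

variable {K F K' F' : Type*} [Field K] [Field F] [Algebra K F] [Field K'] [Field F']
  [Algebra K' F'] (C : ConstExt K F K' F')

/-- The place inputs PL-1, PL-2, PL-3, PL-5 for a constant field extension of a
`RiemannSetting`. -/
theorem plInputs (hS : RiemannSetting K F) : helper37.PLInputs C :=
  plInputs_of C (helper99.exists_isExt C hS) (fun h h' => helper99.isExt_unique C hS h h')
    (fun h f => helper99.ord_eq_of_isExt C hS h f)

/-- **CON-1**. -/
theorem con_single_of_isExt (hS : RiemannSetting K F) {P : Place K F} {Q : Place K' F'}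
    (h : C.IsExt P Q) (n : ℤ) : C.con (Finsupp.single P n) = Finsupp.single Q n :=
  con_single_of_isExt_of C (plInputs C hS) h n

/-- **CON-2**. -/
theorem con_apply_of_isExt (hS : RiemannSetting K F) {P : Place K F} {Q : Place K' F'}
    (h : C.IsExt P Q) (D : Divisor K F) : C.con D Q = D P :=
  con_apply_of_isExt_of C (plInputs C hS) h D

/-- **CON-3**. -/
theorem con_apply_of_isNew (hS : RiemannSetting K F) {Q : Place K' F'} (h : C.IsNew Q)
    (D : Divisor K F) : C.con D Q = 0 :=
  con_apply_of_isNew_of C (plInputs C hS) h D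

/-- **CON-4**. -/
theorem degree_con (hS : RiemannSetting K F) (hS' : RiemannSetting K' F') (D : Divisor K F) :
    Divisor.degree (C.con D) = Divisor.degree D :=
  degree_con_of C (plInputs C hS) hS hS' D

/-- **CON-5**: the conorm of the divisor of `f` is the divisor of `ι f`. -/
theorem con_apply_of_principal (hS : RiemannSetting K F) {f : F} (hf : f ≠ 0)
    {D : Divisor K F} (hD : ∀ v : Place K F, D v = v.ord f) (Q : Place K' F') :
    C.con D Q = Q.ord (C.ι f) :=
  con_apply_of_principal_of C (plInputs C hS) hf hD Q

/-- **CON-6**. -/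
theorem conOK (hS : RiemannSetting K F) (hS' : RiemannSetting K' F') : C.ConOK :=
  conOK_of C (plInputs C hS) hS hS'

/-! ## Extras (unconditional versions) -/

/-- CON-7 with `ConOK` discharged. -/
theorem conPic0_mk' (hS : RiemannSetting K F) (hS' : RiemannSetting K' F')
    (D : Divisor.degZero (K := K) (F := F)) :
    C.conPic0 (Pic0.mk D) = Pic0.mk (C.conDegZero (conOK C hS hS') D) :=
  conPic0_mk C _ D

/-- the conorm of a principal divisor is principal -/
theorem con_mem_principal (hS : RiemannSetting K F) {D : Divisor K F}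
    (hD : D ∈ Divisor.principal (K := K) (F := F)) :
    C.con D ∈ Divisor.principal (K := K') (F := F') :=
  con_mem_principal_of C (plInputs C hS) hD

/-- the conorm is injective on divisors -/
theorem con_injective (hS : RiemannSetting K F) : Function.Injective C.con :=
  con_injective_of C (plInputs C hS)

/-- `Con D ≤ Con E ↔ D ≤ E` coefficientwise -/
theorem con_le_iff (hS : RiemannSetting K F) (D E : Divisor K F) :
    (∀ Q : Place K' F', C.con D Q ≤ C.con E Q) ↔ ∀ P : Place K F, D P ≤ E P :=
  con_le_iff_of C (plInputs C hS) D E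

/-- `Con D` is effective iff `D` is -/
theorem con_nonneg_iff (hS : RiemannSetting K F) (D : Divisor K F) :
    (∀ Q : Place K' F', 0 ≤ C.con D Q) ↔ ∀ P : Place K F, 0 ≤ D P :=
  con_nonneg_iff_of C (plInputs C hS) D

/-- if `Con D` is the divisor of `ι f` then `D` is the divisor of `f` -/
theorem apply_eq_ord_of_con_eq (hS : RiemannSetting K F) {f : F} {D : Divisor K F}
    (h : ∀ Q : Place K' F', C.con D Q = Q.ord (C.ι f)) (P : Place K F) : D P = P.ord f :=
  apply_eq_ord_of_con_eq_of C (plInputs C hS) h P

/-- the support of a conorm consists of places lying over places of `F` -/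
theorem exists_isExt_of_con_apply_ne_zero (hS : RiemannSetting K F) {D : Divisor K F}
    {Q : Place K' F'} (h : C.con D Q ≠ 0) : ∃ P : Place K F, C.IsExt P Q ∧ D P ≠ 0 :=
  exists_isExt_of_con_apply_ne_zero_of C (plInputs C hS) h

end Fermat.Agent.LEF.helper7
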