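import Mathlib
import Fermat.Agent.LEF.helper99_PlaceExt
import Fermat.Agent.LEF.helper69_PlB
import Fermat.Agent.LEF.helper27_Act
import Fermat.Agent.LEF.helper95_ActPlaces
import Fermat.Agent.LEF.helper77_Gal
import Fermat.Agent.LEF.helper67_L6R
import Fermat.Agent.LEF.helper37_Square

/-!
# LEF / L6 (helper82, task 469): torsion descent

VERBATIM and UNCONDITIONAL statements L6a, L6b, L6 of the LEF interface (helper99):

* `exists_isExt_of_finite_orbit` (L6a) : a place of `F'/K'` with finite orbit under a subgroup of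
  finite index of `Aut(K'/K)` lies over a place of `F/K`;
* `exists_con_eq_of_stable` (L6b) : a divisor of `F'` fixed by a subgroup of finite index is a
  conorm;
* `exists_conPic0_eq_of_finite` (L6) : if `Pic0(F')[n]` is finite, all its classes are conorms.

Also (needed on the way, CON-4 / CON-5 / CON-6 of the interface): `l6_degree_con`,
`l6_con_apply_of_principal`, `l6_conOK`.

Uses the landed packages PL-A (helper99), PL-B (helper69), ACT-A (helper27), ACT-B (helper95),
GAL (helper77), L6-R (helper67) and the conorm lemmas of helper37.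
-/

set_option autoImplicit false
set_option linter.unusedVariables false

open AlgebraicCurve

namespace Fermat.Agent.LEF.helper82

open Fermat.Agent.LEF Fermat.Agent.P2.helper74

variable {K F K' F' : Type*} [Field K] [Field F] [Algebra K F] [Field K'] [Field F']
  [Algebra K' F'] (C : ConstExt K F K' F')

/-! ## Preliminaries -/

/-- the PL inputs of helper37's conorm lemmas, from the landed PL-A / PL-B -/
theorem l6_plInputs (hS : RiemannSetting K F) : helper37.PLInputs C where
  exists_isExt := fun P => helper99.exists_isExt C hS P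
  isExt_unique := fun h h' => helper99.isExt_unique C hS h h'
  ord_eq_of_isExt := fun h f => helper99.ord_eq_of_isExt C hS h f
  isNew_or_exists_isExt := fun Q => helper69.isNew_or_exists_isExt C Q

/-- **CON-4**. -/
theorem l6_degree_con (hS : RiemannSetting K F) (hS' : RiemannSetting K' F')
    (D : Divisor K F) : Divisor.degree (C.con D) = Divisor.degree D := by
  classical
  induction D using Finsupp.induction_linear with
  | zero => simp
  | add D E hD hE => rw [map_add, map_add, map_add, hD, hE]
  | single P n =>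
    obtain ⟨Q, hQ⟩ := helper99.exists_isExt C hS P
    rw [helper37.con_single_of_isExt (l6_plInputs C hS) hQ, Divisor.degree_single,
      Divisor.degree_single, hS.deg_one, hS'.deg_one]

/-- **CON-5**: the conorm of the divisor of `f` is the divisor of `ι f`. -/
theorem l6_con_apply_of_principal (hS : RiemannSetting K F) {f : F} (hf : f ≠ 0)
    {D : Divisor K F} (hD : ∀ v : Place K F, D v = v.ord f) (Q : Place K' F') :
    C.con D Q = Q.ord (C.ι f) := by
  rcases helper69.isNew_or_exists_isExt C Q with h | ⟨P, hP⟩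
  · rw [helper37.con_apply_of_isNew (l6_plInputs C hS) h, helper69.ord_eq_zero_of_isNew C h hf]
  · rw [helper37.con_apply_of_isExt (l6_plInputs C hS) hP, hD,
      helper99.ord_eq_of_isExt C hS hP]

/-- **CON-6**. -/
theorem l6_conOK (hS : RiemannSetting K F) (hS' : RiemannSetting K' F') : C.ConOK := by
  refine ⟨l6_degree_con C hS hS', ?_⟩
  rintro D ⟨f, hf, hD⟩
  exact ⟨C.ι f, (map_ne_zero C.ι).mpr hf, fun Q => l6_con_apply_of_principal C hS hf hD Q⟩

/-- principal divisors have degree `0` -/
theorem l6_degree_eq_zero_of_principal (hS : RiemannSetting K F) {D : Divisor K F}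
    (hD : D ∈ Divisor.principal (K := K) (F := F)) : Divisor.degree D = 0 := by
  obtain ⟨f, hf, hD⟩ := hD
  obtain ⟨D₂, hD₂, hdeg⟩ := hS.principal.exists_divisor f hf
  have : D = D₂ := Finsupp.ext fun v => by rw [hD v, hD₂ v]
  rw [this, hdeg]

/-- uniqueness of the residue of `x` at a place -/
theorem l6_residue_unique (Q : Place K F) (x : F) {c c' : K}
    (h : 0 < Q.ord (x - algebraMap K F c)) (h' : 0 < Q.ord (x - algebraMap K F c')) :
    c = c' := by
  by_contra hne
  have hsub : algebraMap K F (c' - c) ≠ 0 := by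
    rw [Ne, map_eq_zero, sub_eq_zero]
    exact fun h => hne h.symm
  have heq : (x - algebraMap K F c) + (algebraMap K F c' - x) = algebraMap K F (c' - c) := by
    rw [map_sub]; ring
  have hswap : Q.ord (algebraMap K F c' - x) = Q.ord (x - algebraMap K F c') := by
    simp only [Place.ord]
    rw [Valuation.map_sub_swap]
  have h1 := ord_add_ge Q (f := x - algebraMap K F c) (g := algebraMap K F c' - x)
    (by rw [heq]; exact hsub)
  rw [heq, Fermat.Agent.S24.helper82.ord_algebraMap, hswap] at h1
  have := lt_min h h'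
  omega

/-- there is a function in `F` with a simple zero at some place -/
theorem l6_exists_ord_eq_one (hS : RiemannSetting K F) :
    ∃ (P : Place K F) (f : F), P.ord f = 1 := by
  obtain ⟨P⟩ := hS.nonempty
  obtain ⟨π, hπ⟩ := IsDiscreteValuationRing.exists_irreducible P.toValuationSubring
  exact ⟨P, (π : F), P.ord_coe_irreducible hπ⟩

/-! ## L6a -/

/-- **L6a**: a place of `F'/K'` with finite orbit under a subgroup of finite index of
`Aut(K'/K)` comes from `F`. -/
theorem exists_isExt_of_finite_orbit [IsAlgClosed K] [IsAlgClosed K'] [CharZero K]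
    (hS : RiemannSetting K F) (hS' : RiemannSetting K' F')
    (H : Subgroup (RingAut K')) (hH : H ≤ C.gal) (hfin : (H.subgroupOf C.gal).FiniteIndex)
    (Q : Place K' F') (hQ : {Q' : Place K' F' | ∃ σ ∈ H, C.act σ • Q = Q'}.Finite) :
    ∃ P : Place K F, C.IsExt P Q := by
  classical
  rcases helper69.isNew_or_exists_isExt C Q with hnew | h
  swap
  · exact h
  exfalso
  obtain ⟨P, f, hf⟩ := l6_exists_ord_eq_one hS
  have hf0 : f ≠ 0 := by
    rintro rfl
    simp at hf
  -- `f` is not a constant
  have hfc : ∀ a : K, f - algebraMap K F a ≠ 0 := by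
    intro a h
    rw [sub_eq_zero] at h
    rw [h, Fermat.Agent.S24.helper82.ord_algebraMap] at hf
    exact zero_ne_one hf
  -- the residue `t` of `ι f` at `Q`
  obtain ⟨t, ht⟩ := hS'.residue Q (C.ι f)
    (by rw [helper69.ord_eq_zero_of_isNew C hnew hf0])
  have ht' : 0 < Q.ord (C.ι f - algebraMap K' F' t) := by
    rcases ht with ht | ht
    · exfalso
      obtain ⟨Q₁, hQ₁⟩ := helper99.exists_isExt C hS P
      have h1 := helper99.ord_eq_of_isExt C hS hQ₁ f
      rw [ht, Fermat.Agent.S24.helper82.ord_algebraMap, hf] at h1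
      exact zero_ne_one h1
    · exact ht
  -- `t` is not in `K`
  have htK : t ∉ Set.range C.κ := by
    rintro ⟨a, rfl⟩
    rw [← C.comm, ← map_sub, helper69.ord_eq_zero_of_isNew C hnew (hfc a)] at ht'
    exact lt_irrefl _ ht'
  -- the orbit of `t` is infinite, but it is the image of the orbit of `Q` under `residue`
  refine helper77.infinite_orbit C H hH hfin t htK ?_
  let r : Place K' F' → K' := fun Q' =>
    if h : ∃ d : K', 0 < Q'.ord (C.ι f - algebraMap K' F' d) then h.choose else 0
  refine (hQ.image r).subset ?_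
  rintro d ⟨σ, hσ, rfl⟩
  refine ⟨C.act σ • Q, ⟨σ, hσ, rfl⟩, ?_⟩
  have h1 := helper95.ord_act_sub_pos C σ (hH hσ) Q (C.ι f) t ht'
  rw [helper95.smul_ι C (helper27.act_spec C σ (hH hσ)) f] at h1
  have hex : ∃ d : K', 0 < (C.act σ • Q).ord (C.ι f - algebraMap K' F' d) := ⟨σ t, h1⟩
  show (if h : ∃ d : K', 0 < (C.act σ • Q).ord (C.ι f - algebraMap K' F' d)
    then h.choose else 0) = σ t
  rw [dif_pos hex]
  exact l6_residue_unique (C.act σ • Q) (C.ι f) hex.choose_spec h1

/-! ## L6b -/

/-- a divisor supported on places over `F` is a conorm -/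
theorem l6_exists_con_eq_of_support (hS : RiemannSetting K F) (E : Divisor K' F')
    (hE : ∀ Q ∈ E.support, ∃ P : Place K F, C.IsExt P Q) :
    ∃ E₀ : Divisor K F, C.con E₀ = E := by
  classical
  induction E using Finsupp.induction with
  | zero => exact ⟨0, map_zero _⟩
  | single_add Q n E' hQ hn ih =>
    have hsupp : (Finsupp.single Q n + E').support = (Finsupp.single Q n).support ∪ E'.support := by
      refine Finsupp.support_add_eq ?_
      rw [Finsupp.support_single Q hn, Finset.disjoint_singleton_left]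
      exact hQ
    rw [hsupp, Finsupp.support_single Q hn] at hE
    obtain ⟨P, hP⟩ := hE Q (Finset.mem_union_left _ (Finset.mem_singleton_self Q))
    obtain ⟨E₀', hE₀'⟩ := ih (fun Q' hQ' => hE Q' (Finset.mem_union_right _ hQ'))
    refine ⟨Finsupp.single P n + E₀', ?_⟩
    rw [map_add, helper37.con_single_of_isExt (l6_plInputs C hS) hP, hE₀']

/-- **L6b**: an effective divisor of `F'` fixed by a subgroup of finite index is a conorm. -/
theorem exists_con_eq_of_stable [IsAlgClosed K] [IsAlgClosed K'] [CharZero K]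
    (hS : RiemannSetting K F) (hS' : RiemannSetting K' F')
    (H : Subgroup (RingAut K')) (hH : H ≤ C.gal) (hfin : (H.subgroupOf C.gal).FiniteIndex)
    (E : Divisor K' F') (hE : ∀ σ ∈ H, C.act σ • E = E) :
    ∃ E₀ : Divisor K F, C.con E₀ = E := by
  classical
  refine l6_exists_con_eq_of_support C hS E fun Q hQ => ?_
  refine exists_isExt_of_finite_orbit C hS hS' H hH hfin Q ?_
  refine (E.support.finite_toSet).subset ?_
  rintro Q' ⟨σ, hσ, rfl⟩
  rw [Finset.mem_coe, Finsupp.mem_support_iff]
  have h1 := SemilinearAut.divisor_smul_apply_smul (C.act σ) E Q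
  rw [hE σ hσ] at h1
  rw [h1]
  exact Finsupp.mem_support_iff.mp hQ

/-! ## L6 -/

theorem l6_mk_eq_mk_iff (D E : Divisor.degZero (K := K) (F := F)) :
    Pic0.mk D = Pic0.mk E ↔
      ((E : Divisor K F) - (D : Divisor K F)) ∈ Divisor.principal (K := K) (F := F) := by
  unfold Pic0.mk
  rw [QuotientAddGroup.eq, AddSubgroup.mem_addSubgroupOf]
  have : ((-D + E : Divisor.degZero (K := K) (F := F)) : Divisor K F) =
      (E : Divisor K F) - (D : Divisor K F) := by
    rw [AddSubgroup.coe_add, AddSubgroup.coe_neg]; abel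
  rw [this]

/-- the group homomorphism `σ ↦ C.act σ` on `Aut(K'/K)` -/
noncomputable def l6ActHom : C.gal →* SemilinearAut K' F' :=
  MonoidHom.mk' (fun σ => C.act (σ : RingAut K'))
    (fun σ τ => helper27.act_mul C σ τ σ.2 τ.2)

@[simp] theorem l6ActHom_apply (σ : C.gal) : l6ActHom C σ = C.act (σ : RingAut K') := rfl

/-- the stabiliser of a torsion class in `Aut(K'/K)` has finite index, if `Pic0(F')[n]` is
finite -/
theorem l6_exists_stabilizer (n : ℕ) (hfin : Finite (Pic0.torsion K' F' n))
    (c : Pic0 K' F') (hc : c ∈ Pic0.torsion K' F' n) :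
    ∃ H : Subgroup (RingAut K'), H ≤ C.gal ∧ (H.subgroupOf C.gal).FiniteIndex ∧
      ∀ σ ∈ H, C.act σ • c = c := by
  classical
  set x : Pic0.torsion K' F' n := ⟨c, hc⟩ with hx
  set T : Subgroup (SemilinearAut K' F') := MulAction.stabilizer (SemilinearAut K' F') x with hT
  have : Finite (SemilinearAut K' F' ⧸ T) :=
    Finite.of_equiv _ (MulAction.orbitEquivQuotientStabilizer (SemilinearAut K' F') x)
  have : T.FiniteIndex := Subgroup.finiteIndex_of_finite_quotient
  set S : Subgroup C.gal := T.comap (l6ActHom C) with hSdef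
  have hS : S.FiniteIndex := by
    refine ⟨?_⟩
    rw [hSdef, Subgroup.index_comap]
    exact (Subgroup.instFiniteIndex_subgroupOf T (l6ActHom C).range).index_ne_zero
  refine ⟨S.map C.gal.subtype, Subgroup.map_subtype_le S, ?_, ?_⟩
  · have : (S.map C.gal.subtype).subgroupOf C.gal = S :=
      Subgroup.comap_map_eq_self_of_injective (Subgroup.subtype_injective _) S
    rw [this]
    exact hS
  · rintro σ ⟨s, hs, rfl⟩
    have h1 : l6ActHom C s • x = x := MulAction.mem_stabilizer_iff.mp hs
    have h2 := congrArg (Subtype.val) h1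
    exact h2

/-- **L6** (torsion descent): if `Pic0(F')[n]` is finite, all its classes are conorms. -/
theorem exists_conPic0_eq_of_finite [IsAlgClosed K] [IsAlgClosed K'] [CharZero K]
    (hS : RiemannSetting K F) (hS' : RiemannSetting K' F')
    (hR : ∃ g : ℤ, ∀ D : Divisor K' F', Divisor.degree D + 1 - g ≤ (ell D : ℤ))
    (n : ℕ) (hn : 0 < n) (hfin : Finite (Pic0.torsion K' F' n))
    (c : Pic0 K' F') (hc : c ∈ Pic0.torsion K' F' n) :
    ∃ c₀ : Pic0 K F, C.conPic0 c₀ = c := by
  classical
  obtain ⟨H, hH, hHfin, hHc⟩ := l6_exists_stabilizer C n hfin c hc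
  obtain ⟨D', rfl⟩ := Pic0.mk_surjective c
  obtain ⟨P₀⟩ := hS.nonempty
  obtain ⟨Q₀, hQ₀⟩ := helper99.exists_isExt C hS P₀
  obtain ⟨m, hm⟩ := helper67.exists_ell_add_eq_one hS' hR (D' : Divisor K' F') Q₀
  obtain ⟨E₁, ⟨hE₁eff, hE₁pr⟩, hE₁uniq⟩ :=
    helper67.existsUnique_effective_of_ell_eq_one hS' _ hm
  -- `E₁` is stable under `H`
  have hstab : ∀ σ ∈ H, C.act σ • E₁ = E₁ := by
    intro σ hσ
    refine hE₁uniq _ ⟨fun v => ?_, ?_⟩
    · rw [SemilinearAut.divisor_smul_apply]
      exact hE₁eff _
    · have h1 : C.act σ • (E₁ - ((D' : Divisor K' F') + Finsupp.single Q₀ m)) ∈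
          Divisor.principal (K := K') (F := F') := SemilinearAut.smul_mem_principal _ hE₁pr
      have h2 : (C.act σ • (D' : Divisor K' F')) - (D' : Divisor K' F') ∈
          Divisor.principal (K := K') (F := F') := by
        have h3 := hHc σ hσ
        rw [SemilinearAut.pic0_smul_mk] at h3
        have h4 := (l6_mk_eq_mk_iff _ _).mp h3.symm
        exact h4
      have h5 : C.act σ • Q₀ = Q₀ :=
        helper95.act_smul_of_isExt C hS σ (hH hσ)
          (fun h h' => helper99.isExt_unique C hS h h') hQ₀
      have h6 : C.act σ • E₁ - ((D' : Divisor K' F') + Finsupp.single Q₀ m) =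
          C.act σ • (E₁ - ((D' : Divisor K' F') + Finsupp.single Q₀ m)) +
            ((C.act σ • (D' : Divisor K' F')) - (D' : Divisor K' F')) := by
        rw [smul_sub, smul_add, SemilinearAut.smul_single, h5]
        abel
      rw [h6]
      exact add_mem h1 h2
  obtain ⟨E₀, hE₀⟩ := exists_con_eq_of_stable C hS hS' H hH hHfin E₁ hstab
  -- degrees
  have hdegE₁ : Divisor.degree E₁ = m := by
    have h1 := l6_degree_eq_zero_of_principal hS' hE₁pr
    rw [map_sub, map_add, Divisor.degree_single, hS'.deg_one] at h1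
    have h2 : Divisor.degree (D' : Divisor K' F') = 0 := D'.2
    rw [h2] at h1
    simpa [sub_eq_zero] using h1
  have hdegE₀ : Divisor.degree E₀ = m := by
    rw [← l6_degree_con C hS hS', hE₀, hdegE₁]
  have hD₀ : E₀ - Finsupp.single P₀ m ∈ Divisor.degZero (K := K) (F := F) := by
    rw [Divisor.mem_degZero, map_sub, hdegE₀, Divisor.degree_single, hS.deg_one]
    simp
  refine ⟨Pic0.mk ⟨E₀ - Finsupp.single P₀ m, hD₀⟩, ?_⟩
  rw [helper37.conPic0_mk (l6_conOK C hS hS'), l6_mk_eq_mk_iff]
  have h7 : ((C.conDegZero (l6_conOK C hS hS') ⟨E₀ - Finsupp.single P₀ m, hD₀⟩ :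
      Divisor.degZero (K := K') (F := F')) : Divisor K' F') =
      E₁ - Finsupp.single Q₀ m := by
    show C.con (E₀ - Finsupp.single P₀ m) = _
    rw [map_sub, hE₀, helper37.con_single_of_isExt (l6_plInputs C hS) hQ₀]
  rw [h7]
  have h8 : (D' : Divisor K' F') - (E₁ - Finsupp.single Q₀ m) =
      -(E₁ - ((D' : Divisor K' F') + Finsupp.single Q₀ m)) := by abel
  rw [h8]
  exact neg_mem hE₁pr

end Fermat.Agent.LEF.helper82
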