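import Mathlib
import Fermat.Agent.LEF.helper99_Defs

/-!
# P5L-SUB (helper85, task 576): countable submodels of function fields

`exists_countable_submodel`: a function field `F/K` (`x` transcendental over `K`, `F` finite over
`K(x)`, `K` algebraically closed) is the constant field extension of a function field `F₀/K₀`
over a countable algebraically closed subfield `K₀ ⊆ K` containing a given countable set `T`.

Construction (no tensor products): fix a `K(x)`-basis `b` of `F`; let `K₀` be the algebraic closure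
in `K` of the subfield generated by `T` and by the coefficients of numerators / denominators of
the structure constants of `b` (and of the coordinates of `1`); `F₀ := ∑ K₀(x) b_i`.
Then `F₀` is a ring, finite over the field `K₀(x)`, hence a field; linear disjointness of `F₀` and
`K` over `K₀` is checked coordinatewise, where it is linear disjointness of `K₀(x)` and `K`
(clear denominators, compare coefficients).
-/

set_option autoImplicit false

noncomputable section

open IntermediateField Polynomial Module

namespace Fermat.Agent.LEF.helper85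

universe u v

section Core

variable {K₀ K F : Type*} [Field K₀] [Field K] [Field F] [Algebra K₀ K] [Algebra K F]
  [Algebra K₀ F] [IsScalarTower K₀ K F]

/-- Finitely many elements of `K₀(x)` have a common denominator. -/
theorem exists_common_den (x : F) {ι : Type*} (s : Finset ι) (g : ι → F)
    (hg : ∀ i ∈ s, g i ∈ K₀⟮x⟯) :
    ∃ (q : K₀[X]) (p : ι → K₀[X]), aeval x q ≠ 0 ∧ ∀ i ∈ s, g i * aeval x q = aeval x (p i) := by
  classical
  induction s using Finset.induction_on with
  | empty => exact ⟨1, fun _ => 0, by simp, by simp⟩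
  | insert a s ha ih =>
    obtain ⟨q, p, hq, hp⟩ := ih fun i hi => hg i (Finset.mem_insert_of_mem hi)
    obtain ⟨r, t, hrt⟩ := (mem_adjoin_simple_iff K₀ (g a)).1 (hg a (Finset.mem_insert_self a s))
    by_cases ht : aeval x t = 0
    · refine ⟨q, Function.update p a 0, hq, fun i hi => ?_⟩
      rcases Finset.mem_insert.1 hi with rfl | hi
      · rw [Function.update_self, hrt, ht, div_zero, zero_mul, map_zero]
      · have hia : i ≠ a := fun h => ha (h ▸ hi)
        rw [Function.update_of_ne hia]
        exact hp i hi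
    · refine ⟨q * t, fun i => if i = a then r * q else p i * t, ?_, fun i hi => ?_⟩
      · rw [map_mul]
        exact mul_ne_zero hq ht
      · rcases Finset.mem_insert.1 hi with rfl | hi
        · dsimp only
          rw [if_pos rfl, hrt, map_mul, map_mul]
          field_simp
        · have hia : i ≠ a := fun h => ha (h ▸ hi)
          dsimp only
          rw [if_neg hia, map_mul, map_mul, ← mul_assoc, hp i hi]

/-- `K₀(x)` and `K` are linearly disjoint over `K₀` (symmetric form): a `K₀`-linearly independent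
family of `K` stays linearly independent over `K₀(x)`, for `x` transcendental over `K`. -/
theorem linearIndependent_adjoin_simple (x : F) (hx : Transcendental K x) {ι : Type*}
    (β : ι → K) (hβ : LinearIndependent K₀ β) :
    LinearIndependent (K₀⟮x⟯ : IntermediateField K₀ F) (fun i => algebraMap K F (β i)) := by
  classical
  rw [linearIndependent_iff']
  intro s g hsum i hi
  obtain ⟨q, p, hq, hp⟩ := exists_common_den (K₀ := K₀) x s (fun i => ((g i : K₀⟮x⟯) : F))
    fun i _ => (g i).2
  -- the polynomial identity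
  have h1 : aeval x (∑ i ∈ s, C (β i) * (p i).map (algebraMap K₀ K)) = 0 := by
    rw [map_sum]
    have : ∀ i ∈ s, aeval x (C (β i) * (p i).map (algebraMap K₀ K))
        = aeval x q * (g i • algebraMap K F (β i)) := by
      intro i hi
      rw [map_mul, aeval_C, aeval_map_algebraMap, ← hp i hi, IntermediateField.smul_def,
        smul_eq_mul]
      ring
    rw [Finset.sum_congr rfl this, ← Finset.mul_sum, hsum, mul_zero]
  have h2 := (transcendental_iff.1 hx) _ h1
  have h3 : ∀ n, ∀ i ∈ s, (p i).coeff n = 0 := by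
    intro n
    have h4 := congrArg (fun P => P.coeff n) h2
    simp only [finsetSum_coeff, coeff_C_mul, coeff_map, coeff_zero] at h4
    refine linearIndependent_iff'.1 hβ s (fun i => (p i).coeff n) ?_
    rw [← h4]
    refine Finset.sum_congr rfl fun i _ => ?_
    rw [Algebra.smul_def, mul_comm]
  have h5 : p i = 0 := Polynomial.ext fun n => by rw [h3 n i hi, coeff_zero]
  have h6 := hp i hi
  rw [h5, map_zero] at h6
  rcases mul_eq_zero.1 h6 with h | h
  · exact Subtype.ext h
  · exact absurd h hq

end Core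

section Span

variable (K₀ : Type*) {K F : Type*} [Field K₀] [Field K] [Field F] [Algebra K₀ K] [Algebra K F]
  [Algebra K₀ F] [IsScalarTower K₀ K F] (x : F) {n : Type*}
  (b : Basis n (K⟮x⟯ : IntermediateField K F) F)

/-- `K₀(x) ⊆ K(x)`. -/
theorem mem_adjoin_simple_of_mem {e : F} (he : e ∈ (K₀⟮x⟯ : IntermediateField K₀ F)) :
    e ∈ (K⟮x⟯ : IntermediateField K F) := by
  have h : (K₀⟮x⟯ : IntermediateField K₀ F) ≤ (K⟮x⟯ : IntermediateField K F).restrictScalars K₀ :=
    adjoin_le_iff.2 (by
      intro y hy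
      rw [Set.mem_singleton_iff] at hy
      subst hy
      exact mem_adjoin_simple_self K y)
  exact h he

/-- The `K₀(x)`-span of a `K(x)`-basis of `F`. -/
def spanB : Submodule (K₀⟮x⟯ : IntermediateField K₀ F) F :=
  Submodule.span _ (Set.range b)

variable {K₀ x}

theorem smul_eq_smul (e : (K₀⟮x⟯ : IntermediateField K₀ F)) (f : F) :
    e • f = (⟨(e : F), mem_adjoin_simple_of_mem K₀ x e.2⟩ : (K⟮x⟯ : IntermediateField K F)) • f := by
  rw [IntermediateField.smul_def, IntermediateField.smul_def]

/-- Elements of the span have coordinates in `K₀(x)`. -/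
theorem coord_mem_of_mem_spanB {f : F} (hf : f ∈ spanB K₀ x b) (k : n) :
    ((b.repr f k : (K⟮x⟯ : IntermediateField K F)) : F) ∈ (K₀⟮x⟯ : IntermediateField K₀ F) := by
  classical
  induction hf using Submodule.span_induction with
  | mem f hf =>
    obtain ⟨i, rfl⟩ := hf
    rw [Basis.repr_self, Finsupp.single_apply]
    split_ifs
    · exact one_mem _
    · exact zero_mem _
  | zero =>
    rw [map_zero, Finsupp.zero_apply]
    exact zero_mem _
  | add f g _ _ hf hg =>
    rw [map_add, Finsupp.add_apply]
    exact add_mem hf hg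
  | smul e f _ hf =>
    rw [smul_eq_smul (K₀ := K₀) (K := K), LinearEquiv.map_smul, Finsupp.smul_apply, smul_eq_mul]
    exact mul_mem e.2 hf

/-- Elements with coordinates in `K₀(x)` lie in the span. -/
theorem mem_spanB_of_coord [Fintype n] {f : F}
    (hf : ∀ k, ((b.repr f k : (K⟮x⟯ : IntermediateField K F)) : F) ∈
      (K₀⟮x⟯ : IntermediateField K₀ F)) : f ∈ spanB K₀ x b := by
  have hsum : f = ∑ k, (⟨_, hf k⟩ : (K₀⟮x⟯ : IntermediateField K₀ F)) • b k := by
    conv_lhs => rw [← b.sum_repr f]
    exact Finset.sum_congr rfl fun k _ =>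
      (smul_eq_smul (K₀ := K₀) (K := K) ⟨_, hf k⟩ (b k)).symm
  rw [hsum]
  exact Submodule.sum_mem _ fun k _ =>
    Submodule.smul_mem _ _ (Submodule.subset_span ⟨k, rfl⟩)

theorem mem_spanB_iff [Fintype n] {f : F} :
    f ∈ spanB K₀ x b ↔ ∀ k, ((b.repr f k : (K⟮x⟯ : IntermediateField K F)) : F) ∈
      (K₀⟮x⟯ : IntermediateField K₀ F) :=
  ⟨fun h k => coord_mem_of_mem_spanB b h k, mem_spanB_of_coord b⟩

omit [Algebra K₀ K] [IsScalarTower K₀ K F] in
theorem basis_mem_spanB (i : n) : b i ∈ spanB K₀ x b :=
  Submodule.subset_span ⟨i, rfl⟩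

/-- The span is closed under multiplication if the structure constants lie in `K₀(x)`. -/
theorem mul_mem_spanB [Fintype n]
    (hmul : ∀ i j k, ((b.repr (b i * b j) k : (K⟮x⟯ : IntermediateField K F)) : F) ∈
      (K₀⟮x⟯ : IntermediateField K₀ F)) {f g : F} (hf : f ∈ spanB K₀ x b)
    (hg : g ∈ spanB K₀ x b) : f * g ∈ spanB K₀ x b := by
  have h : spanB K₀ x b * spanB K₀ x b ≤ spanB K₀ x b := by
    unfold spanB
    rw [Submodule.span_mul_span, Submodule.span_le]
    rintro _ ⟨_, ⟨i, rfl⟩, _, ⟨j, rfl⟩, rfl⟩
    exact mem_spanB_of_coord b (hmul i j)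
  exact h (Submodule.mul_mem_mul hf hg)

theorem one_mem_spanB [Fintype n]
    (hone : ∀ k, ((b.repr 1 k : (K⟮x⟯ : IntermediateField K F)) : F) ∈
      (K₀⟮x⟯ : IntermediateField K₀ F)) : (1 : F) ∈ spanB K₀ x b :=
  mem_spanB_of_coord b hone

theorem algebraMap_mem_spanB [Fintype n]
    (hone : ∀ k, ((b.repr 1 k : (K⟮x⟯ : IntermediateField K F)) : F) ∈
      (K₀⟮x⟯ : IntermediateField K₀ F)) (e : (K₀⟮x⟯ : IntermediateField K₀ F)) :
    (e : F) ∈ spanB K₀ x b := by
  have h := Submodule.smul_mem (spanB K₀ x b) e (one_mem_spanB b hone)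
  rwa [IntermediateField.smul_def, smul_eq_mul, mul_one] at h

end Span

section FieldB

variable (K₀ : Type*) {K F : Type*} [Field K₀] [Field K] [Field F] [Algebra K₀ K] [Algebra K F]
  [Algebra K₀ F] [IsScalarTower K₀ K F] (x : F) {n : Type*} [Fintype n]
  (b : Basis n (K⟮x⟯ : IntermediateField K F) F)
  (hone : ∀ k, ((b.repr 1 k : (K⟮x⟯ : IntermediateField K F)) : F) ∈
    (K₀⟮x⟯ : IntermediateField K₀ F))
  (hmul : ∀ i j k, ((b.repr (b i * b j) k : (K⟮x⟯ : IntermediateField K F)) : F) ∈
    (K₀⟮x⟯ : IntermediateField K₀ F))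

include hone hmul in
/-- The span is closed under inverses (a finite-dimensional domain over a field is a field). -/
theorem inv_mem_spanB {f : F} (hf : f ∈ spanB K₀ x b) : f⁻¹ ∈ spanB K₀ x b := by
  set S : Subalgebra (K₀⟮x⟯ : IntermediateField K₀ F) F :=
    (spanB K₀ x b).toSubalgebra (one_mem_spanB b hone)
      (fun _ _ hf hg => mul_mem_spanB b hmul hf hg) with hS
  have hFG : (Subalgebra.toSubmodule S).FG := by
    rw [hS, Submodule.toSubalgebra_toSubmodule]
    exact Submodule.fg_span (Set.finite_range b)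
  have hint : IsIntegral (K₀⟮x⟯ : IntermediateField K₀ F) f := IsIntegral.of_mem_of_fg S hFG f hf
  exact Subalgebra.inv_mem_of_algebraic S (x := ⟨f, hf⟩) hint.isAlgebraic

/-- The field `F₀ = ∑ K₀(x) b_i`. -/
def fieldB : IntermediateField K₀ F where
  carrier := spanB K₀ x b
  mul_mem' := mul_mem_spanB b hmul
  one_mem' := one_mem_spanB b hone
  add_mem' := (spanB K₀ x b).add_mem
  zero_mem' := (spanB K₀ x b).zero_mem
  algebraMap_mem' := fun a =>
    algebraMap_mem_spanB b hone (algebraMap K₀ (K₀⟮x⟯ : IntermediateField K₀ F) a)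
  inv_mem' := fun _ hf => inv_mem_spanB K₀ x b hone hmul hf

variable {K₀ x b hone hmul}

theorem mem_fieldB {f : F} : f ∈ fieldB K₀ x b hone hmul ↔ f ∈ spanB K₀ x b := Iff.rfl

variable (K₀ x b hone hmul)

theorem x_mem_fieldB : x ∈ fieldB K₀ x b hone hmul :=
  algebraMap_mem_spanB b hone ⟨x, mem_adjoin_simple_self K₀ x⟩

theorem basis_mem_fieldB (i : n) : b i ∈ fieldB K₀ x b hone hmul :=
  basis_mem_spanB b i

/-- `F₀` and `K` are linearly disjoint over `K₀`. -/
theorem linearDisjoint_fieldB (hx : Transcendental K x) :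
    (fieldB K₀ x b hone hmul).LinearDisjoint K := by
  classical
  refine IntermediateField.LinearDisjoint.of_basis_right' (Basis.ofVectorSpace K₀ K) ?_
  rw [linearIndependent_iff']
  intro s g hsum i hi
  have hrepr : ∀ (c : K) (f : F), b.repr (f * algebraMap K F c) =
      (algebraMap K (K⟮x⟯ : IntermediateField K F) c) • b.repr f := by
    intro c f
    rw [← LinearEquiv.map_smul, IntermediateField.smul_def, smul_eq_mul, mul_comm]
    rfl
  have key : ∀ k, ∀ i ∈ s, ((b.repr (g i : F) k : (K⟮x⟯ : IntermediateField K F)) : F) = 0 := by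
    intro k
    have hA := linearIndependent_adjoin_simple (K₀ := K₀) x hx _
      (Basis.ofVectorSpace K₀ K).linearIndependent
    rw [linearIndependent_iff'] at hA
    have h2 := hA s (fun i => ⟨_, coord_mem_of_mem_spanB b (g i).2 k⟩) (by
      have h1 := congrArg (fun f => ((b.repr f k : (K⟮x⟯ : IntermediateField K F)) : F)) hsum
      simp only [Function.comp_apply, IntermediateField.smul_def, smul_eq_mul, map_sum,
        Finsupp.coe_finsetSum, Finset.sum_apply, hrepr, Finsupp.smul_apply, map_zero,
        Finsupp.zero_apply, AddSubmonoidClass.coe_finsetSum, MulMemClass.coe_mul,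
        ZeroMemClass.coe_zero] at h1
      rw [← h1]
      refine Finset.sum_congr rfl fun i _ => ?_
      rw [IntermediateField.smul_def, smul_eq_mul, mul_comm]
      rfl)
    intro i hi
    exact congrArg Subtype.val (h2 i hi)
  apply Subtype.ext
  apply b.repr.injective
  ext k
  rw [key k i hi]
  simp

end FieldB

section FieldB2

variable (K₀ : Type*) {K F : Type*} [Field K₀] [Field K] [Field F] [Algebra K₀ K] [Algebra K F]
  [Algebra K₀ F] [IsScalarTower K₀ K F] (x : F) {n : Type*} [Fintype n]
  (b : Basis n (K⟮x⟯ : IntermediateField K F) F)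
  (hone : ∀ k, ((b.repr 1 k : (K⟮x⟯ : IntermediateField K F)) : F) ∈
    (K₀⟮x⟯ : IntermediateField K₀ F))
  (hmul : ∀ i j k, ((b.repr (b i * b j) k : (K⟮x⟯ : IntermediateField K F)) : F) ∈
    (K₀⟮x⟯ : IntermediateField K₀ F))

/-- `x` as an element of `F₀`. -/
def xB : fieldB K₀ x b hone hmul := ⟨x, x_mem_fieldB K₀ x b hone hmul⟩

theorem transcendental_xB (hx : Transcendental K x) :
    Transcendental K₀ (xB K₀ x b hone hmul) := by
  have h1 : Transcendental K₀ x := hx.restrictScalars (algebraMap K₀ K).injective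
  have h2 : Transcendental K₀ (algebraMap (fieldB K₀ x b hone hmul) F (xB K₀ x b hone hmul)) := h1
  exact (transcendental_algebraMap_iff (algebraMap (fieldB K₀ x b hone hmul) F).injective).1 h2

/-- `F₀` is finite over `K₀(x₀)`. -/
theorem finiteDimensional_fieldB :
    FiniteDimensional (K₀⟮xB K₀ x b hone hmul⟯ : IntermediateField K₀ (fieldB K₀ x b hone hmul))
      (fieldB K₀ x b hone hmul) := by
  classical
  set F₀ := fieldB K₀ x b hone hmul with hF₀
  set x₀ : F₀ := xB K₀ x b hone hmul with hx₀
  have hmap : (K₀⟮x₀⟯ : IntermediateField K₀ F₀).map F₀.val = (K₀⟮x⟯ : IntermediateField K₀ F) := by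
    rw [adjoin_map, Set.image_singleton]
    rfl
  let b' : n → F₀ := fun k => ⟨b k, basis_mem_fieldB K₀ x b hone hmul k⟩
  have hspan : ∀ f : F₀, f ∈ Submodule.span (K₀⟮x₀⟯ : IntermediateField K₀ F₀) (Set.range b') := by
    intro f
    have hc : ∀ k, ∃ c : (K₀⟮x₀⟯ : IntermediateField K₀ F₀),
        ((c : F₀) : F) = ((b.repr (f : F) k : (K⟮x⟯ : IntermediateField K F)) : F) := by
      intro k
      have h1 := coord_mem_of_mem_spanB b f.2 k
      rw [← hmap, IntermediateField.mem_map] at h1
      obtain ⟨c, hc, hc'⟩ := h1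
      exact ⟨⟨c, hc⟩, hc'⟩
    choose c hc using hc
    have hf : f = ∑ k, c k • b' k := by
      apply Subtype.ext
      rw [← b.sum_repr (f : F)]
      simp only [IntermediateField.smul_def, smul_eq_mul, AddSubmonoidClass.coe_finsetSum,
        MulMemClass.coe_mul, hc]
      rfl
    rw [hf]
    exact Submodule.sum_mem _ fun k _ =>
      Submodule.smul_mem _ _ (Submodule.subset_span ⟨k, rfl⟩)
  refine Module.finite_def.2 ?_
  have : (⊤ : Submodule (K₀⟮x₀⟯ : IntermediateField K₀ F₀) F₀) = Submodule.span _ (Set.range b') :=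
    le_antisymm (fun f _ => hspan f) le_top
  rw [this]
  exact Submodule.fg_span (Set.finite_range b')

end FieldB2

section Main

/-- An element of `K(x)` whose numerator and denominator have coefficients in `K₀` lies in
`K₀(x)`. -/
theorem mem_adjoin_simple_of_lifts {K₀ K F : Type*} [Field K₀] [Field K] [Field F]
    [Algebra K₀ K] [Algebra K F] [Algebra K₀ F] [IsScalarTower K₀ K F] (x : F) (r t : K[X])
    (hr : ∀ m, r.coeff m ∈ Set.range (algebraMap K₀ K))
    (ht : ∀ m, t.coeff m ∈ Set.range (algebraMap K₀ K)) :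
    aeval x r / aeval x t ∈ (K₀⟮x⟯ : IntermediateField K₀ F) := by
  obtain ⟨r₀, rfl⟩ := (mem_lifts r).1 ((lifts_iff_coeff_lifts r).2 hr)
  obtain ⟨t₀, rfl⟩ := (mem_lifts t).1 ((lifts_iff_coeff_lifts t).2 ht)
  rw [aeval_map_algebraMap, aeval_map_algebraMap]
  exact (mem_adjoin_simple_iff K₀ _).2 ⟨r₀, t₀, rfl⟩

open Cardinal in
theorem countable_algebraicClosure_closure {K : Type u} [Field K] (S : Set K) (hS : S.Countable) :
    Countable (algebraicClosure (Subfield.closure S) K) := by
  have h1 : #(Subfield.closure S) ≤ ℵ₀ :=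
    (Subfield.cardinalMk_closure_le_max S).trans
      (max_le (Cardinal.le_aleph0_iff_set_countable.2 hS) le_rfl)
  have h2 := Algebra.IsAlgebraic.cardinalMk_le_max (Subfield.closure S)
    (algebraicClosure (Subfield.closure S) K)
  exact Cardinal.mk_le_aleph0_iff.1 (h2.trans (max_le h1 le_rfl))

/-- **SUB** (P5-LEF interface, verbatim): a function field `F/K` is the constant field extension
of a function field `F₀/K₀` over a countable algebraically closed subfield `K₀ ⊆ K` containing a
given countable set `T`. -/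
theorem exists_countable_submodel (K : Type u) (F : Type v) [Field K] [Field F] [Algebra K F]
    [IsAlgClosed K] [CharZero K] (x : F) (hx : Transcendental K x) [FiniteDimensional K⟮x⟯ F]
    (T : Set K) (hT : T.Countable) :
    ∃ (K₀ : Type u) (F₀ : Type v) (_ : Field K₀) (_ : Field F₀) (_ : Algebra K₀ F₀)
      (C : ConstExt K₀ F₀ K F), IsAlgClosed K₀ ∧ Countable K₀ ∧ T ⊆ Set.range C.κ ∧
        ∃ x₀ : F₀, C.ι x₀ = x ∧ Transcendental K₀ x₀ ∧ FiniteDimensional K₀⟮x₀⟯ F₀ := by
  classical
  -- a basis and its structure constants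
  let b := Module.finBasis (K⟮x⟯ : IntermediateField K F) F
  have hnd : ∀ g : (K⟮x⟯ : IntermediateField K F), ∃ rt : K[X] × K[X],
      (g : F) = aeval x rt.1 / aeval x rt.2 := fun g =>
    let ⟨r, t, h⟩ := (mem_adjoin_simple_iff K (g : F)).1 g.2
    ⟨(r, t), h⟩
  choose nd hnd using hnd
  let G : Set (K⟮x⟯ : IntermediateField K F) :=
    Set.range (fun p : Fin _ × Fin _ × Fin _ => b.repr (b p.1 * b p.2.1) p.2.2) ∪
      Set.range (fun k => b.repr 1 k)
  have hG : G.Countable := (Set.countable_range _).union (Set.countable_range _)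
  let T' : Set K := ⋃ g ∈ G, (Set.range (nd g).1.coeff ∪ Set.range (nd g).2.coeff)
  have hT' : T'.Countable :=
    hG.biUnion fun g _ => (Set.countable_range _).union (Set.countable_range _)
  -- the constant field
  let k : Subfield K := Subfield.closure (T ∪ T')
  let K₀ : IntermediateField k K := algebraicClosure k K
  have hsub : ∀ a ∈ T ∪ T', a ∈ Set.range (algebraMap K₀ K) := by
    intro a ha
    have h1 : a ∈ k := Subfield.subset_closure ha
    exact ⟨⟨a, K₀.algebraMap_mem ⟨a, h1⟩⟩, rfl⟩
  have hGmem : ∀ g ∈ G, (g : F) ∈ (K₀⟮x⟯ : IntermediateField K₀ F) := by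
    intro g hg
    rw [hnd g]
    refine mem_adjoin_simple_of_lifts x _ _ (fun m => hsub _ (Or.inr ?_))
      (fun m => hsub _ (Or.inr ?_))
    · exact Set.mem_biUnion hg (Or.inl ⟨m, rfl⟩)
    · exact Set.mem_biUnion hg (Or.inr ⟨m, rfl⟩)
  have hone : ∀ k, ((b.repr 1 k : (K⟮x⟯ : IntermediateField K F)) : F) ∈
      (K₀⟮x⟯ : IntermediateField K₀ F) := fun k => hGmem _ (Or.inr ⟨k, rfl⟩)
  have hmul : ∀ i j k, ((b.repr (b i * b j) k : (K⟮x⟯ : IntermediateField K F)) : F) ∈
      (K₀⟮x⟯ : IntermediateField K₀ F) := fun i j k => hGmem _ (Or.inl ⟨(i, j, k), rfl⟩)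
  -- the function field
  let F₀ : IntermediateField K₀ F := fieldB K₀ x b hone hmul
  have hLD : F₀.LinearDisjoint K := linearDisjoint_fieldB K₀ x b hone hmul hx
  let C : ConstExt K₀ F₀ K F :=
    { κ := algebraMap K₀ K
      ι := algebraMap F₀ F
      comm := fun a => rfl
      gen := by
        rw [eq_top_iff]
        intro f _
        set W := Subfield.closure (Set.range (algebraMap K F) ∪ Set.range (algebraMap F₀ F))
          with hW
        have hxW : x ∈ W :=
          Subfield.subset_closure (Or.inr ⟨xB K₀ x b hone hmul, rfl⟩)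
        have hKx : ∀ e ∈ (K⟮x⟯ : IntermediateField K F), e ∈ W := by
          intro e he
          have h1 : e ∈ (K⟮x⟯ : IntermediateField K F).toSubfield := he
          rw [adjoin_toSubfield] at h1
          refine (Subfield.closure_le.2 ?_) h1
          rintro y (hy | hy)
          · exact Subfield.subset_closure (Or.inl hy)
          · rw [Set.mem_singleton_iff] at hy
            rw [hy]
            exact hxW
        rw [← b.sum_repr f]
        refine Subfield.sum_mem _ fun i _ => ?_
        rw [IntermediateField.smul_def, smul_eq_mul]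
        exact W.mul_mem (hKx _ (b.repr f i).2)
          (Subfield.subset_closure (Or.inr ⟨⟨b i, basis_mem_fieldB K₀ x b hone hmul i⟩, rfl⟩))
      linDisj := fun m f hf => hLD.linearIndependent_left hf }
  refine ⟨K₀, F₀, inferInstance, inferInstance, inferInstance, C, ?_, ?_, ?_, ?_⟩
  · exact IsAlgClosure.isAlgClosed k
  · exact countable_algebraicClosure_closure _ (hT.union hT')
  · intro a ha
    exact hsub a (Or.inl ha)
  · exact ⟨xB K₀ x b hone hmul, rfl, transcendental_xB K₀ x b hone hmul hx,
      finiteDimensional_fieldB K₀ x b hone hmul⟩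

end Main

end Fermat.Agent.LEF.helper85
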