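import Mathlib
import Fermat.Agent.LEF.helper99_Defs

/-!
# LEF / P5L-MODEL2 (helper86): constant field extensions of function fields

* `transcendental_ι` (MODEL-2): a constant field extension `F'/K'` of a function field `F/K`
  (`x` transcendental over `K`, `F` finite over `K(x)`) is a function field: `ι x` is
  transcendental over `K'` and `F'` is finite over `K'(ι x)`.
* `exists_constExt_comp` (MODEL-3): precomposition of a `ConstExt` with isomorphisms.
-/

set_option autoImplicit false
set_option linter.unusedSectionVars false
set_option linter.unusedVariables false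
set_option linter.style.haveILetI false

open AlgebraicCurve IntermediateField

namespace Fermat.Agent.LEF.helper86

open Fermat.Agent.LEF

/-- the powers of a transcendental element are linearly independent -/
theorem linearIndependent_pow_of_transcendental {K F : Type*} [Field K] [Field F] [Algebra K F]
    (x : F) (hx : Transcendental K x) : LinearIndependent K (fun n : ℕ => x ^ n) := by
  have h1 := (Polynomial.basisMonomials K).linearIndependent.map' (Polynomial.aeval x).toLinearMap
    (LinearMap.ker_eq_bot.2 (transcendental_iff_injective.1 hx))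
  have h2 : (fun n : ℕ => x ^ n) =
      ⇑(Polynomial.aeval x).toLinearMap ∘ ⇑(Polynomial.basisMonomials K) := by
    funext n
    simp [Polynomial.aeval_monomial]
  rw [h2]
  exact h1

/-- an element whose powers are linearly independent is transcendental -/
theorem transcendental_of_linearIndependent_pow {K F : Type*} [Field K] [Field F] [Algebra K F]
    (y : F) (hy : LinearIndependent K (fun n : ℕ => y ^ n)) : Transcendental K y := by
  rw [transcendental_iff]
  intro q hq
  rw [Polynomial.aeval_eq_sum_range] at hq
  have h1 := linearIndependent_iff'.1 hy (Finset.range (q.natDegree + 1)) (fun i => q.coeff i) hq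
  ext i
  rw [Polynomial.coeff_zero]
  by_cases hi : i ∈ Finset.range (q.natDegree + 1)
  · exact h1 i hi
  · rw [Finset.mem_range, not_lt] at hi
    exact Polynomial.coeff_eq_zero_of_natDegree_lt (by omega)

section Model2

variable {K F K' F' : Type*} [Field K] [Field F] [Algebra K F] [Field K']
    [Field F'] [Algebra K' F']

/-- Linear disjointness for arbitrary families (same proof as `helper99.linDisj_family`, repeated
here to keep the import closure small). -/
theorem linDisj_family' (C : ConstExt K F K' F') {I : Type*} (b : I → F)
    (hb : LinearIndependent K b) : LinearIndependent K' (fun i => C.ι (b i)) := by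
  classical
  rw [linearIndependent_iff_finset_linearIndependent]
  intro s
  have h1 : LinearIndependent K (b ∘ (Subtype.val : s → I)) :=
    hb.comp _ Subtype.val_injective
  have e := s.equivFin
  have h2 : LinearIndependent K (fun i : Fin s.card => b (e.symm i).1) := by
    have := (linearIndependent_equiv e.symm (f := b ∘ (Subtype.val : s → I))).mpr h1
    exact this
  have h3 := C.linDisj s.card _ h2
  have h4 := (linearIndependent_equiv e (f := fun i : Fin s.card => C.ι (b (e.symm i).1))).mpr h3
  convert h4 using 1
  funext i
  simp

/-- `ι` maps `K(x)` into `K'(ι x)`. -/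
theorem ι_mem_adjoin (C : ConstExt K F K' F') (x : F) (c : F) (hc : c ∈ K⟮x⟯) :
    C.ι c ∈ K'⟮C.ι x⟯ := by
  induction hc using IntermediateField.adjoin_induction with
  | mem y hy =>
    rw [Set.mem_singleton_iff] at hy
    rw [hy]
    exact IntermediateField.mem_adjoin_simple_self K' _
  | algebraMap a =>
    rw [C.comm]
    exact IntermediateField.algebraMap_mem _ _
  | add a b _ _ ha hb =>
    rw [map_add]
    exact add_mem ha hb
  | inv a _ ha =>
    rw [map_inv₀]
    exact inv_mem ha
  | mul a b _ _ ha hb =>
    rw [map_mul]
    exact mul_mem ha hb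

/-- the restriction of `ι` to `K(x) → K'(ι x)` -/
noncomputable def ιAdjoin (C : ConstExt K F K' F') (x : F) : K⟮x⟯ →+* K'⟮C.ι x⟯ where
  toFun c := ⟨C.ι (c : F), ι_mem_adjoin C x c c.2⟩
  map_one' := by
    apply Subtype.ext
    simp
  map_mul' a b := by
    apply Subtype.ext
    simp
  map_zero' := by
    apply Subtype.ext
    simp
  map_add' a b := by
    apply Subtype.ext
    simp

/-- **MODEL-2**: a constant field extension of a function field is a function field. -/
theorem transcendental_ι (C : ConstExt K F K' F') (x : F) (hx : Transcendental K x)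
    [FiniteDimensional K⟮x⟯ F] :
    Transcendental K' (C.ι x) ∧ FiniteDimensional K'⟮C.ι x⟯ F' := by
  classical
  constructor
  · apply transcendental_of_linearIndependent_pow
    have h1 := linDisj_family' C _
      (linearIndependent_pow_of_transcendental x hx)
    have h2 : (fun n : ℕ => C.ι x ^ n) = fun n : ℕ => C.ι (x ^ n) := by
      funext n
      rw [map_pow]
    rw [h2]
    exact h1
  · -- a basis of `F` over `K(x)`
    let b := Module.finBasis K⟮x⟯ F
    let S : Set F' := Set.range (fun i => C.ι (b i))
    haveI : Finite S := Set.finite_range _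
    have hcomm : (algebraMap K'⟮C.ι x⟯ F').comp (ιAdjoin C x) =
        C.ι.comp (algebraMap K⟮x⟯ F) := by
      ext c
      rfl
    have hS : ∀ y ∈ S, IsIntegral K'⟮C.ι x⟯ y := by
      rintro _ ⟨i, rfl⟩
      have hb : IsIntegral K⟮x⟯ (b i) := IsIntegral.of_finite _ _
      exact IsIntegral.map_of_comp_eq (ιAdjoin C x) C.ι hcomm hb
    haveI hfd : FiniteDimensional K'⟮C.ι x⟯ (IntermediateField.adjoin K'⟮C.ι x⟯ S) :=
      IntermediateField.finiteDimensional_adjoin hS
    -- the adjoin is everything
    have hιF : ∀ f : F, C.ι f ∈ IntermediateField.adjoin K'⟮C.ι x⟯ S := by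
      intro f
      rw [← b.sum_repr f, map_sum]
      refine sum_mem fun i _ => ?_
      rw [Algebra.smul_def, map_mul]
      refine mul_mem ?_ (IntermediateField.subset_adjoin _ _ ⟨i, rfl⟩)
      have h2 : C.ι (algebraMap K⟮x⟯ F (b.repr f i)) =
          algebraMap K'⟮C.ι x⟯ F' (ιAdjoin C x (b.repr f i)) := rfl
      rw [h2]
      exact IntermediateField.algebraMap_mem _ _
    have htop : (IntermediateField.adjoin K'⟮C.ι x⟯ S).toSubfield = ⊤ := by
      rw [eq_top_iff, ← C.gen, Subfield.closure_le]
      rintro y (⟨c, rfl⟩ | ⟨f, rfl⟩)
      · have h3 : algebraMap K' F' c =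
            algebraMap K'⟮C.ι x⟯ F' (algebraMap K' K'⟮C.ι x⟯ c) := rfl
        rw [h3]
        exact IntermediateField.algebraMap_mem _ _
      · exact hιF f
    have htop' : IntermediateField.adjoin K'⟮C.ι x⟯ S = ⊤ := by
      apply IntermediateField.toSubfield_injective
      rw [htop]
      rfl
    rw [htop'] at hfd
    exact Module.Finite.equiv (IntermediateField.topEquiv (F := K'⟮C.ι x⟯) (E := F')).toLinearEquiv

end Model2

/-- **MODEL-3**: composition with isomorphisms (used to change universes). -/
theorem exists_constExt_comp {K F K₁ F₁ K' F' : Type*} [Field K] [Field F] [Algebra K F]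
    [Field K₁] [Field F₁] [Algebra K₁ F₁] [Field K'] [Field F'] [Algebra K' F']
    (eK : K ≃+* K₁) (eF : F ≃+* F₁) (he : ∀ a : K, eF (algebraMap K F a) = algebraMap K₁ F₁ (eK a))
    (C : ConstExt K₁ F₁ K' F') :
    ∃ C' : ConstExt K F K' F', (∀ a, C'.κ a = C.κ (eK a)) ∧ ∀ f, C'.ι f = C.ι (eF f) := by
  refine ⟨{ κ := C.κ.comp (eK : K →+* K₁)
            ι := C.ι.comp (eF : F →+* F₁)
            comm := ?_
            gen := ?_
            linDisj := ?_ }, fun _ => rfl, fun _ => rfl⟩
  · intro a
    simp only [RingHom.comp_apply, RingHom.coe_coe]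
    rw [he, C.comm]
  · have hrange : Set.range (C.ι.comp (eF : F →+* F₁)) = Set.range C.ι := by
      ext y
      constructor
      · rintro ⟨f, rfl⟩
        exact ⟨eF f, rfl⟩
      · rintro ⟨f, rfl⟩
        exact ⟨eF.symm f, by simp⟩
    rw [hrange]
    exact C.gen
  · intro n f hf
    have h1 : LinearIndependent K₁ ((eF : F →+ F₁) ∘ f) := by
      refine hf.map_of_surjective_injective (eK : K → K₁) (eF : F →+ F₁) eK.surjective ?_ ?_
      · intro m hm
        exact (map_eq_zero_iff eF eF.injective).1 hm
      · intro r m
        change eF (r • m) = eK r • eF m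
        rw [Algebra.smul_def, map_mul, he, Algebra.smul_def]
    exact C.linDisj n _ h1

end Fermat.Agent.LEF.helper86
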