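import Mathlib
import Fermat.Agent.LEF.helper63_L5
import Fermat.Agent.LEF.helper7_ConFinal
import Fermat.Agent.LEF.helper95_Verbatim
import Fermat.Agent.LEF.helper12_Fix3
import Fermat.Agent.LEF.helper69_PlB
import Fermat.Agent.LEF.helper99_PlaceExt

/-!
# LEF: L5a, L5b, L5c, L4 VERBATIM and unconditional (helper99, wiring of helper63's `L5Inputs`)

* `l5Inputs`                 : `helper63.L5Inputs C` from the landed packages
  (PL-1/3 helper99, PL-5 helper69, CON-2/3/6 helper7, ACT-7 helper95, FIX-3 helper12);
* `riemannRochSpace_con`     : L5a, `L(Con D) = K'`-span of `ι (L(D))`;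
* `ell_con`                  : L5b, `ℓ(Con D) = ℓ(D)`;
* `riemann_inequality_con`   : L5c;
* `conPic0_injective`        : L4;
* `riemannGenus_eq`          : the Riemann genus is invariant under constant field extension.
-/

set_option autoImplicit false

open AlgebraicCurve

namespace Fermat.Agent.LEF.helper99

open Fermat.Agent.LEF Fermat.Agent.P2.helper74

variable {K F K' F' : Type*} [Field K] [Field F] [Algebra K F] [Field K'] [Field F']
  [Algebra K' F'] (C : ConstExt K F K' F')

/-- The inputs of helper63's L5 package. -/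
theorem l5Inputs [IsAlgClosed K] [IsAlgClosed K'] (hS : RiemannSetting K F)
    (hS' : RiemannSetting K' F') : helper63.L5Inputs C where
  exists_isExt := fun P => exists_isExt C hS P
  ord_eq_of_isExt := fun h f => ord_eq_of_isExt C hS h f
  isNew_or_exists_isExt := fun Q => helper69.isNew_or_exists_isExt C Q
  con_apply_of_isExt := fun h D => helper7.con_apply_of_isExt C hS h D
  con_apply_of_isNew := fun h D => helper7.con_apply_of_isNew C hS h D
  conOK := helper7.conOK C hS hS'
  act_smul_con := fun σ hσ D => helper95.V.act_smul_con C hS σ hσ D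
  span_inter_eq_of_stable := fun M hfd hst => helper12.span_inter_eq_of_stable C M hfd hst

/-- **L5a**: `L(Con D) = K' ⊗ L(D)`. -/
theorem riemannRochSpace_con [IsAlgClosed K] [IsAlgClosed K'] (hS : RiemannSetting K F)
    (hS' : RiemannSetting K' F') (D : Divisor K F) :
    riemannRochSpace (C.con D) =
      Submodule.span K' (C.ι '' (riemannRochSpace D : Set F)) :=
  helper63.riemannRochSpace_con_of (l5Inputs C hS hS') hS' D

/-- **L5b**: `ℓ(Con D) = ℓ(D)`. -/
theorem ell_con [IsAlgClosed K] [IsAlgClosed K'] (hS : RiemannSetting K F)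
    (hS' : RiemannSetting K' F') (D : Divisor K F) : ell (C.con D) = ell D :=
  helper63.ell_con_of (l5Inputs C hS hS') hS hS' D

/-- **L4**: the conorm is injective on divisor classes. -/
theorem conPic0_injective [IsAlgClosed K] [IsAlgClosed K'] (hS : RiemannSetting K F)
    (hS' : RiemannSetting K' F') : Function.Injective C.conPic0 :=
  helper63.conPic0_injective_of (l5Inputs C hS hS') hS hS'

/-- **L5c** (genus): Riemann's inequality transfers from `F` to `F'` with the same constant. -/
theorem riemann_inequality_con [IsAlgClosed K] [IsAlgClosed K'] (C : ConstExt K F K' F')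
    (hS : RiemannSetting K F) (hS' : RiemannSetting K' F') (g : ℤ)
    (hR : ∀ D : Divisor K F, Divisor.degree D + 1 - g ≤ (ell D : ℤ)) :
    ∀ D : Divisor K' F', Divisor.degree D + 1 - g ≤ (ell D : ℤ) :=
  helper63.riemann_inequality_con_of (l5Inputs C hS hS') hS hS' g hR

/-- **GENUS-R**: the Riemann genus is invariant under constant field extension. -/
theorem riemannGenus_eq [IsAlgClosed K] [IsAlgClosed K'] (C : ConstExt K F K' F')
    (hS : RiemannSetting K F) (hS' : RiemannSetting K' F') {g g' : ℕ}
    (hg : ∃ c : ℤ, ∀ D : Divisor K F, c ≤ Divisor.degree D →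
      (ell D : ℤ) + g = Divisor.degree D + 1)
    (hg' : ∃ c : ℤ, ∀ D : Divisor K' F', c ≤ Divisor.degree D →
      (ell D : ℤ) + g' = Divisor.degree D + 1) : g' = g := by
  obtain ⟨c, hc⟩ := hg
  obtain ⟨c', hc'⟩ := hg'
  obtain ⟨P₀⟩ := hS.nonempty
  set n : ℤ := max c c' with hn
  have hdeg : Divisor.degree (Finsupp.single P₀ n) = n := by
    rw [Divisor.degree_single, hS.deg_one]
    simp
  have h1 := hc (Finsupp.single P₀ n) (by rw [hdeg]; exact le_max_left _ _)
  have h2 := hc' (C.con (Finsupp.single P₀ n))
    (by rw [helper7.degree_con C hS hS', hdeg]; exact le_max_right _ _)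
  rw [helper7.degree_con C hS hS', ell_con C hS hS'] at h2
  have : (g' : ℤ) = g := by linarith
  exact_mod_cast this

end Fermat.Agent.LEF.helper99
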