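import Mathlib
import Fermat.Agent.LEF.helper99_L5Final
import Fermat.Agent.LEF.helper82_L6
import Fermat.Agent.LEF.helper13_Emb
import Fermat.Agent.LEF.helper57_Dom
import Fermat.Agent.LEF.helper86_Model2
import Fermat.Agent.LEF.helper67_Curve2
import Fermat.Agent.P5.helper42_RRBase
import Fermat.Agent.P5.helper42_RRDefs
import Fermat.Agent.P5.helper25_Top
import Fermat.Agent.P2.helper74_RiemannSep

/-!
# P5-LEF, assembly CASM (helper99): `ExistsComplexModel`

* `genusFF_eq_of_h1`     : `genusFF K F` is the Riemann genus, from `H1Statement` (P5-RR);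
* `transferOfConstExt`   : the `Transfer` datum of a constant field extension of function
  fields over algebraically closed fields of characteristic `0`;
* `existsComplexModel`   : `ExistsComplexModel` from `H1Statement` (in the universes of `K`, `F`
  and in universe `0`).
-/

set_option autoImplicit false

noncomputable section

open AlgebraicCurve IntermediateField

namespace Fermat.Agent.LEF.helper99

open Fermat.Agent.LEF Fermat.Agent.P2.helper74 Fermat.Agent.P5.helper25 Fermat.Agent.P5.helper42

universe u v u' v'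

/-- Algebraic closedness transfers along ring isomorphisms (universe polymorphic). -/
theorem isAlgClosed_of_ringEquiv' {K : Type u} {K₁ : Type u'} [Field K] [Field K₁]
    [IsAlgClosed K] (e : K ≃+* K₁) : IsAlgClosed K₁ := by
  apply IsAlgClosed.of_exists_root
  intro p _ hirr
  have hp : (p.map e.symm.toRingHom).degree ≠ 0 := by
    rw [Polynomial.degree_map]
    exact (Polynomial.degree_pos_of_irreducible hirr).ne'
  obtain ⟨y, hy⟩ := IsAlgClosed.exists_root (p.map e.symm.toRingHom) hp
  refine ⟨e y, ?_⟩
  rw [Polynomial.IsRoot, Polynomial.eval_map] at hy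
  have h := congrArg (e : K →+* K₁) hy
  rw [Polynomial.hom_eval₂, map_zero] at h
  have hcomp : (e : K →+* K₁).comp e.symm.toRingHom = RingHom.id K₁ := by
    ext a
    simp
  rw [hcomp, Polynomial.eval₂_id] at h
  exact h

/-- `genusFF` is the Riemann genus (from RR-H1). -/
theorem genusFF_eq_of_h1 (hH1 : H1Statement.{u, v}) {K : Type u} {F : Type v} [Field K]
    [Field F] [Algebra K F] (hS : RiemannSetting K F) {g : ℕ}
    (hg : ∃ c : ℤ, ∀ D : Divisor K F, c ≤ Divisor.degree D →
      (ell D : ℤ) + g = Divisor.degree D + 1) : genusFF K F = g := by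
  have h := (hH1 K F hS g hg 0).2
  rw [ell_zero hS, map_zero] at h
  have h2 : (Module.finrank K (H1 (0 : Divisor K F)) : ℤ) = g := by
    rw [h]; push_cast; ring
  unfold genusFF
  exact_mod_cast h2

/-- The `Transfer` datum of a constant field extension of function fields. -/
theorem exists_transfer_of_constExt (hH1 : H1Statement.{u, v}) (hH1' : H1Statement.{u', v'})
    {K : Type u} {F : Type v} {K' : Type u'} {F' : Type v'} [Field K] [Field F] [Algebra K F]
    [Field K'] [Field F'] [Algebra K' F'] [IsAlgClosed K] [IsAlgClosed K'] [CharZero K]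
    (C : ConstExt K F K' F') (x : F) (hx : Transcendental K x) [FiniteDimensional K⟮x⟯ F] :
    ∃ T : Transfer K F K' F', T.con = C.conPic0 ∧
      ∀ n : ℕ, 0 < n → Finite (Pic0.torsion K' F' n) →
        ∀ c ∈ Pic0.torsion K' F' n, ∃ c₀ : Pic0 K F, T.con c₀ = c := by
  haveI : CharZero K' := charZero_of_injective_ringHom C.κ.injective
  obtain ⟨hx', hfd'⟩ := helper86.transcendental_ι C x hx
  haveI := hfd'
  have hS : RiemannSetting K F := riemannSetting_of_separating x hx
  have hS' : RiemannSetting K' F' := riemannSetting_of_separating (C.ι x) hx'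
  obtain ⟨g, hg⟩ := exists_hasRiemannGenus (K := K) (F := F) x hx
  obtain ⟨g', hg'⟩ := exists_hasRiemannGenus (K := K') (F := F') (C.ι x) hx'
  have hgg : g' = g := riemannGenus_eq C hS hS' hg hg'
  have hR : ∃ g₀ : ℤ, ∀ D : Divisor K' F', Divisor.degree D + 1 - g₀ ≤ (ell D : ℤ) := by
    refine ⟨g', fun D => ?_⟩
    have := HasRiemannGenus.ineq hS' hg' D
    linarith
  refine ⟨⟨C.conPic0, conPic0_injective C hS hS', ?_⟩, rfl, ?_⟩
  · rw [genusFF_eq_of_h1 hH1 hS hg, genusFF_eq_of_h1 hH1' hS' hg', hgg]
  · intro n hn hfin c hc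
    exact helper82.exists_conPic0_eq_of_finite C hS hS' hR n hn hfin c hc

/-- **CASM**: complex models exist for function fields over countable constant fields. -/
theorem existsComplexModel (hH1 : H1Statement.{u, v}) (hH1' : H1Statement.{0, 0}) :
    ExistsComplexModel.{u, v} := by
  intro K F _ _ _ _ _ _ _ _
  obtain ⟨x, hx, hfd, -, -⟩ := exists_separating_transcendental (K := K) (F := F)
  haveI := hfd
  haveI : Countable F := helper13.countable_of_essFiniteType K F
  obtain ⟨K₁, F₁, instK₁, instF₁, instA₁, eK, eF, he⟩ := helper13.exists_small_model K F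
  haveI : Countable K₁ := eK.symm.toEquiv.injective.countable
  haveI : CharZero K₁ := charZero_of_injective_ringHom eK.toRingHom.injective
  haveI : IsAlgClosed K₁ := isAlgClosed_of_ringEquiv' eK
  obtain ⟨κ₁⟩ := helper13.exists_ringHom_complex K₁
  obtain ⟨F', instF', instA', C₁, -⟩ := helper57.exists_constExt K₁ F₁ ℂ κ₁
  obtain ⟨C, -, -⟩ := helper86.exists_constExt_comp eK eF he C₁
  obtain ⟨hx', hfd'⟩ := helper86.transcendental_ι C x hx
  haveI := hfd'
  obtain ⟨hcurve, hess⟩ := helper67.isCurveOver_of_transcendental ℂ F' (C.ι x) hx'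
  obtain ⟨T, -, hT⟩ := exists_transfer_of_constExt hH1 hH1' C x hx
  exact ⟨{ FC := F', field := instF', alg := instA', curve := hcurve, ess := hess, tr := T,
           descent := hT }⟩

end Fermat.Agent.LEF.helper99

end
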