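import Mathlib
import Fermat.Agent.LEF.helper99_ComplexModel
import Fermat.Agent.LEF.helper69_PlB
import Fermat.Agent.LEF.helper7_ConFinal

/-!
# P5-LEF, assembly KASM (helper99): `ExistsCountableModel`

* `SubStatement`              : the statement of package SUB (`exists_countable_submodel`);
* `not_isNew_of_residue`      : a place of `F'` at which `ι x` has a pole or a residue in `K` is
  not new;
* `exists_con_eq_of_support`  : a divisor of `F'` supported on places coming from `F` is a
  conorm;
* `existsCountableModel_of`   : `ExistsCountableModel` from `H1Statement` (P5-RR) and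
  `SubStatement`.
-/

set_option autoImplicit false

noncomputable section

open AlgebraicCurve IntermediateField

namespace Fermat.Agent.LEF.helper99

open Fermat.Agent.LEF Fermat.Agent.P2.helper74 Fermat.Agent.P5.helper25 Fermat.Agent.P5.helper42
open Fermat.Agent.S24

universe u v

/-- **SUB** (statement of the package `exists_countable_submodel`): a function field `F/K` is
the constant field extension of a function field `F₀/K₀` over a countable algebraically closed
subfield `K₀ ⊆ K` containing a given countable set `T`. -/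
def SubStatement : Prop :=
  ∀ (K : Type u) (F : Type v) [Field K] [Field F] [Algebra K F] [IsAlgClosed K] [CharZero K]
    (x : F) (_ : Transcendental K x) [FiniteDimensional K⟮x⟯ F] (T : Set K) (_ : T.Countable),
    ∃ (K₀ : Type u) (F₀ : Type v) (_ : Field K₀) (_ : Field F₀) (_ : Algebra K₀ F₀)
      (C : ConstExt K₀ F₀ K F), IsAlgClosed K₀ ∧ Countable K₀ ∧ T ⊆ Set.range C.κ ∧
        ∃ x₀ : F₀, C.ι x₀ = x ∧ Transcendental K₀ x₀ ∧ FiniteDimensional K₀⟮x₀⟯ F₀

section General

variable {K F K' F' : Type*} [Field K] [Field F] [Algebra K F] [Field K'] [Field F']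
  [Algebra K' F'] (C : ConstExt K F K' F')

/-- **SUB-PL**: a place of `F'` at which `ι x` has a pole, or a residue in `K`, is not new. -/
theorem not_isNew_of_residue (x : F) (Q : Place K' F')
    (h : Q.ord (C.ι x) < 0 ∨ ∃ a : K, 0 < Q.ord (C.ι x - algebraMap K' F' (C.κ a))) :
    ¬ C.IsNew Q := by
  intro hnew
  rcases h with h | ⟨a, ha⟩
  · have := helper82.ord_nonneg_of_mem Q (hnew x)
    omega
  · have h1 := helper82.ord_nonneg_of_mem Q (hnew (x - algebraMap K F a)⁻¹)
    rw [map_inv₀, Q.ord_inv, map_sub, C.comm] at h1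
    omega

/-- A divisor of `F'` supported on places coming from `F` is a conorm. -/
theorem exists_con_eq_of_support (hS : RiemannSetting K F) (D : Divisor K' F')
    (hD : ∀ Q ∈ D.support, ∃ P : Place K F, C.IsExt P Q) :
    ∃ D₀ : Divisor K F, C.con D₀ = D := by
  classical
  obtain ⟨P₀⟩ := hS.nonempty
  let r : Place K' F' → Place K F := fun Q =>
    if h : ∃ P : Place K F, C.IsExt P Q then h.choose else P₀
  have hr : ∀ Q ∈ D.support, C.IsExt (r Q) Q := by
    intro Q hQ
    have h := hD Q hQ
    simp only [r, dif_pos h]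
    exact h.choose_spec
  refine ⟨D.sum fun Q n => Finsupp.single (r Q) n, ?_⟩
  rw [Finsupp.sum, map_sum]
  conv_rhs => rw [← Finsupp.sum_single D]
  rw [Finsupp.sum]
  refine Finset.sum_congr rfl fun Q hQ => ?_
  exact helper7.con_single_of_isExt C hS (hr Q hQ) (D Q)

end General

/-- **KASM**: countable models exist, given RR-H1 and SUB. -/
theorem existsCountableModel_of (hH1 : H1Statement.{u, v}) (hSub : SubStatement.{u, v}) :
    ExistsCountableModel.{u, v} := by
  classical
  intro K F _ _ _ _ _ _ _ S
  obtain ⟨x, hx, hfd, -, -⟩ := exists_separating_transcendental (K := K) (F := F)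
  haveI := hfd
  have hS : RiemannSetting K F := riemannSetting_of_separating x hx
  -- representatives
  choose Dof hDof using fun c : Pic0 K F => Pic0.mk_surjective c
  let Supp : Finset (Place K F) := S.biUnion fun c => (Dof c : Divisor K F).support
  -- residues of `x`
  let a : Place K F → K := fun P =>
    if h : 0 ≤ P.ord x then (hS.residue P x h).choose else 0
  have ha : ∀ P : Place K F, 0 ≤ P.ord x → 0 < P.ord (x - algebraMap K F (a P)) := by
    intro P h
    have hspec := (hS.residue P x h).choose_spec
    simp only [a, dif_pos h]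
    rcases hspec with h1 | h1
    · exact absurd (h1 ▸ isAlgebraic_algebraMap _) hx
    · exact h1
  let T : Set K := a '' (Supp : Set (Place K F))
  have hT : T.Countable := (Supp.finite_toSet.image a).countable
  obtain ⟨K₀, F₀, instK₀, instF₀, instA₀, C, hAC, hCnt, hTC, x₀, hx₀x, hx₀, hfd₀⟩ :=
    hSub K F x hx T hT
  haveI := hAC
  haveI := hCnt
  haveI := hfd₀
  haveI : CharZero K₀ := RingHom.charZero C.κ
  have hS₀ : RiemannSetting K₀ F₀ := riemannSetting_of_separating x₀ hx₀
  obtain ⟨hcurve, hess⟩ := helper67.isCurveOver_of_transcendental K₀ F₀ x₀ hx₀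
  obtain ⟨Tr, hTr, -⟩ := exists_transfer_of_constExt hH1 hH1 C x₀ hx₀
  -- the places of the supports come from `F₀`
  have hext : ∀ P ∈ Supp, ∃ P₀ : Place K₀ F₀, C.IsExt P₀ P := by
    intro P hP
    have hnn : ¬ C.IsNew P := by
      apply not_isNew_of_residue C x₀ P
      rw [hx₀x]
      by_cases h : 0 ≤ P.ord x
      · right
        obtain ⟨a₀, ha₀⟩ := hTC ⟨P, hP, rfl⟩
        exact ⟨a₀, by rw [ha₀]; exact ha P h⟩
      · left
        omega
    exact (helper69.isNew_or_exists_isExt C P).resolve_left hnn
  refine ⟨{ K₀ := K₀, F₀ := F₀, fieldK := instK₀, fieldF := instF₀, alg := instA₀,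
            algClosed := hAC, charZero := inferInstance, curve := hcurve, ess := hess,
            countable := hCnt, tr := Tr, mem_range := ?_ }⟩
  intro c hc
  have hsupp : ∀ Q ∈ (Dof c : Divisor K F).support, ∃ P₀ : Place K₀ F₀, C.IsExt P₀ Q := by
    intro Q hQ
    exact hext Q (Finset.mem_biUnion.mpr ⟨c, hc, hQ⟩)
  obtain ⟨D₀, hD₀⟩ := exists_con_eq_of_support C hS₀ (Dof c : Divisor K F) hsupp
  have hdeg : Divisor.degree D₀ = 0 := by
    rw [← helper7.degree_con C hS₀ hS D₀, hD₀]
    exact (Dof c).2
  refine ⟨Pic0.mk ⟨D₀, hdeg⟩, ?_⟩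
  rw [hTr, helper7.conPic0_mk' C hS₀ hS, ← hDof c]
  congr 1
  exact Subtype.ext hD₀

end Fermat.Agent.LEF.helper99

end
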