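import Mathlib
import Fermat.Agent.LEF.helper85_Sub
import Fermat.Agent.LEF.helper99_CountableModel

/-!
# P5-LEF: `SubStatement` and `ExistsCountableModel` from RR-H1 only (helper85)

Wiring of `helper85.exists_countable_submodel` (package SUB) into helper99's assembly KASM.
-/

set_option autoImplicit false

namespace Fermat.Agent.LEF.helper85

universe u v

/-- **SUB** in the `Prop` form of `helper99_CountableModel`. -/
theorem subStatement : Fermat.Agent.LEF.helper99.SubStatement.{u, v} :=
  fun K F _ _ _ _ _ x hx _ T hT => exists_countable_submodel K F x hx T hT

/-- **KASM**, final form: countable models exist, given RR-H1 only. -/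
theorem existsCountableModel (hH1 : Fermat.Agent.P5.helper42.H1Statement.{u, v}) :
    Fermat.Agent.P5.helper25.ExistsCountableModel.{u, v} :=
  Fermat.Agent.LEF.helper99.existsCountableModel_of hH1 subStatement

end Fermat.Agent.LEF.helper85
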