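import Mathlib
import Fermat.Agent.LEF.helper99_L5Final
import Fermat.Agent.LEF.helper44_Laurent
import Fermat.Agent.LEF.helper95_Verbatim
import Fermat.Agent.P3.helper16_ANInterface
import Fermat.Agent.P3.helper80_DegreeC
import Fermat.Agent.P2.helper74_RiemannSep
import Fermat.Agent.S24.helper77_Degree
import Fermat.Agent.S24.helper77_Transc

/-!
# P3 `[DESC]` (helper99, LEF sub-coordinator): `DescStatement M` from the LEF module

`helper16.DescStatement M` : the conorm `con : J₀(M) = Pic⁰(F_ℚ̄) → Pic⁰(F_ℂ)` of the constant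
field extension `ℚ̄ → ℂ` is injective, commutes with the Hecke correspondences at the primes
`ℓ ∤ M`, and every torsion class of `Pic⁰(F_ℂ)` is in its image.

* `jC`                 : the embedding `ℚ̄ → ℂ`;
* `descC M`            : the constant field extension `F_ℚ̄(M) → F_ℂ(M)` (helper44);
* `riemannSettingQ/C`  : the `RiemannSetting`s of the modular function fields;
* `descStatement_of`   : `DescStatement M` from
    - `hL6`  : torsion descent (interface statement L6 for `descC M`),
    - `hfin` : finiteness of the torsion of `Pic⁰(F_ℂ)` ([AN5]),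
    - `hHQ`, `hHC` : `HeckeInputsAlong` over `ℚ̄` and over `ℂ` ([GAL-HI]).
-/

set_option autoImplicit false

noncomputable section

open AlgebraicCurve ModularCurve

namespace Fermat.Agent.LEF.helper99

open Fermat.Agent.LEF Fermat.Agent.P2.helper74 Fermat.Agent.S24 Fermat.Agent.P3
open IntermediateField

/-- The embedding `ℚ̄ → ℂ` (the chosen embedding `iotaC` of the S24 / AN library). -/
def jC : AlgebraicClosure ℚ →+* ℂ := (iotaC : Kbar →+* ℂ)

/-- The constant field extension `F_ℚ̄(M) → F_ℂ(M)`. -/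
def descC (M : ℕ) : ConstExt (AlgebraicClosure ℚ)
    (laurentBaseChange (AlgebraicClosure ℚ) (modularFunctionFieldFull M)) ℂ
    (laurentBaseChange ℂ (modularFunctionFieldFull M)) :=
  helper44.laurentConstExt jC (modularFunctionFieldFull M)

theorem descC_κ (M : ℕ) : (descC M).κ = jC := rfl

theorem descC_ι (M : ℕ)
    (x : laurentBaseChange (AlgebraicClosure ℚ) (modularFunctionFieldFull M)) :
    (((descC M).ι x : laurentBaseChange ℂ (modularFunctionFieldFull M)) : LaurentSeries ℂ) =
      coeffMap jC (x : LaurentSeries (AlgebraicClosure ℚ)) := rfl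

/-- The `RiemannSetting` of the function field of `X₀(M)` over `ℚ̄`. -/
theorem riemannSettingQ (M : ℕ) [NeZero M] :
    RiemannSetting (AlgebraicClosure ℚ)
      (laurentBaseChange (AlgebraicClosure ℚ) (modularFunctionFieldFull M)) :=
  haveI : FiniteDimensional Kbar⟮xJ M⟯ (FN M) := helper77.an_finiteDimensional M
  riemannSetting_of_separating (K := Kbar) (F := FN M) (xJ M) (helper77.an_transcendental M)

/-- The `RiemannSetting` of the function field of `X₀(M)` over `ℂ`. -/
theorem riemannSettingC (M : ℕ) [NeZero M] :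
    RiemannSetting ℂ (laurentBaseChange ℂ (modularFunctionFieldFull M)) :=
  riemannSetting_of_separating (K := ℂ) (F := helper80.FC M) (helper80.xJC M)
    (helper80.xJC_transcendental M)

/-- Riemann's inequality for the function field of `X₀(M)` over `ℂ`. -/
theorem riemannIneqC (M : ℕ) [NeZero M] :
    ∃ g : ℤ, ∀ D : Divisor ℂ (laurentBaseChange ℂ (modularFunctionFieldFull M)),
      Divisor.degree D + 1 - g ≤ (ell D : ℤ) := by
  obtain ⟨g, hg⟩ := exists_hasRiemannGenus (K := ℂ) (F := helper80.FC M) (helper80.xJC M)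
    (helper80.xJC_transcendental M)
  refine ⟨g, fun D => ?_⟩
  have := hg.ineq (riemannSettingC M) D
  linarith

/-- The conorm `J₀(M) → Pic⁰(F_ℂ)` is injective. -/
theorem descC_conPic0_injective (M : ℕ) [NeZero M] : Function.Injective (descC M).conPic0 :=
  conPic0_injective (descC M) (riemannSettingQ M) (riemannSettingC M)

/-- The torsion subgroup of the Prelude versus the kernel of multiplication by `m`. -/
theorem finite_torsion_of_finite_ker {K F : Type*} [Field K] [Field F] [Algebra K F] (m : ℕ)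
    (h : Finite (nsmulAddMonoidHom (α := Pic0 K F) m).ker) : Finite (Pic0.torsion K F m) := by
  have hinj : Function.Injective
      (fun x : Pic0.torsion K F m => (⟨x.1, by
        have := Pic0.mem_torsion.mp x.2
        rw [AddMonoidHom.mem_ker, nsmulAddMonoidHom_apply]
        rwa [natCast_zsmul] at this⟩ : (nsmulAddMonoidHom (α := Pic0 K F) m).ker)) := by
    intro a b hab
    exact Subtype.ext (congrArg (fun y : (nsmulAddMonoidHom (α := Pic0 K F) m).ker => y.1) hab)
  exact Finite.of_injective _ hinj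

/-- **[DESC]**: `DescStatement M` from torsion descent (L6), the finiteness of the torsion over
`ℂ` and the Hecke inputs over `ℚ̄` and `ℂ`. -/
theorem descStatement_of (M : ℕ) [NeZero M]
    (hL6 : ∀ (n : ℕ), 0 < n →
      Finite (Pic0.torsion ℂ (laurentBaseChange ℂ (modularFunctionFieldFull M)) n) →
      ∀ c : Pic0 ℂ (laurentBaseChange ℂ (modularFunctionFieldFull M)),
        c ∈ Pic0.torsion ℂ (laurentBaseChange ℂ (modularFunctionFieldFull M)) n →
        ∃ c₀ : Pic0 (AlgebraicClosure ℚ)
            (laurentBaseChange (AlgebraicClosure ℚ) (modularFunctionFieldFull M)),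
          (descC M).conPic0 c₀ = c)
    (hfin : ∀ m : ℕ, 0 < m → helper16.FiniteTorsionCStatement M m)
    (hHQ : ∀ ℓ : Nat.Primes, ¬ (ℓ : ℕ) ∣ M →
      haveI : NeZero (ℓ : ℕ) := ⟨ℓ.2.ne_zero⟩
      HeckeInputsAlong (AlgebraicClosure ℚ) M ℓ)
    (hHC : ∀ ℓ : Nat.Primes, ¬ (ℓ : ℕ) ∣ M →
      haveI : NeZero (ℓ : ℕ) := ⟨ℓ.2.ne_zero⟩
      HeckeInputsAlong ℂ M ℓ) :
    helper16.DescStatement M := by
  refine ⟨(descC M).conPic0, descC_conPic0_injective M, ?_, ?_⟩
  · intro ℓ hℓ x
    haveI : NeZero (ℓ : ℕ) := ⟨ℓ.2.ne_zero⟩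
    haveI : NeZero (M * (ℓ : ℕ)) := ⟨Nat.mul_ne_zero (NeZero.ne M) ℓ.2.ne_zero⟩
    exact helper95.V.conPic0_heckeOperatorAlong jC M ℓ (descC M) (descC_κ M) (descC_ι M)
      (hHQ ℓ hℓ) (hHC ℓ hℓ) (riemannSettingQ M) (riemannSettingQ (M * ℓ))
      (riemannSettingC M) (riemannSettingC (M * ℓ)) x
  · rintro y ⟨m, hm, hy⟩
    refine hL6 m hm (finite_torsion_of_finite_ker m (hfin m hm)) y ?_
    rw [Pic0.mem_torsion, natCast_zsmul]
    exact hy

end Fermat.Agent.LEF.helper99

end
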