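import Mathlib
import Fermat.Agent.LEF.helper99_Desc
import Fermat.Agent.LEF.helper82_L6
import Fermat.Agent.P3.helper58_HeckeInputs

/-!
# P3 `[DESC]`, final form (helper99, LEF sub-coordinator)

For the constant field extension `descC M : F_ℚ̄(M) → F_ℂ(M)` (`κ = iotaC`, `ι = coeffMap iotaC
= helper17.toC`):

* `descC_exists_conPic0_eq` : torsion descent (L6), UNCONDITIONAL up to the finiteness of the
  torsion of `Pic⁰(F_ℂ)`;
* `descC_torsion_surj`      : every class killed by `m > 0` is a conorm, given
  `helper16.FiniteTorsionCStatement M m`;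
* `descC_kummer`            : the Kummer dictionary: if `m • D = div h` then
  `con [D] = [D']` with `m • D' = div (ι h)`;
* `descB`                   : the package `(i) + (s')` of Route B (helper16 #1122);
* `descStatement`           : `helper16.DescStatement M` (Route A) from the finiteness of the
  torsion over `ℂ` and `HeckeInputsAlong ℂ`.
-/

set_option autoImplicit false

noncomputable section

open AlgebraicCurve ModularCurve

namespace Fermat.Agent.LEF.helper99

open Fermat.Agent.LEF Fermat.Agent.P2.helper74 Fermat.Agent.S24 Fermat.Agent.P3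

/-- **L6** for `descC M`: torsion classes of `Pic⁰(F_ℂ)` descend to `ℚ̄`. -/
theorem descC_exists_conPic0_eq (M : ℕ) [NeZero M] (n : ℕ) (hn : 0 < n)
    (hfin : Finite (Pic0.torsion ℂ (laurentBaseChange ℂ (modularFunctionFieldFull M)) n))
    (c : Pic0 ℂ (laurentBaseChange ℂ (modularFunctionFieldFull M)))
    (hc : c ∈ Pic0.torsion ℂ (laurentBaseChange ℂ (modularFunctionFieldFull M)) n) :
    ∃ c₀ : Pic0 (AlgebraicClosure ℚ)
        (laurentBaseChange (AlgebraicClosure ℚ) (modularFunctionFieldFull M)),
      (descC M).conPic0 c₀ = c :=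
  helper82.exists_conPic0_eq_of_finite (descC M) (riemannSettingQ M) (riemannSettingC M)
    (riemannIneqC M) n hn hfin c hc

/-- Every class of `Pic⁰(F_ℂ)` killed by `m > 0` is a conorm, given the finiteness of the
`m`-torsion. -/
theorem descC_torsion_surj (M : ℕ) [NeZero M] (m : ℕ) (hm : 0 < m)
    (hfin : helper16.FiniteTorsionCStatement M m) (y : helper16.JC M) (hy : m • y = 0) :
    ∃ x : JZero M, (descC M).conPic0 x = y := by
  refine descC_exists_conPic0_eq M m hm (finite_torsion_of_finite_ker m hfin) y ?_
  rw [Pic0.mem_torsion, natCast_zsmul]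
  exact hy

/-- `ConOK` for `descC M`. -/
theorem descC_conOK (M : ℕ) [NeZero M] : (descC M).ConOK :=
  helper7.conOK (descC M) (riemannSettingQ M) (riemannSettingC M)

/-- The conorm of a class is the class of the conorm. -/
theorem descC_conPic0_mk (M : ℕ) [NeZero M]
    (D : Divisor.degZero (K := AlgebraicClosure ℚ)
      (F := laurentBaseChange (AlgebraicClosure ℚ) (modularFunctionFieldFull M))) :
    (descC M).conPic0 (Pic0.mk D) = Pic0.mk ((descC M).conDegZero (descC_conOK M) D) :=
  helper7.conPic0_mk (descC M) _ D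

/-- The conorm of the divisor of `h` is the divisor of `ι h = toC h`, in Kummer form. -/
theorem descC_con_ord (M : ℕ) [NeZero M] (m : ℤ)
    (D : Divisor (AlgebraicClosure ℚ)
      (laurentBaseChange (AlgebraicClosure ℚ) (modularFunctionFieldFull M)))
    (h : laurentBaseChange (AlgebraicClosure ℚ) (modularFunctionFieldFull M)) (hh : h ≠ 0)
    (hD : ∀ v : Place (AlgebraicClosure ℚ)
      (laurentBaseChange (AlgebraicClosure ℚ) (modularFunctionFieldFull M)), m * D v = v.ord h)
    (w : Place ℂ (laurentBaseChange ℂ (modularFunctionFieldFull M))) :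
    m * (descC M).con D w = w.ord ((descC M).ι h) := by
  have h1 := helper7.con_apply_of_principal (descC M) (riemannSettingQ M) hh (D := m • D)
    (fun v => by rw [Finsupp.smul_apply, smul_eq_mul, hD v]) w
  rw [map_zsmul, Finsupp.smul_apply, smul_eq_mul] at h1
  exact h1

/-- **Kummer dictionary**: if `m • D = div h` then `con [D] = [D']` with `m • D' = div (ι h)`. -/
theorem descC_kummer (M : ℕ) [NeZero M] (m : ℤ)
    (D : Divisor.degZero (K := AlgebraicClosure ℚ)
      (F := laurentBaseChange (AlgebraicClosure ℚ) (modularFunctionFieldFull M)))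
    (h : laurentBaseChange (AlgebraicClosure ℚ) (modularFunctionFieldFull M)) (hh : h ≠ 0)
    (hD : ∀ v : Place (AlgebraicClosure ℚ)
      (laurentBaseChange (AlgebraicClosure ℚ) (modularFunctionFieldFull M)),
        m * (D : Divisor (AlgebraicClosure ℚ)
          (laurentBaseChange (AlgebraicClosure ℚ) (modularFunctionFieldFull M))) v = v.ord h) :
    ∃ D' : Divisor.degZero (K := ℂ) (F := laurentBaseChange ℂ (modularFunctionFieldFull M)),
      (descC M).conPic0 (Pic0.mk D) = Pic0.mk D' ∧
        (D' : Divisor ℂ (laurentBaseChange ℂ (modularFunctionFieldFull M))) =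
          (descC M).con (D : Divisor (AlgebraicClosure ℚ)
            (laurentBaseChange (AlgebraicClosure ℚ) (modularFunctionFieldFull M))) ∧
        (descC M).ι h ≠ 0 ∧
        ∀ w : Place ℂ (laurentBaseChange ℂ (modularFunctionFieldFull M)),
          m * (D' : Divisor ℂ (laurentBaseChange ℂ (modularFunctionFieldFull M))) w =
            w.ord ((descC M).ι h) := by
  refine ⟨(descC M).conDegZero (descC_conOK M) D, descC_conPic0_mk M D, rfl, ?_, fun w => ?_⟩
  · rw [Ne, map_eq_zero]
    exact hh
  · exact descC_con_ord M m D h hh hD w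

/-- **Route B** (helper16 #1122): the conorm `J₀(M) → Pic⁰(F_ℂ)` is injective and every class
killed by `m > 0` is a conorm as soon as the `m`-torsion of `Pic⁰(F_ℂ)` is finite. -/
theorem descB (M : ℕ) [NeZero M] :
    ∃ con : JZero M →+ helper16.JC M, con = (descC M).conPic0 ∧ Function.Injective con ∧
      ∀ m : ℕ, 0 < m → helper16.FiniteTorsionCStatement M m →
        ∀ y : helper16.JC M, m • y = 0 → ∃ x : JZero M, con x = y :=
  ⟨(descC M).conPic0, rfl, descC_conPic0_injective M,
    fun m hm hfin y hy => descC_torsion_surj M m hm hfin y hy⟩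

/-- **[DESC]** (Route A): `DescStatement M` from the finiteness of the torsion over `ℂ` and the
Hecke inputs over `ℂ`. -/
theorem descStatement (M : ℕ) [NeZero M]
    (hfin : ∀ m : ℕ, 0 < m → helper16.FiniteTorsionCStatement M m)
    (hHC : ∀ ℓ : Nat.Primes, ¬ (ℓ : ℕ) ∣ M →
      haveI : NeZero (ℓ : ℕ) := ⟨ℓ.2.ne_zero⟩
      HeckeInputsAlong ℂ M ℓ) :
    helper16.DescStatement M :=
  descStatement_of M (fun n hn hf c hc => descC_exists_conPic0_eq M n hn hf c hc) hfin
    (fun ℓ _ =>
      haveI : NeZero (ℓ : ℕ) := ⟨ℓ.2.ne_zero⟩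
      helper58.heckeInputsAlong_bar M ℓ) hHC

end Fermat.Agent.LEF.helper99

end
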