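import Mathlib
import Fermat.Agent.LEF.helper99_DescFinal
import Fermat.Agent.P3.helper58_HeckeInputsL
import Fermat.Agent.P3.helper48_FinC

/-!
# P3 `[DESC]`, UNCONDITIONAL (helper99)

* `descStatement_uncond M : helper16.DescStatement M` : the conorm
  `con : J₀(M) = Pic⁰(F_ℚ̄) → Pic⁰(F_ℂ)` is injective, commutes with the Hecke correspondences at
  the primes `ℓ ∤ M`, and every torsion class of `Pic⁰(F_ℂ)` is in its image.
* `descC_torsion_surj_uncond` : every class of `Pic⁰(F_ℂ)` killed by `m > 0` is a conorm.

Inputs: LEF (`helper99_DescFinal`), `helper48.finiteTorsionC` ([FIN-C]),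
`helper58.heckeInputsAlong_complex` ([GAL-HI]).
-/

set_option autoImplicit false

noncomputable section

open AlgebraicCurve ModularCurve

namespace Fermat.Agent.LEF.helper99

open Fermat.Agent.LEF Fermat.Agent.P3

/-- Every class of `Pic⁰(F_ℂ)` killed by `m > 0` is a conorm. -/
theorem descC_torsion_surj_uncond (M : ℕ) [NeZero M] (m : ℕ) (hm : 0 < m)
    (y : helper16.JC M) (hy : m • y = 0) : ∃ x : JZero M, (descC M).conPic0 x = y :=
  descC_torsion_surj M m hm (helper48.finiteTorsionC M m hm) y hy

/-- **[DESC]**, unconditional. -/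
theorem descStatement_uncond (M : ℕ) [NeZero M] : helper16.DescStatement M :=
  descStatement M (fun m hm => helper48.finiteTorsionC M m hm)
    (fun ℓ _ =>
      haveI : NeZero (ℓ : ℕ) := ⟨ℓ.2.ne_zero⟩
      helper58.heckeInputsAlong_complex M ℓ)

end Fermat.Agent.LEF.helper99

end
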