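import Mathlib
import Fermat.Agent.LEF.helper99_PlaceExt
import Fermat.Agent.LEF.helper69_PlB
import Fermat.Agent.P2.helper74_NonSpecial

/-!
# LEF: linear disjointness from a place (helper99)

Let `F₀/K₀` be a function field all of whose places have constant residues (`RiemannSetting`),
`F/K` a field extension with a place, and `κ : K₀ → K`, `ι : F₀ → F` compatible field
embeddings.  If some place `P` of `F/K` restricts to a place `P₀` of `F₀/K₀`, then `F₀` and `K`
are linearly disjoint over `K₀` in `F`:

* `ld_sum`                      : the elimination (induction on the number of terms);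
* `linearIndependent_of_place`  : `K₀`-linearly independent families of `F₀` stay linearly
  independent over `K`;
* `comapPlace`                  : the restriction of a place along `ι`;
* `linDisj_of_riemannSetting`   : the `linDisj` field of a `ConstExt K₀ F₀ K F`, as soon as
  `F₀` contains an element which is not constant in `F` (this is the linear disjointness
  needed by the package SUB).
-/

set_option autoImplicit false
set_option linter.unusedSectionVars false
set_option linter.unusedVariables false

open AlgebraicCurve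

namespace Fermat.Agent.LEF.helper99

open Fermat.Agent.LEF Fermat.Agent.P2.helper74 Fermat.Agent.S24

section LinDisj

variable {K₀ F₀ K F : Type*} [Field K₀] [Field F₀] [Algebra K₀ F₀] [Field K] [Field F]
  [Algebra K F] (κ : K₀ →+* K) (ι : F₀ →+* F)

/-- The restriction of a place along `ι`. -/
def comapPlace (comm : ∀ a : K₀, ι (algebraMap K₀ F₀ a) = algebraMap K F (κ a))
    (P : Place K F) (hne : P.toValuationSubring.comap ι ≠ ⊤) : Place K₀ F₀ where
  toValuationSubring := P.toValuationSubring.comap ι
  algebraMap_mem' a := by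
    rw [ValuationSubring.mem_comap, comm]
    exact P.algebraMap_mem' (κ a)
  ne_top' := hne
  isPrincipalIdealRing' := helper69.isPrincipalIdealRing_comap_of_ne_top P ι hne

theorem mem_comapPlace (comm : ∀ a : K₀, ι (algebraMap K₀ F₀ a) = algebraMap K F (κ a))
    (P : Place K F) (hne : P.toValuationSubring.comap ι ≠ ⊤) (f : F₀) :
    ι f ∈ P.toValuationSubring ↔ f ∈ (comapPlace κ ι comm P hne).toValuationSubring :=
  Iff.rfl

variable {ι}

/-- `ι` maps the maximal ideal of `P₀` into the maximal ideal of `P`. -/
theorem ι_mem_mP_of_ext {P : Place K F} {P₀ : Place K₀ F₀}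
    (hext : ∀ f : F₀, ι f ∈ P.toValuationSubring ↔ f ∈ P₀.toValuationSubring) {f : F₀}
    (hf : f ∈ mP P₀) : ι f ∈ mP P := by
  rcases hf with rfl | hf
  · left
    simp
  · right
    have h1 : 0 ≤ P.ord (ι f) := by
      rw [← helper82.mem_iff_ord_nonneg, hext, helper82.mem_iff_ord_nonneg]
      exact hf.le
    have h2 : ¬ 0 ≤ P.ord (ι f⁻¹) := by
      rw [← helper82.mem_iff_ord_nonneg, hext, helper82.mem_iff_ord_nonneg, P₀.ord_inv]
      omega
    rw [map_inv₀, P.ord_inv] at h2
    omega

/-- A constant in the maximal ideal is zero. -/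
theorem eq_zero_of_algebraMap_mem_mP (P : Place K F) {c : K}
    (h : algebraMap K F c ∈ mP P) : c = 0 := by
  rcases h with h | h
  · simpa using h
  · rw [helper82.ord_algebraMap] at h
    exact absurd h (lt_irrefl 0)

variable {κ}

/-- **Elimination**: a `K`-linear relation between the images of elements of `F₀` without
`K₀`-linear relations is trivial. -/
theorem ld_sum (comm : ∀ a : K₀, ι (algebraMap K₀ F₀ a) = algebraMap K F (κ a))
    (hS₀ : RiemannSetting K₀ F₀) {P : Place K F} {P₀ : Place K₀ F₀}
    (hext : ∀ f : F₀, ι f ∈ P.toValuationSubring ↔ f ∈ P₀.toValuationSubring) {I : Type*} :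
    ∀ (n : ℕ) (s : Finset I) (f : I → F₀) (c : I → K), s.card ≤ n →
      (∀ a : I → K₀, ∑ i ∈ s, a i • f i = 0 → ∀ i ∈ s, a i = 0) →
      ∑ i ∈ s, c i • ι (f i) = 0 → ∀ i ∈ s, c i = 0 := by
  classical
  intro n
  induction n with
  | zero =>
    intro s f c hs _ _ i hi
    have : s = ∅ := Finset.card_eq_zero.mp (Nat.le_zero.mp hs)
    rw [this] at hi
    simp at hi
  | succ n ih =>
    intro s f c hs hind hsum
    rcases s.eq_empty_or_nonempty with rfl | hne
    · intro i hi
      simp at hi
    have hfne : ∀ i ∈ s, f i ≠ 0 := by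
      intro i hi h0
      have h1 := hind (fun j => if j = i then 1 else 0) (by
        refine Finset.sum_eq_zero fun j _ => ?_
        by_cases hj : j = i
        · rw [hj, h0, smul_zero]
        · rw [if_neg hj, zero_smul]) i hi
      simp at h1
    obtain ⟨π, hπ⟩ := exists_uniformizer P₀
    have hπ0 := uniformizer_ne_zero P₀ hπ
    have hιπ0 : ι π ≠ 0 := by simpa using hπ0
    obtain ⟨i₀, hi₀, hmin⟩ := Finset.exists_min_image s (fun i => P₀.ord (f i)) hne
    set m := P₀.ord (f i₀) with hm
    have hordeq : ∀ i ∈ s, P₀.ord (f i * π ^ (-m)) = P₀.ord (f i) - m := by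
      intro i hi
      rw [P₀.ord_mul (hfne i hi) (zpow_ne_zero _ hπ0), P₀.ord_zpow, hπ]
      ring
    have hord : ∀ i ∈ s, 0 ≤ P₀.ord (f i * π ^ (-m)) := by
      intro i hi
      rw [hordeq i hi]
      have := hmin i hi
      omega
    choose! b hb using fun i (hi : i ∈ s) => exists_residue P₀ hS₀ (hord i hi)
    have hb0 : b i₀ ≠ 0 := by
      refine residue_ne_zero P₀ (mul_ne_zero (hfne i₀ hi₀) (zpow_ne_zero _ hπ0)) ?_ (hb i₀ hi₀)
      rw [hordeq i₀ hi₀]
      omega
    have hκb0 : κ (b i₀) ≠ 0 := by simpa using hb0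
    -- the residue of the relation
    have hkey : ∑ i ∈ s, c i * κ (b i) = 0 := by
      apply eq_zero_of_algebraMap_mem_mP P
      have h1 : algebraMap K F (∑ i ∈ s, c i * κ (b i))
          = (∑ i ∈ s, c i • ι (f i)) * ι π ^ (-m)
            - ∑ i ∈ s, c i • ι (f i * π ^ (-m) - algebraMap K₀ F₀ (b i)) := by
        rw [Finset.sum_mul, map_sum, ← Finset.sum_sub_distrib]
        refine Finset.sum_congr rfl fun i _ => ?_
        have e1 : ι (f i * π ^ (-m)) = ι (f i) * ι π ^ (-m) := by
          rw [map_mul, map_zpow₀]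
        have e2 : algebraMap K F (c i * κ (b i)) = c i • ι (algebraMap K₀ F₀ (b i)) := by
          rw [map_mul, comm, Algebra.smul_def]
        rw [map_sub, e1, e2, smul_sub, smul_mul_assoc]
        abel
      rw [h1, hsum, zero_mul, zero_sub]
      exact Submodule.neg_mem _ (Submodule.sum_mem _ fun i hi =>
        Submodule.smul_mem _ _ (ι_mem_mP_of_ext hext (hb i hi)))
    -- the new family
    set g : I → F₀ := fun i => f i - (b i / b i₀) • f i₀ with hg
    have hcard : (s.erase i₀).card ≤ n := by
      have h1 := Finset.card_erase_lt_of_mem hi₀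
      omega
    have hind' : ∀ a : I → K₀, ∑ i ∈ s.erase i₀, a i • g i = 0 →
        ∀ i ∈ s.erase i₀, a i = 0 := by
      intro a ha i hi
      have ha' : ∑ j ∈ s.erase i₀, a j • f j
          - (∑ j ∈ s.erase i₀, a j * (b j / b i₀)) • f i₀ = 0 := by
        rw [← ha, Finset.sum_smul, ← Finset.sum_sub_distrib]
        refine Finset.sum_congr rfl fun j _ => ?_
        rw [hg, smul_sub, smul_smul]
      have hrel : ∑ j ∈ s,
          (Function.update a i₀ (-(∑ j ∈ s.erase i₀, a j * (b j / b i₀))) j) • f j = 0 := by
        rw [← Finset.add_sum_erase s _ hi₀, Function.update_self]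
        have e : ∑ j ∈ s.erase i₀,
            (Function.update a i₀ (-(∑ j ∈ s.erase i₀, a j * (b j / b i₀))) j) • f j
            = ∑ j ∈ s.erase i₀, a j • f j :=
          Finset.sum_congr rfl fun j hj => by
            rw [Function.update_of_ne (Finset.ne_of_mem_erase hj)]
        rw [e, neg_smul, ← ha']
        abel
      have h2 := hind _ hrel i (Finset.mem_of_mem_erase hi)
      rwa [Function.update_of_ne (Finset.ne_of_mem_erase hi)] at h2
    have hci₀ : c i₀ = -(∑ i ∈ s.erase i₀, c i * κ (b i)) * (κ (b i₀))⁻¹ := by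
      have h := Finset.add_sum_erase s (fun i => c i * κ (b i)) hi₀
      rw [hkey] at h
      field_simp
      linear_combination h
    have hsum' : ∑ i ∈ s.erase i₀, c i • ι (g i) = 0 := by
      have h2 : ∑ i ∈ s.erase i₀, c i • ι (g i)
          = ∑ i ∈ s.erase i₀, c i • ι (f i)
            - (∑ i ∈ s.erase i₀, c i * κ (b i)) • ((κ (b i₀))⁻¹ • ι (f i₀)) := by
        rw [Finset.sum_smul, ← Finset.sum_sub_distrib]
        refine Finset.sum_congr rfl fun i _ => ?_
        have e3 : ι ((b i / b i₀) • f i₀) = (κ (b i) * (κ (b i₀))⁻¹) • ι (f i₀) := by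
          rw [Algebra.smul_def, map_mul, comm, Algebra.smul_def, map_div₀, div_eq_mul_inv]
        rw [hg, map_sub, e3, smul_sub, mul_smul, mul_smul]
      rw [h2, ← hsum, ← Finset.add_sum_erase s (fun i => c i • ι (f i)) hi₀, hci₀, neg_mul,
        neg_smul, mul_smul]
      abel
    have hzero := ih (s.erase i₀) g c hcard hind' hsum'
    intro i hi
    by_cases hii : i = i₀
    · rw [hii]
      have h := Finset.add_sum_erase s (fun j => c j * κ (b j)) hi₀
      rw [hkey] at h
      have h2 : ∑ j ∈ s.erase i₀, c j * κ (b j) = 0 :=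
        Finset.sum_eq_zero fun j hj => by rw [hzero j hj, zero_mul]
      rw [h2, add_zero] at h
      exact (mul_eq_zero.mp h).resolve_right hκb0
    · exact hzero i (Finset.mem_erase.mpr ⟨hii, hi⟩)

/-- **Linear disjointness from a place.** -/
theorem linearIndependent_of_place
    (comm : ∀ a : K₀, ι (algebraMap K₀ F₀ a) = algebraMap K F (κ a))
    (hS₀ : RiemannSetting K₀ F₀) {P : Place K F} {P₀ : Place K₀ F₀}
    (hext : ∀ f : F₀, ι f ∈ P.toValuationSubring ↔ f ∈ P₀.toValuationSubring) {I : Type*}
    (f : I → F₀) (hf : LinearIndependent K₀ f) : LinearIndependent K (fun i => ι (f i)) := by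
  classical
  rw [linearIndependent_iff']
  intro s c hsum i hi
  refine ld_sum comm hS₀ hext s.card s f c le_rfl ?_ hsum i hi
  intro a ha j hj
  exact linearIndependent_iff'.mp hf s a ha j hj

/-- **Linear disjointness for SUB**: if `F₀/K₀` and `F/K` are `RiemannSetting`s and `F₀`
contains an element which is not constant in `F`, then `F₀` and `K` are linearly disjoint over
`K₀`. -/
theorem linDisj_of_riemannSetting
    (comm : ∀ a : K₀, ι (algebraMap K₀ F₀ a) = algebraMap K F (κ a))
    (hS₀ : RiemannSetting K₀ F₀) (hS : RiemannSetting K F) (x₀ : F₀)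
    (hx : ι x₀ ∉ Set.range (algebraMap K F)) (n : ℕ) (f : Fin n → F₀)
    (hf : LinearIndependent K₀ f) : LinearIndependent K (fun i => ι (f i)) := by
  obtain ⟨P, hP⟩ := exists_zero_of_nonconstant hS hx
  have hne : P.toValuationSubring.comap ι ≠ ⊤ := by
    intro htop
    have h1 : x₀⁻¹ ∈ P.toValuationSubring.comap ι := htop ▸ ValuationSubring.mem_top _
    rw [ValuationSubring.mem_comap, helper82.mem_iff_ord_nonneg, map_inv₀, P.ord_inv] at h1
    omega
  exact linearIndependent_of_place comm hS₀
    (mem_comapPlace κ ι comm P hne) f hf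

end LinDisj

end Fermat.Agent.LEF.helper99
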