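import Mathlib
import Fermat.Agent.LEF.helper99_ComplexModel
import Fermat.Agent.LEF.helper99_CountableModel
import Fermat.Agent.LEF.helper85_Sub

/-!
# P5-LEF, final statements (helper99, LEF sub-coordinator)

The two LEF items of `helper25.s27_of_modules`, from the single open input `H1Statement`
(P5-RR, package RR-H1: the index of speciality; it identifies `genusFF` with the Riemann genus):

* `existsComplexModel`   (in `helper99_ComplexModel`) :
    `H1Statement.{u, v} → H1Statement.{0, 0} → ExistsComplexModel.{u, v}`;
* `subStatement`         : `SubStatement` (= helper85 `exists_countable_submodel`);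
* `existsCountableModel` : `H1Statement.{u, v} → ExistsCountableModel.{u, v}`.
-/

set_option autoImplicit false

namespace Fermat.Agent.LEF.helper99

open Fermat.Agent.P5.helper25 Fermat.Agent.P5.helper42

universe u v

/-- **SUB** (helper85). -/
theorem subStatement : SubStatement.{u, v} := by
  intro K F _ _ _ _ _ x hx _ T hT
  exact helper85.exists_countable_submodel K F x hx T hT

/-- **KASM**: countable models exist, given RR-H1. -/
theorem existsCountableModel (hH1 : H1Statement.{u, v}) : ExistsCountableModel.{u, v} :=
  existsCountableModel_of hH1 subStatement

end Fermat.Agent.LEF.helper99
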