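import Fermat.Agent.LEF.helper99_P5Final
import Fermat.Agent.LEF.helper99_ComplexModel
import Fermat.Agent.P5.helper52_H1

/-!
# LEF for P5: the two model-existence inputs of `helper25.s27_of_modules`, UNCONDITIONAL

`helper52.h1Statement : helper42.H1Statement` (RR-H1, task 561) is the only external input of
`helper99.existsComplexModel` (item (7)) and `helper99.existsCountableModel` (item (8)).
-/

namespace Fermat.Agent.LEF.helper99

universe u v

/-- Item (7) of `helper25.s27_of_modules`, unconditional. -/
theorem existsComplexModel_uncond : Fermat.Agent.P5.helper25.ExistsComplexModel.{u, v} :=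
  existsComplexModel Fermat.Agent.P5.helper52.h1Statement Fermat.Agent.P5.helper52.h1Statement

/-- Item (8) of `helper25.s27_of_modules`, unconditional. -/
theorem existsCountableModel_uncond : Fermat.Agent.P5.helper25.ExistsCountableModel.{u, v} :=
  existsCountableModel Fermat.Agent.P5.helper52.h1Statement

end Fermat.Agent.LEF.helper99
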